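/-
The antiholomorphic involution `τ ↦ - conj τ` on modular and meromorphic functions, and
complex conjugation of `q`-expansions.
-/
import Fermat.Agent.Bridge.Field
import Fermat.Prelude.Def_ModularCurve_PeriodHomPair
import Mathlib.Analysis.Calculus.Deriv.Star

set_option autoImplicit false
set_option linter.unusedSectionVars false

noncomputable section

open scoped Manifold MatrixGroups Topology
open UpperHalfPlane hiding I
open Complex Filter Function CongruenceSubgroup ModularCurve
open FLTA.Bridge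

namespace FLTA.Kummer

local notation "𝕢" => Function.Periodic.qParam
local notation "cc" => starRingEnd ℂ

/-- `τ ↦ - conj τ`. -/
def negConj (τ : ℍ) : ℍ :=
  ⟨-(starRingEnd ℂ (τ : ℂ)), by simpa using τ.im_pos⟩

@[simp] theorem coe_negConj (τ : ℍ) : (negConj τ : ℂ) = -cc (τ : ℂ) := rfl

@[simp] theorem negConj_negConj (τ : ℍ) : negConj (negConj τ) = τ :=
  UpperHalfPlane.ext (by simp)

@[simp] theorem im_negConj (τ : ℍ) : (negConj τ).im = τ.im := by
  rw [← UpperHalfPlane.coe_im, ← UpperHalfPlane.coe_im, coe_negConj]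
  simp

theorem negConj_smul (γ : SL(2, ℤ)) (τ : ℍ) :
    negConj (γ • τ) = Period.jConjSL γ • negConj τ := by
  apply UpperHalfPlane.ext
  rw [coe_negConj, coe_specialLinearGroup_apply, coe_specialLinearGroup_apply,
    Period.jConjSL_coe, coe_negConj]
  simp only [Period.jConjMat_apply_zero_zero, Period.jConjMat_apply_zero_one,
    Period.jConjMat_apply_one_zero, Period.jConjMat_apply_one_one]
  simp only [algebraMap_int_eq, eq_intCast, map_div₀, map_add, map_mul]
  push_cast
  simp only [Complex.conj_ofReal, map_intCast, neg_mul_neg]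
  rw [← neg_div]
  congr 1
  ring

theorem qParam_negConj (h : ℝ) (τ : ℍ) :
    cc (𝕢 h ((negConj τ : ℍ) : ℂ)) = 𝕢 h (τ : ℂ) := by
  simp only [Periodic.qParam, ← Complex.exp_conj, coe_negConj]
  congr 1
  simp [map_ofNat]

/-- The conjugate of a function on `ℍ`. -/
def conjFun (F : ℍ → ℂ) (τ : ℍ) : ℂ := cc (F (negConj τ))

theorem conjFun_conjFun (F : ℍ → ℂ) : conjFun (conjFun F) = F := by
  funext τ
  simp [conjFun]

theorem conjFun_mem_hol {F : ℍ → ℂ} (hF : F ∈ Hol) : conjFun F ∈ Hol := by
  rw [mem_hol_iff_differentiableOn]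
  intro z hz
  have hz' : 0 < (-cc z).im := by simpa using hz
  have h1 : DifferentiableAt ℂ (fun w => (F ∘ ofComplex) (-w)) (cc z) :=
    ((mem_hol_iff_differentiableOn.1 hF).differentiableAt
      (isOpen_upperHalfPlaneSet.mem_nhds hz')).comp (cc z) differentiable_neg.differentiableAt
  have h2 := h1.conj_conj
  rw [Complex.conj_conj] at h2
  refine (h2.congr_of_eventuallyEq ?_).differentiableWithinAt
  filter_upwards [isOpen_upperHalfPlaneSet.mem_nhds hz] with w hw
  have hw' : 0 < (-cc w).im := by simpa using hw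
  simp only [comp_apply, conjFun, ofComplex_apply_of_im_pos hw, ofComplex_apply_of_im_pos hw']
  rfl

/-- Conjugation of holomorphic functions. -/
def conjHol : Hol ≃+* Hol where
  toFun F := ⟨conjFun F, conjFun_mem_hol F.2⟩
  invFun F := ⟨conjFun F, conjFun_mem_hol F.2⟩
  left_inv F := Subtype.ext (conjFun_conjFun F)
  right_inv F := Subtype.ext (conjFun_conjFun F)
  map_mul' F G := Subtype.ext (funext fun τ => by simp [conjFun])
  map_add' F G := Subtype.ext (funext fun τ => by simp [conjFun])

/-- Conjugation of meromorphic functions. -/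
def conjMero : Mero ≃+* Mero := IsFractionRing.ringEquivOfRingEquiv conjHol

theorem conjMero_algebraMap (F : Hol) :
    conjMero (algebraMap Hol Mero F) = algebraMap Hol Mero (conjHol F) :=
  IsFractionRing.ringEquivOfRingEquiv_algebraMap _ F

theorem conjMero_const (c : ℂ) : conjMero (algebraMap ℂ Mero c) = algebraMap ℂ Mero (cc c) := by
  rw [IsScalarTower.algebraMap_apply ℂ Hol Mero, conjMero_algebraMap,
    IsScalarTower.algebraMap_apply ℂ Hol Mero (cc c)]
  congr 1

theorem meroSmul_conjMero (γ : SL(2, ℤ)) (x : Mero) :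
    meroSmul (Matrix.SpecialLinearGroup.toGLPos
        (Matrix.SpecialLinearGroup.map (Int.castRingHom ℝ) γ)) (conjMero x) =
      conjMero (meroSmul (Matrix.SpecialLinearGroup.toGLPos
        (Matrix.SpecialLinearGroup.map (Int.castRingHom ℝ) (Period.jConjSL γ))) x) := by
  obtain ⟨A, B, -, rfl⟩ := IsFractionRing.div_surjective (A := Hol) x
  simp only [map_div₀, meroSmul_algebraMap, conjMero_algebraMap]
  have key : ∀ F : Hol, holSmulEquiv (Matrix.SpecialLinearGroup.toGLPos
      (Matrix.SpecialLinearGroup.map (Int.castRingHom ℝ) γ)) (conjHol F) =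
      conjHol (holSmulEquiv (Matrix.SpecialLinearGroup.toGLPos
        (Matrix.SpecialLinearGroup.map (Int.castRingHom ℝ) (Period.jConjSL γ))) F) := fun F => by
    refine Subtype.ext (funext fun τ => ?_)
    show cc ((F : ℍ → ℂ) (negConj (γ • τ))) = cc ((F : ℍ → ℂ) (Period.jConjSL γ • negConj τ))
    rw [negConj_smul]
  rw [key, key]

theorem ordAt_conjFun {F : ℍ → ℂ} (hF : F ∈ Hol) (hF0 : F ≠ 0) (τ : ℍ) :
    ordAt τ (conjFun F) = ordAt (negConj τ) F := by
  obtain ⟨g, hg, hg0, hFg⟩ := (analyticAt_of_mem_hol hF (negConj τ)).analyticOrderAt_ne_top.mp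
    (analyticOrderAt_ne_top hF hF0 _)
  replace hFg : ∀ᶠ z in 𝓝 ((negConj τ : ℍ) : ℂ),
      F (ofComplex z) = (z - (negConj τ : ℍ)) ^ ordAt (negConj τ) F * g z := hFg
  set m := ordAt (negConj τ) F
  have ht : Tendsto (fun z : ℂ => -cc z) (𝓝 (τ : ℂ)) (𝓝 ((negConj τ : ℍ) : ℂ)) :=
    (Complex.continuous_conj.neg).tendsto _
  have hG : AnalyticAt ℂ (fun z => (-1 : ℂ) ^ m * cc (g (-cc z))) (τ : ℂ) := by
    rw [Complex.analyticAt_iff_eventually_differentiableAt]
    filter_upwards [ht.eventually hg.eventually_analyticAt] with z hz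
    have h1 : DifferentiableAt ℂ (fun w => g (-w)) (cc z) :=
      hz.differentiableAt.comp (cc z) differentiable_neg.differentiableAt
    have h2 := h1.conj_conj
    rw [Complex.conj_conj] at h2
    exact h2.const_mul _
  have h : analyticOrderAt (conjFun F ∘ ofComplex) (τ : ℂ) = m := by
    rw [(analyticAt_of_mem_hol (conjFun_mem_hol hF) τ).analyticOrderAt_eq_natCast]
    refine ⟨_, hG, ?_, ?_⟩
    · simpa [coe_negConj] using hg0
    filter_upwards [ht.eventually hFg, isOpen_upperHalfPlaneSet.mem_nhds τ.im_pos] with z h1 hz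
    have hz' : 0 < (-cc z).im := by simpa using hz
    rw [ofComplex_apply_of_im_pos hz'] at h1
    have e : negConj ⟨z, hz⟩ = (⟨-cc z, hz'⟩ : ℍ) := rfl
    simp only [comp_apply, conjFun, ofComplex_apply_of_im_pos hz, e, h1, coe_negConj, map_mul,
      map_pow, map_sub, map_neg, Complex.conj_conj, smul_eq_mul]
    rw [show (-z - -(τ : ℂ)) = (-1) * (z - τ) by ring, mul_pow]
    ring
  rw [ordAt, analyticOrderNatAt, h, ENat.toNat_natCast]

theorem meroOrd_conjMero (τ : ℍ) (x : Mero) :
    meroOrd τ (conjMero x) = meroOrd (negConj τ) x := by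
  rcases eq_or_ne x 0 with rfl | hx
  · simp [meroOrd]
  obtain ⟨A, B, hB, rfl⟩ := IsFractionRing.div_surjective (A := Hol) x
  have hA : A ≠ 0 := fun h => hx (by simp [h])
  have hB' : B ≠ 0 := nonZeroDivisors.ne_zero hB
  rw [map_div₀, conjMero_algebraMap, conjMero_algebraMap,
    meroOrd_div τ (by simpa using hA) (by simpa using hB'), meroOrd_div _ hA hB']
  congr 1 <;> norm_cast
  · exact ordAt_conjFun A.2 (fun h => hA (Subtype.ext h)) τ
  · exact ordAt_conjFun B.2 (fun h => hB' (Subtype.ext h)) τ

/-! ### Modular functions -/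

theorem GrowthInfty.conjFun' {F : ℍ → ℂ} (hF : GrowthInfty F) : GrowthInfty (conjFun F) := by
  obtain ⟨n, hn⟩ := hF
  refine ⟨n, ?_⟩
  rw [isBoundedAtImInfty_iff] at hn ⊢
  obtain ⟨M, A, h⟩ := hn
  refine ⟨M, A, fun z hz => ?_⟩
  have h1 := h (negConj z) (by rwa [im_negConj])
  rw [norm_mul] at h1 ⊢
  rw [norm_pow, ← qParam_negConj 1 z, RCLike.norm_conj, ← norm_pow, conjFun, RCLike.norm_conj]
  exact h1

variable (N : ℕ) [NeZero N]

theorem conjFun_mem_modHol {F : ℍ → ℂ} (hF : F ∈ ModHol N) : conjFun F ∈ ModHol N := by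
  refine ⟨conjFun_mem_hol hF.1, fun γ hγ τ => ?_, fun g => ?_⟩
  · simp only [conjFun, negConj_smul, hF.2.1 _ (Period.jConjSL_mem_Gamma0 hγ)]
  · have e : (fun τ : ℍ => conjFun F (g • τ)) =
        conjFun (fun τ : ℍ => F (Period.jConjSL g • τ)) := by
      funext τ
      simp only [conjFun, negConj_smul]
    rw [e]
    exact GrowthInfty.conjFun' (hF.2.2 _)

/-- Conjugation of modular functions. -/
def conjModHol : ModHol N →+* ModHol N where
  toFun F := ⟨conjFun F, conjFun_mem_modHol N F.2⟩
  map_one' := Subtype.ext (funext fun τ => by simp [conjFun])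
  map_mul' F G := Subtype.ext (funext fun τ => by simp [conjFun])
  map_zero' := Subtype.ext (funext fun τ => by simp [conjFun])
  map_add' F G := Subtype.ext (funext fun τ => by simp [conjFun])

theorem conjModHol_ne_zero {F : ModHol N} (hF : F ≠ 0) : conjModHol N F ≠ 0 := fun h => hF <| by
  refine Subtype.ext ?_
  have h' := congrArg (fun G : ModHol N => conjFun (G : ℍ → ℂ)) h
  simp only [conjModHol, RingHom.coe_mk, MonoidHom.coe_mk, OneHom.coe_mk, conjFun_conjFun] at h'
  rw [h']
  funext τ
  simp [conjFun]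

theorem modHolToHol_conjModHol (F : ModHol N) :
    modHolToHol N (conjModHol N F) = conjHol (modHolToHol N F) := rfl

omit [NeZero N] in
theorem expansionFun_conjFun {F : ℍ → ℂ} (hF : F ∈ HolInfty 1) (hF' : conjFun F ∈ HolInfty 1) :
    expansionFun 1 (conjFun F) = coeffMap cc (expansionFun 1 F) := by
  have hn := isBounded_poleBound hF.2.2
  set n := poleBound F
  have e : (fun τ : ℍ => 𝕢 1 τ ^ n * conjFun F τ) = conjFun (fun τ : ℍ => 𝕢 1 τ ^ n * F τ) := by
    funext τ
    simp only [conjFun, map_mul, map_pow, qParam_negConj]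
  have hb : IsBoundedAtImInfty (fun τ : ℍ => 𝕢 1 τ ^ n * conjFun F τ) := by
    rw [e]
    rw [isBoundedAtImInfty_iff] at hn ⊢
    obtain ⟨M, A, h⟩ := hn
    refine ⟨M, A, fun z hz => ?_⟩
    rw [conjFun, RCLike.norm_conj]
    exact h (negConj z) (by rwa [im_negConj])
  have hq : qExpansion ((1 : ℕ) : ℝ) (fun τ : ℍ => 𝕢 1 τ ^ n * conjFun F τ) =
      PowerSeries.map cc (qExpansion ((1 : ℕ) : ℝ) (fun τ : ℍ => 𝕢 1 τ ^ n * F τ)) := by
    refine qExpansion_eq_of_hasSum 1 (qParam_pow_mul_mem 1 hF' n) hb fun τ => ?_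
    have hs := (hasSum_qExpansion' 1 (qParam_pow_mul_mem 1 hF n) hn (negConj τ)).map cc
      Complex.continuous_conj
    rw [congrFun e τ]
    refine hs.congr_fun fun m => ?_
    simp only [PowerSeries.coeff_map, comp_apply, map_mul, map_pow, qParam_negConj]
  rw [expansionFun_eq 1 hF' hb, hq, expansionFun, map_mul]
  congr 1
  · ext k
    rw [coeffMap_coeff, HahnSeries.coeff_single, apply_ite cc, map_one,
      map_zero]
  · ext k
    rw [coeffMap_coeff]
    rcases lt_or_ge k 0 with hk | hk
    · rw [ModularCurve.ofPowerSeries_coeff_of_neg _ hk,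
        ModularCurve.ofPowerSeries_coeff_of_neg _ hk, map_zero]
    · lift k to ℕ using hk
      rw [HahnSeries.ofPowerSeries_apply_coeff, HahnSeries.ofPowerSeries_apply_coeff,
        PowerSeries.coeff_map]

theorem qexp_conjModHol (F : ModHol N) :
    qexp N (conjModHol N F) = coeffMap cc (qexp N F) :=
  expansionFun_conjFun (mem_holInfty_one_of_mem_modHol N F.2)
    (mem_holInfty_one_of_mem_modHol N (conjModHol N F).2)

variable {L : Type*} [Field L] [Algebra ℚ L] (ι : L →+* ℂ)

/-- Conjugating the coefficients conjugates the meromorphic function. -/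
theorem evMero_eq_conjMero {x y : laurentBaseChange L (modularFunctionFieldFull N)}
    (h : coeffMap ι (y : LaurentSeries L) = coeffMap cc (coeffMap ι (x : LaurentSeries L))) :
    evMero N ι y = conjMero (evMero N ι x) := by
  obtain ⟨A, B, hB, hAB⟩ := exists_rep N ι x
  have h' : coeffMap ι (y : LaurentSeries L) * qexp N (conjModHol N B) =
      qexp N (conjModHol N A) := by
    rw [h, qexp_conjModHol, qexp_conjModHol, ← map_mul, hAB]
  rw [evMero_eq_of_rep N ι hB hAB, evMero_eq_of_rep N ι (conjModHol_ne_zero N hB) h', map_div₀,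
    conjMero_algebraMap, conjMero_algebraMap, modHolToHol_conjModHol, modHolToHol_conjModHol]

/-- Complex conjugation of `ℚ̄` conjugates the meromorphic function. -/
theorem evMero_complexConjugation
    (x : laurentBaseChange (AlgebraicClosure ℚ) (modularFunctionFieldFull N)) :
    evMero N complexEmbedding.toRingHom
        (arithmeticGalois (modularFunctionFieldFull N) complexConjugation • x) =
      conjMero (evMero N complexEmbedding.toRingHom x) :=
  evMero_eq_conjMero N _ (by
    rw [coe_arithmeticGalois_smul, coeffMap_coeffMap, coeffMap_coeffMap]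
    exact coeffMap_congr (RingHom.ext complexEmbedding_complexConjugation) _)

theorem meroOrd_evMero_complexConjugation
    (x : laurentBaseChange (AlgebraicClosure ℚ) (modularFunctionFieldFull N)) (τ : ℍ) :
    ordF N complexEmbedding.toRingHom τ
        (arithmeticGalois (modularFunctionFieldFull N) complexConjugation • x) =
      ordF N complexEmbedding.toRingHom (negConj τ) x := by
  rw [ordF, ordF, evMero_complexConjugation, meroOrd_conjMero]

end FLTA.Kummer
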