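/-
Conjugation by the Fricke matrix `!![0, -1; N, 0]` as an automorphism of `Γ₀(N)`.
-/
import Mathlib.NumberTheory.ModularForms.CongruenceSubgroups
import Fermat.Prelude.Def_ModularCurve_PeriodHomPair

set_option autoImplicit false

open CongruenceSubgroup
open scoped MatrixGroups

namespace FLTA.Kummer

variable (N : ℕ)

/-- `N` divides the lower left entry of an element of `Γ₀(N)`. -/
theorem dvd_lowerLeft (γ : Gamma0 N) :
    (N : ℤ) ∣ ((γ : SL(2, ℤ)) : Matrix (Fin 2) (Fin 2) ℤ) 1 0 :=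
  (ZMod.intCast_zmod_eq_zero_iff_dvd _ _).1 (Gamma0_mem.mp γ.2)

/-- The matrix `(d, -c/N; -N b, a)` attached to `(a, b; c, d)`. -/
def frickeMat (A : Matrix (Fin 2) (Fin 2) ℤ) : Matrix (Fin 2) (Fin 2) ℤ :=
  !![A 1 1, -(A 1 0 / N); -((N : ℤ) * A 0 1), A 0 0]

variable [NeZero N]

theorem natCast_ne_zero' : (N : ℤ) ≠ 0 := by exact_mod_cast NeZero.ne N

theorem frickeMat_det {A : Matrix (Fin 2) (Fin 2) ℤ} (h : (N : ℤ) ∣ A 1 0) :
    (frickeMat N A).det = A.det := by
  obtain ⟨c, hc⟩ := h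
  rw [frickeMat, Matrix.det_fin_two_of, Matrix.det_fin_two, hc,
    Int.mul_ediv_cancel_left _ (natCast_ne_zero' N)]
  ring

theorem frickeMat_mul {A B : Matrix (Fin 2) (Fin 2) ℤ} (hA : (N : ℤ) ∣ A 1 0)
    (hB : (N : ℤ) ∣ B 1 0) : frickeMat N (A * B) = frickeMat N A * frickeMat N B := by
  obtain ⟨c, hc⟩ := hA
  obtain ⟨d, hd⟩ := hB
  have h : (A * B) 1 0 = (N : ℤ) * (c * B 0 0 + A 1 1 * d) := by
    rw [Matrix.mul_apply, Fin.sum_univ_two, hc, hd]; ring
  ext i j
  fin_cases i <;> fin_cases j <;>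
    simp [frickeMat, h, hc, hd, Matrix.mul_apply, Fin.sum_univ_two,
      Int.mul_ediv_cancel_left _ (natCast_ne_zero' N)] <;> ring

/-- Fricke conjugation on `Γ₀(N)`. -/
def frickeFun (γ : Gamma0 N) : Gamma0 N :=
  ⟨⟨frickeMat N ((γ : SL(2, ℤ)) : Matrix (Fin 2) (Fin 2) ℤ),
      by rw [frickeMat_det N (dvd_lowerLeft N γ)]; exact (γ : SL(2, ℤ)).2⟩, by
    rw [Gamma0_mem]
    show ((((frickeMat N ((γ : SL(2, ℤ)) : Matrix (Fin 2) (Fin 2) ℤ)) 1 0 : ℤ)) : ZMod N) = 0
    simp [frickeMat]⟩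

theorem frickeFun_coe (γ : Gamma0 N) :
    (((frickeFun N γ : Gamma0 N) : SL(2, ℤ)) : Matrix (Fin 2) (Fin 2) ℤ)
      = frickeMat N ((γ : SL(2, ℤ)) : Matrix (Fin 2) (Fin 2) ℤ) := rfl

theorem frickeFun_frickeFun (γ : Gamma0 N) : frickeFun N (frickeFun N γ) = γ := by
  obtain ⟨c, hc⟩ := dvd_lowerLeft N γ
  apply Subtype.ext
  apply Subtype.ext
  rw [frickeFun_coe, frickeFun_coe]
  ext i j
  fin_cases i <;> fin_cases j <;>
    simp [frickeMat, hc, Int.mul_ediv_cancel_left _ (natCast_ne_zero' N),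
      Int.neg_ediv_of_dvd]

/-- Fricke conjugation on `Γ₀(N)` as a group automorphism. -/
def frickeConj : Gamma0 N ≃* Gamma0 N where
  toFun := frickeFun N
  invFun := frickeFun N
  left_inv := frickeFun_frickeFun N
  right_inv := frickeFun_frickeFun N
  map_mul' γ δ := by
    apply Subtype.ext
    apply Subtype.ext
    rw [Subgroup.coe_mul, Matrix.SpecialLinearGroup.coe_mul, frickeFun_coe, frickeFun_coe,
      frickeFun_coe, Subgroup.coe_mul, Matrix.SpecialLinearGroup.coe_mul]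
    exact frickeMat_mul N (dvd_lowerLeft N γ) (dvd_lowerLeft N δ)

theorem frickeConj_coe (γ : Gamma0 N) :
    (((frickeConj N γ : Gamma0 N) : SL(2, ℤ)) : Matrix (Fin 2) (Fin 2) ℤ)
      = frickeMat N ((γ : SL(2, ℤ)) : Matrix (Fin 2) (Fin 2) ℤ) := rfl

theorem frickeConj_frickeConj (γ : Gamma0 N) : frickeConj N (frickeConj N γ) = γ :=
  frickeFun_frickeFun N γ

theorem frickeConj_trace (γ : Gamma0 N) :
    (((frickeConj N γ : Gamma0 N) : SL(2, ℤ)) : Matrix (Fin 2) (Fin 2) ℤ).trace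
      = ((γ : SL(2, ℤ)) : Matrix (Fin 2) (Fin 2) ℤ).trace := by
  rw [frickeConj_coe, frickeMat, Matrix.trace_fin_two_of, Matrix.trace_fin_two]
  ring

theorem frickeConj_jConjGamma0 (γ : Gamma0 N) :
    frickeConj N (ModularCurve.Period.jConjGamma0 N γ)
      = ModularCurve.Period.jConjGamma0 N (frickeConj N γ) := by
  obtain ⟨c, hc⟩ := dvd_lowerLeft N γ
  apply Subtype.ext
  apply Subtype.ext
  rw [frickeConj_coe, ModularCurve.Period.jConjGamma0_coe, ModularCurve.Period.jConjSL_coe,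
    ModularCurve.Period.jConjGamma0_coe, ModularCurve.Period.jConjSL_coe, frickeConj_coe]
  ext i j
  fin_cases i <;> fin_cases j <;>
    simp [frickeMat, ModularCurve.Period.jConjMat, hc,
      Int.mul_ediv_cancel_left _ (natCast_ne_zero' N), Int.neg_ediv_of_dvd]

/-- Precomposition of a homomorphism with Fricke conjugation. -/
noncomputable def frickePull (A : Type*) [AddCommGroup A] :
    (Additive (Gamma0 N) →+ A) ≃+ (Additive (Gamma0 N) →+ A) where
  toFun φ := φ.comp (MonoidHom.toAdditive (frickeConj N).toMonoidHom)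
  invFun φ := φ.comp (MonoidHom.toAdditive (frickeConj N).toMonoidHom)
  left_inv φ := AddMonoidHom.ext fun γ => by
    show φ (Additive.ofMul (frickeConj N (frickeConj N (Additive.toMul γ)))) = φ γ
    rw [frickeConj_frickeConj]; rfl
  right_inv φ := AddMonoidHom.ext fun γ => by
    show φ (Additive.ofMul (frickeConj N (frickeConj N (Additive.toMul γ)))) = φ γ
    rw [frickeConj_frickeConj]; rfl
  map_add' _ _ := rfl

@[simp] theorem frickePull_apply {A : Type*} [AddCommGroup A] (φ : Additive (Gamma0 N) →+ A)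
    (γ : Additive (Gamma0 N)) :
    frickePull N A φ γ = φ (Additive.ofMul (frickeConj N (Additive.toMul γ))) := rfl

end FLTA.Kummer
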