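/-
An element of an algebraically closed field with finite orbit under the automorphisms fixing an
algebraically closed subfield lies in that subfield.
-/
import Mathlib.FieldTheory.IsAlgClosed.Classification
import Mathlib.RingTheory.AlgebraicIndependent.Transcendental
import Mathlib.RingTheory.AlgebraicIndependent.TranscendenceBasis
import Mathlib.Algebra.CharP.Defs

set_option autoImplicit false

noncomputable section

namespace FLTA.Kummer

section Shift

variable {K : Type*} [CommRing K] {ι : Type*}

open scoped Classical in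
/-- Translate the variable `i₀` by the constant `c`. -/
def shiftVar (i₀ : ι) (c : K) : MvPolynomial ι K →ₐ[K] MvPolynomial ι K :=
  MvPolynomial.aeval fun i => if i = i₀ then MvPolynomial.X i + MvPolynomial.C c else MvPolynomial.X i

theorem shiftVar_comp (i₀ : ι) (c d : K) :
    (shiftVar i₀ c).comp (shiftVar i₀ d) = shiftVar i₀ (c + d) := by
  classical
  refine MvPolynomial.algHom_ext fun i => ?_
  by_cases hi : i = i₀
  · simp [shiftVar, hi, add_assoc]
  · simp [shiftVar, hi]

theorem shiftVar_zero (i₀ : ι) : shiftVar i₀ (0 : K) = AlgHom.id K _ := by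
  classical
  refine MvPolynomial.algHom_ext fun i => ?_
  by_cases hi : i = i₀ <;> simp [shiftVar, hi]

/-- Translation of a variable as an automorphism. -/
def shiftEquiv (i₀ : ι) (c : K) : MvPolynomial ι K ≃ₐ[K] MvPolynomial ι K :=
  AlgEquiv.ofAlgHom (shiftVar i₀ c) (shiftVar i₀ (-c))
    (by rw [shiftVar_comp, add_neg_cancel, shiftVar_zero])
    (by rw [shiftVar_comp, neg_add_cancel, shiftVar_zero])

theorem shiftEquiv_X_self (i₀ : ι) (c : K) :
    shiftEquiv i₀ c (MvPolynomial.X i₀) = MvPolynomial.X i₀ + MvPolynomial.C c := by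
  classical
  simp [shiftEquiv, shiftVar]

end Shift

variable {K L : Type*} [Field K] [Field L] [Algebra K L] [IsAlgClosed L]

/-- A transcendental element can be translated by any constant by an automorphism. -/
theorem exists_algEquiv_apply_eq_add {x : L} (hx : Transcendental K x) (c : K) :
    ∃ σ : L ≃ₐ[K] L, σ x = x + algebraMap K L c := by
  have hs : AlgebraicIndepOn K id ({x} : Set L) :=
    (algebraicIndependent_unique_type_iff).2 hx
  obtain ⟨t, hxt, ht⟩ := exists_isTranscendenceBasis_superset hs
  have := IsAlgClosed.isAlgClosure_of_transcendence_basis _ ht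
  set A := Algebra.adjoin K (Set.range ((↑) : t → L)) with hA
  let i₀ : t := ⟨x, hxt rfl⟩
  let e : A ≃ₐ[K] A := ht.1.aevalEquiv.symm.trans ((shiftEquiv i₀ c).trans ht.1.aevalEquiv)
  let σ : L ≃+* L := IsAlgClosure.equivOfEquiv L L e.toRingEquiv
  have hσ : ∀ a : A, σ (algebraMap A L a) = algebraMap A L (e a) := fun a =>
    IsAlgClosure.equivOfEquiv_algebraMap L L e.toRingEquiv a
  refine ⟨AlgEquiv.ofRingEquiv (f := σ) fun k => ?_, ?_⟩
  · have := hσ (algebraMap K A k)
    rwa [e.commutes, ← IsScalarTower.algebraMap_apply K A L] at this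
  · have hX : algebraMap A L (ht.1.aevalEquiv (MvPolynomial.X i₀)) = x := by
      rw [AlgebraicIndependent.algebraMap_aevalEquiv, MvPolynomial.aeval_X]
    show σ x = _
    rw [← hX, hσ]
    simp only [e, AlgEquiv.trans_apply, AlgEquiv.symm_apply_apply, shiftEquiv_X_self, map_add]
    congr 1
    rw [← MvPolynomial.algebraMap_eq, AlgEquiv.commutes, ← IsScalarTower.algebraMap_apply]

/-- An element with finite orbit under `Aut(L/K)` lies in `K`, for `K` algebraically closed of
characteristic zero. -/
theorem mem_range_of_finite_orbit [IsAlgClosed K] [CharZero K] {x : L}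
    (h : (Set.range fun σ : L ≃ₐ[K] L => σ x).Finite) : x ∈ Set.range (algebraMap K L) := by
  by_contra hx
  have htr : Transcendental K x := fun halg =>
    hx (minpoly.degree_eq_one_iff.1
      (IsAlgClosed.degree_eq_one_of_irreducible K (minpoly.irreducible halg.isIntegral)))
  have hinf : (Set.range fun m : ℕ => x + algebraMap K L (m : K)).Infinite :=
    Set.infinite_range_of_injective fun a b hab => by
      exact_mod_cast (algebraMap K L).injective (add_left_cancel hab)
  refine hinf (h.subset ?_)
  rintro _ ⟨m, rfl⟩
  obtain ⟨σ, hσ⟩ := exists_algEquiv_apply_eq_add htr (m : K)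
  exact ⟨σ, hσ⟩

end FLTA.Kummer
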