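/-
`Pic⁰[n]` through functions with divisor divisible by `n`.
-/
import Fermat.Agent.Curves.BasicOrd

set_option autoImplicit false

noncomputable section

open AlgebraicCurve

namespace FLTA.Kummer

variable (K : Type*) {F : Type*} [Field K] [Field F] [Algebra K F]

/-- All orders of `f` are divisible by `n`. -/
def IsDivFun (n : ℕ) (f : F) : Prop := f ≠ 0 ∧ ∀ v : Place K F, (n : ℤ) ∣ v.ord f

theorem IsDivFun.mul {n : ℕ} {f g : F} (hf : IsDivFun K n f) (hg : IsDivFun K n g) :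
    IsDivFun K n (f * g) :=
  ⟨mul_ne_zero hf.1 hg.1, fun v => by rw [v.ord_mul hf.1 hg.1]; exact dvd_add (hf.2 v) (hg.2 v)⟩

theorem isDivFun_pow {n : ℕ} {g : F} (hg : g ≠ 0) : IsDivFun K n (g ^ n) :=
  ⟨pow_ne_zero n hg, fun v => by rw [FLTA.Curves.ord_pow]; exact dvd_mul_right _ _⟩

theorem isDivFun_algebraMap (n : ℕ) {a : K} (ha : a ≠ 0) : IsDivFun K n (algebraMap K F a) :=
  ⟨by simpa using ha, fun v => by rw [FLTA.Curves.ord_algebraMap]; exact dvd_zero _⟩

variable (F)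

/-- A Kummer map: a map on functions with divisor divisible by `n`, additive, with kernel the
constants times `n`-th powers. -/
structure KummerMap (n : ℕ) (A : Type*) [AddCommGroup A] where
  toFun : F → A
  map_mul' : ∀ f g : F, IsDivFun K n f → IsDivFun K n g → toFun (f * g) = toFun f + toFun g
  map_const' : ∀ a : K, a ≠ 0 → toFun (algebraMap K F a) = 0
  map_pow' : ∀ g : F, g ≠ 0 → toFun (g ^ n) = 0
  ker' : ∀ f : F, IsDivFun K n f → toFun f = 0 →
    ∃ (a : K) (g : F), a ≠ 0 ∧ g ≠ 0 ∧ f = algebraMap K F a * g ^ n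

variable {K F}

/-- `f` represents the torsion class `x`: `x = [D]` with `n • D = div f`. -/
def TorsionRep (n : ℕ) (x : Pic0 K F) (f : F) : Prop :=
  f ≠ 0 ∧ ∃ D : Divisor.degZero (K := K) (F := F),
    Pic0.mk D = x ∧ ∀ v : Place K F, (n : ℤ) * (D : Divisor K F) v = v.ord f

theorem TorsionRep.isDivFun {n : ℕ} {x : Pic0 K F} {f : F} (h : TorsionRep n x f) :
    IsDivFun K n f := by
  obtain ⟨hf, D, -, hD⟩ := h
  exact ⟨hf, fun v => hD v ▸ dvd_mul_right _ _⟩

theorem TorsionRep.add {n : ℕ} {x y : Pic0 K F} {f g : F} (hf : TorsionRep n x f)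
    (hg : TorsionRep n y g) : TorsionRep n (x + y) (f * g) := by
  obtain ⟨hf0, D, hD, hDf⟩ := hf
  obtain ⟨hg0, E, hE, hEg⟩ := hg
  exact ⟨mul_ne_zero hf0 hg0, D + E, by rw [Pic0.mk_add, hD, hE], fun v => by
    rw [AddSubgroup.coe_add, Finsupp.add_apply, mul_add, hDf, hEg, v.ord_mul hf0 hg0]⟩

theorem exists_torsionRep {n : ℕ} {x : Pic0 K F} (hx : x ∈ Pic0.torsion K F n) :
    ∃ f : F, TorsionRep n x f := by
  obtain ⟨D, rfl⟩ := Pic0.mk_surjective x
  rw [Pic0.mem_torsion] at hx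
  have h : ((n : ℤ) • D : Divisor.degZero (K := K) (F := F)) ∈
      (Divisor.principal (K := K) (F := F)).addSubgroupOf (Divisor.degZero (K := K) (F := F)) :=
    (QuotientAddGroup.eq_zero_iff _).1 hx
  rw [AddSubgroup.mem_addSubgroupOf] at h
  obtain ⟨f, hf, hfD⟩ := h
  exact ⟨f, hf, D, rfl, fun v => by rw [← hfD v]; simp⟩

theorem exists_class_of_isDivFun [HasPrincipalDivisors K F] {n : ℕ} (hn : n ≠ 0) {f : F}
    (hf : IsDivFun K n f) : ∃ x ∈ Pic0.torsion K F n, TorsionRep n x f := by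
  obtain ⟨E, hE, hdeg⟩ := HasPrincipalDivisors.exists_divisor (K := K) f hf.1
  set D : Divisor K F := E.mapRange (fun a => a / (n : ℤ)) (Int.zero_ediv _) with hD
  have hDn : ∀ v, (n : ℤ) * D v = v.ord f := fun v => by
    rw [hD, Finsupp.mapRange_apply, hE, Int.mul_ediv_cancel' (hf.2 v)]
  have hnD : (n : ℤ) • D = E := Finsupp.ext fun v => by
    rw [Finsupp.smul_apply, smul_eq_mul, hDn, hE]
  have hdeg0 : D ∈ Divisor.degZero (K := K) (F := F) := by
    rw [Divisor.mem_degZero]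
    have h := congrArg Divisor.degree hnD
    rw [map_zsmul, hdeg, smul_eq_mul] at h
    exact (mul_eq_zero.1 h).resolve_left (Int.natCast_ne_zero.2 hn)
  refine ⟨Pic0.mk ⟨D, hdeg0⟩, ?_, hf.1, ⟨D, hdeg0⟩, rfl, hDn⟩
  rw [Pic0.mem_torsion]
  refine (QuotientAddGroup.eq_zero_iff _).2 ?_
  rw [AddSubgroup.mem_addSubgroupOf]
  refine ⟨f, hf.1, fun v => ?_⟩
  show ((n : ℤ) • D) v = _
  rw [hnD, hE]

namespace KummerMap

variable {n : ℕ} {A : Type*} [AddCommGroup A] (κ : KummerMap K F n A)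

/-- The value on a class does not depend on the representative. -/
theorem eq_of_rep (hz : ∀ u : F, u ≠ 0 → (∀ v : Place K F, v.ord u = 0) →
      u ∈ Set.range (algebraMap K F))
    {x : Pic0 K F} {f g : F} (hf : TorsionRep n x f) (hg : TorsionRep n x g) :
    κ.toFun f = κ.toFun g := by
  have hfd := hf.isDivFun
  obtain ⟨hf0, D, hD, hDf⟩ := hf
  obtain ⟨hg0, E, hE, hEg⟩ := hg
  have hDE : Pic0.mk D = Pic0.mk E := hD.trans hE.symm
  have h := QuotientAddGroup.eq.1 hDE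
  rw [AddSubgroup.mem_addSubgroupOf] at h
  obtain ⟨w, hw, hwD⟩ := h
  have hu : g / (f * w ^ n) ≠ 0 := div_ne_zero hg0 (mul_ne_zero hf0 (pow_ne_zero n hw))
  have hu0 : ∀ v : Place K F, v.ord (g / (f * w ^ n)) = 0 := fun v => by
    rw [div_eq_mul_inv, v.ord_mul hg0 (inv_ne_zero (mul_ne_zero hf0 (pow_ne_zero n hw))),
      v.ord_inv, v.ord_mul hf0 (pow_ne_zero n hw), FLTA.Curves.ord_pow, ← hDf, ← hEg, ← hwD]
    simp only [AddSubgroup.coe_add, AddSubgroup.coe_neg, Finsupp.add_apply, Finsupp.neg_apply]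
    ring
  obtain ⟨a, ha⟩ := hz _ hu hu0
  have ha0 : a ≠ 0 := by
    rintro rfl
    exact hu (by rw [← ha, map_zero])
  have hgeq : g = f * w ^ n * algebraMap K F a := by
    rw [ha, mul_div_cancel₀]
    exact mul_ne_zero hf0 (pow_ne_zero n hw)
  rw [hgeq, κ.map_mul' _ _ (hfd.mul K (isDivFun_pow K hw)) (isDivFun_algebraMap K n ha0),
    κ.map_mul' _ _ hfd (isDivFun_pow K hw), κ.map_pow' w hw, κ.map_const' a ha0]
  simp

variable (hz : ∀ u : F, u ≠ 0 → (∀ v : Place K F, v.ord u = 0) → u ∈ Set.range (algebraMap K F))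

/-- The induced map on the torsion of `Pic⁰`. -/
def torsionHom : Pic0.torsion K F n →+ A :=
  AddMonoidHom.mk' (fun x => κ.toFun (exists_torsionRep x.2).choose) fun x y => by
    have hx := (exists_torsionRep x.2).choose_spec
    have hy := (exists_torsionRep y.2).choose_spec
    rw [← κ.map_mul' _ _ hx.isDivFun hy.isDivFun]
    exact κ.eq_of_rep hz (exists_torsionRep (x + y).2).choose_spec
      (by rw [AddSubgroup.coe_add]; exact hx.add hy)

theorem torsionHom_apply {x : Pic0.torsion K F n} {f : F} (hf : TorsionRep n (x : Pic0 K F) f) :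
    κ.torsionHom hz x = κ.toFun f :=
  κ.eq_of_rep hz (exists_torsionRep x.2).choose_spec hf

theorem torsionHom_injective (hn : n ≠ 0) : Function.Injective (κ.torsionHom hz) := by
  refine (injective_iff_map_eq_zero _).2 fun x hx => ?_
  obtain ⟨f, hf⟩ := exists_torsionRep x.2
  rw [κ.torsionHom_apply hz hf] at hx
  have hfd := hf.isDivFun
  obtain ⟨hf0, D, hD, hDf⟩ := hf
  obtain ⟨a, g, ha, hg, rfl⟩ := κ.ker' f hfd hx
  apply Subtype.ext
  rw [ZeroMemClass.coe_zero, ← hD]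
  refine (QuotientAddGroup.eq_zero_iff _).2 ?_
  rw [AddSubgroup.mem_addSubgroupOf]
  refine ⟨g, hg, fun v => ?_⟩
  have h := hDf v
  rw [v.ord_mul (by simpa using ha) (pow_ne_zero n hg), FLTA.Curves.ord_algebraMap,
    FLTA.Curves.ord_pow, zero_add] at h
  exact mul_left_cancel₀ (Int.natCast_ne_zero.2 hn) h

theorem exists_torsionHom_eq [HasPrincipalDivisors K F] (hn : n ≠ 0) {f : F}
    (hf : IsDivFun K n f) : ∃ x, κ.torsionHom hz x = κ.toFun f := by
  obtain ⟨x, hx, hrep⟩ := exists_class_of_isDivFun hn hf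
  exact ⟨⟨x, hx⟩, κ.torsionHom_apply hz hrep⟩

/-- `Pic⁰[n]` is the image of the Kummer map. -/
def torsionEquiv [HasPrincipalDivisors K F] (hn : n ≠ 0) (B : AddSubgroup A)
    (hmem : ∀ f : F, IsDivFun K n f → κ.toFun f ∈ B)
    (hsurj : ∀ a ∈ B, ∃ f : F, IsDivFun K n f ∧ κ.toFun f = a) :
    Pic0.torsion K F n ≃+ B :=
  AddEquiv.ofBijective
    ((κ.torsionHom hz).codRestrict B fun x =>
      hmem _ (exists_torsionRep x.2).choose_spec.isDivFun)
    ⟨fun x y h => κ.torsionHom_injective hz hn (congrArg Subtype.val h), fun a => by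
      obtain ⟨f, hf, hfa⟩ := hsurj a a.2
      obtain ⟨x, hx⟩ := κ.exists_torsionHom_eq hz hn hf
      exact ⟨x, Subtype.ext (hx.trans hfa)⟩⟩

theorem torsionEquiv_apply [HasPrincipalDivisors K F] (hn : n ≠ 0) (B : AddSubgroup A)
    (hmem : ∀ f : F, IsDivFun K n f → κ.toFun f ∈ B)
    (hsurj : ∀ a ∈ B, ∃ f : F, IsDivFun K n f ∧ κ.toFun f = a)
    {x : Pic0.torsion K F n} {f : F} (hf : TorsionRep n (x : Pic0 K F) f) :
    (κ.torsionEquiv hz hn B hmem hsurj x : A) = κ.toFun f :=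
  κ.torsionHom_apply hz hf

end KummerMap

end FLTA.Kummer
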