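/-
Descent: a Kummer class with finitely many possible values has a representative whose
coefficients have finite orbits under the field automorphisms.
-/
import Fermat.Prelude.Def_ModularCurve_ArithmeticGalois
import Fermat.Agent.Kummer.TorsionDiv

set_option autoImplicit false

noncomputable section

open AlgebraicCurve ModularCurve

namespace FLTA.Kummer

section Laurent

variable {L : Type*} [Field L]

theorem order_coeffMap (σ : L →+* L) (x : LaurentSeries L) :
    (coeffMap σ x).order = x.order := by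
  rcases eq_or_ne x 0 with rfl | hx
  · simp
  refine le_antisymm (HahnSeries.order_le_of_coeff_ne_zero ?_) ?_
  · rw [coeffMap_coeff]
    exact (map_ne_zero σ).2 (mt HahnSeries.coeff_order_eq_zero.1 hx)
  · refine HahnSeries.order_le_of_coeff_ne_zero fun h => ?_
    have h0 : coeffMap σ x ≠ 0 := (map_ne_zero (coeffMap σ)).2 hx
    refine mt HahnSeries.coeff_order_eq_zero.1 h0 ?_
    rw [coeffMap_coeff, h, map_zero]

theorem leadingCoeff_coeffMap (σ : L →+* L) (x : LaurentSeries L) :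
    (coeffMap σ x).leadingCoeff = σ x.leadingCoeff := by
  rw [HahnSeries.leadingCoeff_eq, HahnSeries.leadingCoeff_eq, order_coeffMap, coeffMap_coeff]

theorem order_pow' (x : LaurentSeries L) (n : ℕ) : (x ^ n).order = n * x.order := by
  rw [HahnSeries.order_pow, nsmul_eq_mul]

theorem leadingCoeff_mul' (x y : LaurentSeries L) :
    (x * y).leadingCoeff = x.leadingCoeff * y.leadingCoeff := HahnSeries.leadingCoeff_mul x y

theorem leadingCoeff_pow' (x : LaurentSeries L) :
    ∀ n : ℕ, (x ^ n).leadingCoeff = x.leadingCoeff ^ n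
  | 0 => by simp [HahnSeries.leadingCoeff_one]
  | n + 1 => by rw [pow_succ, pow_succ, leadingCoeff_mul', leadingCoeff_pow' x n]

theorem leadingCoeff_algebraMap' (a : L) :
    (algebraMap L (LaurentSeries L) a).leadingCoeff = a ∧
      (algebraMap L (LaurentSeries L) a).order = 0 := by
  rw [algebraMap_laurentSeries_eq_single]
  rcases eq_or_ne a 0 with rfl | ha
  · simp
  · exact ⟨HahnSeries.leadingCoeff_of_single, HahnSeries.order_single ha⟩

end Laurent

variable {L : Type*} [Field L] [Algebra ℚ L]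
variable (F₀ : IntermediateField ℚ (LaurentSeries ℚ))

local notation "𝔽" => laurentBaseChange L F₀

/-- The image of an element under a coefficientwise automorphism. -/
def galFun (σ : L ≃ₐ[ℚ] L) (x : 𝔽) : 𝔽 := arithmeticRingAut F₀ σ x

theorem coe_galFun (σ : L ≃ₐ[ℚ] L) (x : 𝔽) :
    (galFun F₀ σ x : LaurentSeries L) = coeffMap (σ : L →+* L) (x : LaurentSeries L) := rfl

theorem galFun_galFun_symm (σ : L ≃ₐ[ℚ] L) (x : 𝔽) : galFun F₀ σ (galFun F₀ σ.symm x) = x :=
  Subtype.ext <| by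
    rw [coe_galFun, coe_galFun, coeffMap_coeffMap,
      coeffMap_congr (g := RingHom.id L) (RingHom.ext fun a => σ.apply_symm_apply a), coeffMap_id]

theorem ord_galFun (σ : L ≃ₐ[ℚ] L) (v : Place L 𝔽) (x : 𝔽) :
    v.ord (galFun F₀ σ x) = ((arithmeticGalois F₀ σ)⁻¹ • v).ord x := by
  have h := SemilinearAut.ord_smul (arithmeticGalois F₀ σ) ((arithmeticGalois F₀ σ)⁻¹ • v) x
  rw [smul_inv_smul] at h
  exact h

variable {F₀}

theorem isDivFun_galFun {n : ℕ} (σ : L ≃ₐ[ℚ] L) {x : 𝔽} (hx : IsDivFun L n x) :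
    IsDivFun L n (galFun F₀ σ x) :=
  ⟨by simpa [galFun] using hx.1, fun v => by rw [ord_galFun]; exact hx.2 _⟩

/-- `f` is admissible: poles only above those of `j`, of bounded order, and leading
coefficient `1`. -/
structure IsGoodRep (n : ℕ) (j : 𝔽) (a : ℕ) (f : 𝔽) : Prop where
  divisible : IsDivFun L n f
  bound : ∀ v : Place L 𝔽, -(a : ℤ) * max 0 (-v.ord j) ≤ v.ord f
  lead : (f : LaurentSeries L).leadingCoeff = 1

theorem IsGoodRep.galFun {n a : ℕ} {j f : 𝔽} (h : IsGoodRep n j a f) (σ : L ≃ₐ[ℚ] L)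
    (hj : ∀ τ : L ≃ₐ[ℚ] L, FLTA.Kummer.galFun F₀ τ j = j) :
    IsGoodRep n j a (FLTA.Kummer.galFun F₀ σ f) where
  divisible := isDivFun_galFun σ h.divisible
  bound v := by
    have h1 := h.bound ((arithmeticGalois F₀ σ)⁻¹ • v)
    rw [← ord_galFun F₀ σ v f, ← ord_galFun F₀ σ v j, hj] at h1
    exact h1
  lead := by rw [coe_galFun, leadingCoeff_coeffMap, h.lead, map_one]

/-- A good representative of maximal order at infinity in its class. -/
def IsMaxRep {n : ℕ} {A : Type*} [AddCommGroup A] (κ : KummerMap L 𝔽 n A) (j : 𝔽) (a : ℕ)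
    (f : 𝔽) : Prop :=
  IsGoodRep n j a f ∧ ∀ g : 𝔽, IsGoodRep n j a g → κ.toFun g = κ.toFun f →
    (g : LaurentSeries L).order ≤ (f : LaurentSeries L).order

section Kappa

variable {n : ℕ} {A : Type*} [AddCommGroup A] (κ : KummerMap L (laurentBaseChange L F₀) n A)

theorem IsDivFun.div' {f g : 𝔽} (hf : IsDivFun L n f) (hg : IsDivFun L n g) :
    IsDivFun L n (f / g) :=
  ⟨div_ne_zero hf.1 hg.1, fun v => by
    rw [div_eq_mul_inv, v.ord_mul hf.1 (inv_ne_zero hg.1), v.ord_inv]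
    exact dvd_add (hf.2 v) (dvd_neg.2 (hg.2 v))⟩

theorem exists_eq_of_kappa_eq {f g : 𝔽} (hf : IsDivFun L n f) (hg : IsDivFun L n g)
    (h : κ.toFun f = κ.toFun g) :
    ∃ (a : L) (w : 𝔽), a ≠ 0 ∧ w ≠ 0 ∧ f = algebraMap L 𝔽 a * w ^ n * g := by
  have hq := IsDivFun.div' hf hg
  have h1 := κ.map_mul' _ _ hq hg
  rw [div_mul_cancel₀ _ hg.1, h, right_eq_add] at h1
  obtain ⟨a, w, ha, hw, he⟩ := κ.ker' _ hq h1
  exact ⟨a, w, ha, hw, by rw [← he, div_mul_cancel₀ _ hg.1]⟩

theorem kappa_eq_of_eq {f g : 𝔽} (hg : IsDivFun L n g) {a : L} {w : 𝔽} (ha : a ≠ 0) (hw : w ≠ 0)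
    (h : f = algebraMap L 𝔽 a * w ^ n * g) : κ.toFun f = κ.toFun g := by
  rw [h, κ.map_mul' _ _ ((isDivFun_algebraMap L n ha).mul L (isDivFun_pow L hw)) hg,
    κ.map_mul' _ _ (isDivFun_algebraMap L n ha) (isDivFun_pow L hw), κ.map_const' a ha,
    κ.map_pow' w hw, add_zero, zero_add]

theorem kappa_galFun_eq (σ : L ≃ₐ[ℚ] L) {f g : 𝔽} (hf : IsDivFun L n f) (hg : IsDivFun L n g)
    (h : κ.toFun f = κ.toFun g) :
    κ.toFun (galFun F₀ σ f) = κ.toFun (galFun F₀ σ g) := by
  obtain ⟨a, w, ha, hw, he⟩ := exists_eq_of_kappa_eq κ hf hg h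
  refine kappa_eq_of_eq κ (isDivFun_galFun σ hg) (a := σ a) (w := galFun F₀ σ w)
    (by simpa using ha) (by simpa [galFun] using hw) ?_
  rw [he, galFun, map_mul, map_mul, map_pow, arithmeticRingAut_algebraMap]
  rfl

theorem isMaxRep_unique (hn : n ≠ 0) {j : 𝔽} {a : ℕ} {f g : 𝔽} (hf : IsMaxRep κ j a f)
    (hg : IsMaxRep κ j a g) (h : κ.toFun f = κ.toFun g) : f = g := by
  obtain ⟨c, w, hc, hw, he⟩ := exists_eq_of_kappa_eq κ hf.1.divisible hg.1.divisible h
  have hord : (f : LaurentSeries L).order = (g : LaurentSeries L).order :=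
    le_antisymm (hg.2 f hf.1 h) (hf.2 g hg.1 h.symm)
  have hwL : (w : LaurentSeries L) ≠ 0 := by simpa using hw
  have hgL : (g : LaurentSeries L) ≠ 0 := by simpa using hg.1.divisible.1
  have hcL : algebraMap L (LaurentSeries L) c ≠ 0 := by simpa using hc
  have heL : (f : LaurentSeries L) =
      algebraMap L (LaurentSeries L) c * (w : LaurentSeries L) ^ n * (g : LaurentSeries L) := by
    rw [he]; rfl
  have hw0 : (w : LaurentSeries L).order = 0 := by
    have h1 := congrArg HahnSeries.order heL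
    rw [HahnSeries.order_mul (mul_ne_zero hcL (pow_ne_zero n hwL)) hgL,
      HahnSeries.order_mul hcL (pow_ne_zero n hwL), (leadingCoeff_algebraMap' c).2, order_pow',
      hord] at h1
    have h2 : (n : ℤ) * (w : LaurentSeries L).order = 0 := by omega
    exact (mul_eq_zero.1 h2).resolve_left (Int.natCast_ne_zero.2 hn)
  set l := (w : LaurentSeries L).leadingCoeff with hl
  have hl0 : l ≠ 0 := HahnSeries.leadingCoeff_ne_zero.2 hwL
  have hlc : c * l ^ n = 1 := by
    have h1 := congrArg HahnSeries.leadingCoeff heL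
    rw [leadingCoeff_mul', leadingCoeff_mul', leadingCoeff_pow', (leadingCoeff_algebraMap' c).1,
      hf.1.lead, hg.1.lead, mul_one] at h1
    exact h1.symm
  set w' : 𝔽 := algebraMap L 𝔽 l⁻¹ * w with hw'
  have he' : f = w' ^ n * g := by
    rw [he, hw', mul_pow, ← map_pow]
    congr 2
    rw [inv_pow, eq_inv_of_mul_eq_one_left hlc]
  by_cases h1 : w' = 1
  · rw [he', h1, one_pow, one_mul]
  exfalso
  set u : 𝔽 := w' - 1 with hu
  have hu0 : u ≠ 0 := sub_ne_zero.2 h1
  have huL : (u : LaurentSeries L) ≠ 0 := by simpa using hu0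
  have hw'L : (w' : LaurentSeries L) = algebraMap L (LaurentSeries L) l⁻¹ * (w : LaurentSeries L) := by
    rw [hw']; rfl
  have hordu : 0 < (u : LaurentSeries L).order := by
    by_contra hle
    refine mt HahnSeries.coeff_order_eq_zero.1 huL ?_
    generalize hk : (u : LaurentSeries L).order = k
    rw [hk] at hle
    have hsub : (u : LaurentSeries L) = (w' : LaurentSeries L) - 1 := rfl
    rw [hsub, HahnSeries.coeff_sub, HahnSeries.coeff_one, hw'L, algebraMap_laurentSeries_eq_single,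
      HahnSeries.coeff_single_zero_mul]
    rcases eq_or_lt_of_le (not_lt.1 hle) with rfl | hk
    · rw [if_pos rfl]
      nth_rewrite 1 [← hw0]
      rw [← HahnSeries.leadingCoeff_eq, ← hl, inv_mul_cancel₀ hl0, sub_self]
    · rw [if_neg hk.ne, HahnSeries.coeff_eq_zero_of_lt_order (by rw [hw0]; exact hk),
        mul_zero, sub_zero]
  set e := (g * u ^ n : 𝔽) with he3
  have he0 : e ≠ 0 := mul_ne_zero hg.1.divisible.1 (pow_ne_zero n hu0)
  have heL0 : (e : LaurentSeries L) ≠ 0 := by simpa using he0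
  have heLval : (e : LaurentSeries L) = (g : LaurentSeries L) * (u : LaurentSeries L) ^ n := rfl
  set b := ((e : LaurentSeries L).leadingCoeff)⁻¹ with hb
  have hb0 : b ≠ 0 := inv_ne_zero (HahnSeries.leadingCoeff_ne_zero.2 heL0)
  have hgood : IsGoodRep n j a (algebraMap L 𝔽 b * e) := by
    refine ⟨(isDivFun_algebraMap L n hb0).mul L (hg.1.divisible.mul L (isDivFun_pow L hu0)),
      fun v => ?_, ?_⟩
    · rw [v.ord_mul (by simpa using hb0) he0, FLTA.Curves.ord_algebraMap, zero_add, he3,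
        v.ord_mul hg.1.divisible.1 (pow_ne_zero n hu0), FLTA.Curves.ord_pow]
      have hw'0 : w' ≠ 0 := mul_ne_zero (by simpa using hl0) hw
      have hmin : min (v.ord w') (v.ord (-1 : 𝔽)) ≤ v.ord u := by
        rw [hu, sub_eq_add_neg]
        exact FLTA.Curves.min_ord_le_ord_add v (by rw [← sub_eq_add_neg]; exact hu0)
      rw [FLTA.Curves.ord_neg, v.ord_one] at hmin
      have hn0 : (0 : ℤ) ≤ n := Int.natCast_nonneg n
      rcases min_le_iff.1 hmin with hm | hm
      · have hb1 := hf.1.bound v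
        rw [he', v.ord_mul (pow_ne_zero n hw'0) hg.1.divisible.1, FLTA.Curves.ord_pow] at hb1
        have := mul_le_mul_of_nonneg_left hm hn0
        omega
      · have hb1 := hg.1.bound v
        have := mul_nonneg hn0 hm
        omega
    · show ((algebraMap L (LaurentSeries L) b) * (e : LaurentSeries L)).leadingCoeff = 1
      rw [leadingCoeff_mul', (leadingCoeff_algebraMap' b).1, hb,
        inv_mul_cancel₀ (HahnSeries.leadingCoeff_ne_zero.2 heL0)]
  have hk : κ.toFun (algebraMap L 𝔽 b * e) = κ.toFun g :=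
    kappa_eq_of_eq κ hg.1.divisible hb0 hu0 (by rw [he3]; ring)
  have hle := hg.2 _ hgood hk
  have hval : ((algebraMap L 𝔽 b * e : 𝔽) : LaurentSeries L) =
      algebraMap L (LaurentSeries L) b * (e : LaurentSeries L) := rfl
  rw [hval, HahnSeries.order_mul (by simpa using hb0) heL0, (leadingCoeff_algebraMap' b).2,
    heLval, HahnSeries.order_mul hgL (pow_ne_zero n huL), order_pow'] at hle
  have hn0 : (0 : ℤ) < n := by exact_mod_cast Nat.pos_of_ne_zero hn
  have := mul_pos hn0 hordu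
  omega

/-- A class with a good representative and finitely many possible values has a representative
whose coefficients have finite orbits. -/
theorem exists_rep_finite_orbit (hn : n ≠ 0)
    (hfin : (κ.toFun '' {f : 𝔽 | IsDivFun L n f}).Finite)
    {j : 𝔽} (hj : ∀ σ : L ≃ₐ[ℚ] L, galFun F₀ σ j = j) {a : ℕ} {M : ℤ}
    (hbd : ∀ f : 𝔽, IsGoodRep n j a f → (f : LaurentSeries L).order ≤ M)
    {f : 𝔽} (hf : IsGoodRep n j a f) :
    ∃ g : 𝔽, IsGoodRep n j a g ∧ κ.toFun g = κ.toFun f ∧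
      ∀ k : ℤ, (Set.range fun σ : L ≃ₐ[ℚ] L => σ ((g : LaurentSeries L).coeff k)).Finite := by
  classical
  obtain ⟨m, ⟨g, hgg, hgk, hgm⟩, hmax⟩ := Int.exists_greatest_of_bdd
    (P := fun m => ∃ g : 𝔽, IsGoodRep n j a g ∧ κ.toFun g = κ.toFun f ∧
      (g : LaurentSeries L).order = m)
    ⟨M, fun m ⟨g, hg, _, hgm⟩ => hgm ▸ hbd g hg⟩
    ⟨_, f, hf, rfl, rfl⟩
  have hgmax : IsMaxRep κ j a g :=
    ⟨hgg, fun g' hg' hk => hgm ▸ hmax _ ⟨g', hg', hk.trans hgk, rfl⟩⟩
  refine ⟨g, hgg, hgk, fun k => ?_⟩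
  have hσmax : ∀ σ : L ≃ₐ[ℚ] L, IsMaxRep κ j a (galFun F₀ σ g) := by
    intro σ
    refine ⟨hgg.galFun σ hj, fun g' hg' hk => ?_⟩
    have h1 := hgmax.2 _ (hg'.galFun σ.symm hj) ?_
    · rw [coe_galFun, order_coeffMap] at h1
      rwa [coe_galFun, order_coeffMap]
    · have h2 := kappa_galFun_eq κ σ.symm hg'.divisible (isDivFun_galFun σ hgg.divisible) hk
      rw [show galFun F₀ σ.symm (galFun F₀ σ g) = g by
        simpa using galFun_galFun_symm F₀ σ.symm g] at h2
      exact h2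
  have horbit : (Set.range fun σ : L ≃ₐ[ℚ] L => galFun F₀ σ g).Finite := by
    refine Set.Finite.of_finite_image (f := κ.toFun) (hfin.subset ?_) ?_
    · rintro _ ⟨_, ⟨σ, rfl⟩, rfl⟩
      exact ⟨_, (hσmax σ).1.divisible, rfl⟩
    · rintro _ ⟨σ, rfl⟩ _ ⟨τ, rfl⟩ h
      exact isMaxRep_unique κ hn (hσmax σ) (hσmax τ) h
  refine (horbit.image fun x : 𝔽 => (x : LaurentSeries L).coeff k).subset ?_
  rintro _ ⟨σ, rfl⟩
  exact ⟨_, ⟨σ, rfl⟩, rfl⟩

end Kappa

end FLTA.Kummer
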