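/-
The behaviour at `i∞` of a function in `HolInfty h` in terms of the leading term of its expansion.
-/
import Fermat.Agent.Bridge.Expansion

set_option autoImplicit false

noncomputable section

open scoped Topology Real
open UpperHalfPlane hiding I
open Complex Filter Function
open FLTA.Bridge

namespace FLTA.Kummer

local notation "𝕢" => Function.Periodic.qParam

/-- A function in `HolInfty h` is asymptotic to the leading term of its expansion. -/
theorem tendsto_div_qParam_order {h : ℕ} [NeZero h] (F : HolInfty h) :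
    Tendsto (fun τ : ℍ => (F : ℍ → ℂ) τ / 𝕢 (h : ℝ) τ ^ (expansion h F).order) atImInfty
      (𝓝 ((expansion h F).coeff (expansion h F).order)) := by
  set x := expansion h F with hx
  set k := x.order with hk
  obtain ⟨n, hn⟩ := F.2.2.2
  rcases eq_or_ne x 0 with h0 | h0
  · have hF : F = 0 := (injective_iff_map_eq_zero _).mp (expansion_injective h) F h0
    have h1 : ∀ τ : ℍ, (F : ℍ → ℂ) τ = 0 := fun τ => by rw [hF]; rfl
    simp only [h1, zero_div, h0, HahnSeries.coeff_zero]
    exact tendsto_const_nhds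
  have hs0 : 0 ≤ k + (n * h : ℕ) := by
    by_contra hneg
    have h1 : x.coeff k = 0 := by
      show (expansionFun h (F : ℍ → ℂ)).coeff k = 0
      rw [expansionFun_eq h F.2 hn, HahnSeries.coeff_single_mul, one_mul,
        ModularCurve.ofPowerSeries_coeff_of_neg _ (by omega)]
    exact h0 (HahnSeries.coeff_order_eq_zero.mp h1)
  obtain ⟨s, hs⟩ := Int.eq_ofNat_of_zero_le hs0
  set Φ : ℍ → ℂ := fun τ => 𝕢 1 τ ^ n * (F : ℍ → ℂ) τ / 𝕢 (h : ℝ) τ ^ s with hΦ
  have hsum : ∀ τ : ℍ, HasSum (fun i : ℕ => x.coeff ((i : ℤ) + k) * 𝕢 (h : ℝ) τ ^ i) (Φ τ) := by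
    intro τ
    have h1 := hasSum_expansion h F hn τ
    rw [← hx, ← hasSum_nat_add_iff' s] at h1
    have hzero : ∑ i ∈ Finset.range s, x.coeff ((i : ℤ) - (n * h : ℕ)) * 𝕢 (h : ℝ) τ ^ i = 0 := by
      refine Finset.sum_eq_zero fun i hi => ?_
      rw [HahnSeries.coeff_eq_zero_of_lt_order, zero_mul]
      have := Finset.mem_range.mp hi
      omega
    rw [hzero, sub_zero] at h1
    refine (h1.div_const (𝕢 (h : ℝ) τ ^ s)).congr_fun fun i => ?_
    have hq : 𝕢 (h : ℝ) (τ : ℂ) ≠ 0 := Periodic.qParam_ne_zero _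
    rw [show ((i + s : ℕ) : ℤ) - (n * h : ℕ) = i + k by omega, pow_add]
    field_simp
  have hh := natCast_period_pos h
  have hb : IsBoundedAtImInfty Φ := isBoundedAtImInfty_of_hasSum_qExpansion hh
    (c := fun i : ℕ => x.coeff ((i : ℤ) + k)) fun τ => by simpa [smul_eq_mul] using hsum τ
  have hmem : Φ ∈ HolInfty h := by
    refine ⟨?_, ?_, 0, by simpa using hb⟩
    · rw [mem_hol_iff_differentiableOn]
      have h1 := mem_hol_iff_differentiableOn.mp (qParam_pow_mul_mem h F.2 n).1
      refine DifferentiableOn.congr (h1.div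
        (((Periodic.differentiable_qParam (h := (h : ℝ))).pow s).differentiableOn)
        fun z _ => pow_ne_zero _ (Periodic.qParam_ne_zero _)) fun z hz => ?_
      simp [hΦ, ofComplex_apply_of_im_pos hz]
    · intro w
      by_cases hw : 0 < w.im
      · have hw' : 0 < (w + (h : ℂ)).im := by simpa using hw
        have hp := (qParam_pow_mul_mem h F.2 n).2.1 w
        simp only [comp_apply, hΦ, ofComplex_apply_of_im_pos hw',
          ofComplex_apply_of_im_pos hw] at hp ⊢
        rw [hp]
        congr 2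
        simp only [Periodic.qParam, ofReal_natCast]
        rw [show 2 * (π : ℂ) * I * (w + (h : ℂ)) / (h : ℂ) =
          2 * π * I * w / (h : ℂ) + 2 * π * I by field_simp [NeZero.ne h], Complex.exp_add,
          Complex.exp_two_pi_mul_I, mul_one]
      · have hw' : (w + (h : ℂ)).im ≤ 0 := by simpa using not_lt.mp hw
        simp only [comp_apply, ofComplex_apply_of_im_nonpos hw',
          ofComplex_apply_of_im_nonpos (not_lt.mp hw)]
  have hq := qExpansion_eq_of_hasSum h hmem hb (P := PowerSeries.mk fun i => x.coeff ((i : ℤ) + k))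
    fun τ => by simpa using hsum τ
  have he : expansion h ⟨Φ, hmem⟩ =
      HahnSeries.ofPowerSeries ℤ ℂ (PowerSeries.mk fun i => x.coeff ((i : ℤ) + k)) := by
    show expansionFun h Φ = _
    rw [expansionFun_of_bounded h hmem hb, hq]
  have hlim := tendsto_atImInfty_coeff_zero h ⟨Φ, hmem⟩
    ((isBoundedAtImInfty_iff_order h ⟨Φ, hmem⟩).mp hb)
  have hc : (HahnSeries.ofPowerSeries ℤ ℂ (PowerSeries.mk fun i : ℕ =>
      x.coeff ((i : ℤ) + k))).coeff 0 = x.coeff k := by
    rw [← Nat.cast_zero, HahnSeries.ofPowerSeries_apply_coeff, PowerSeries.coeff_mk, Nat.cast_zero,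
      zero_add]
  rw [he, hc] at hlim
  refine hlim.congr fun τ => ?_
  have hq0 : 𝕢 (h : ℝ) (τ : ℂ) ≠ 0 := Periodic.qParam_ne_zero _
  simp only [hΦ]
  rw [qParam_one_eq_pow h, ← pow_mul, mul_comm h n, ← zpow_natCast _ s, ← hs, zpow_add₀ hq0,
    zpow_natCast]
  field_simp

end FLTA.Kummer
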