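/-
n-th roots of meromorphic functions on the upper half plane.

`exists_root`: if `f` is meromorphic on the upper half plane, not identically zero and has all
orders divisible by `n`, then `f = F ^ n` for a meromorphic `F` in normal form.
`root_unique`: two such roots differ by a constant `n`-th root of unity.
-/
import Mathlib.Analysis.Complex.HasPrimitives
import Mathlib.Analysis.Complex.CauchyIntegral
import Mathlib.Analysis.Complex.Convex
import Mathlib.Analysis.Complex.UpperHalfPlane.Topology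
import Mathlib.Analysis.Meromorphic.FactorizedRational
import Mathlib.Analysis.Calculus.MeanValue
import Mathlib.RingTheory.RootsOfUnity.Complex

set_option autoImplicit false

noncomputable section

open Filter Topology Set Metric Complex Function

namespace FLTA.Kummer

open UpperHalfPlane (upperHalfPlaneSet)

theorem eventually_nhdsNE_of_codiscreteWithin {U : Set ℂ} (hU : IsOpen U) {z : ℂ} (hz : z ∈ U)
    {p : ℂ → Prop} (h : ∀ᶠ x in codiscreteWithin U, p x) : ∀ᶠ x in 𝓝[≠] z, p x := by
  have h' := mem_codiscreteWithin_iff_forall_mem_nhdsNE.1 h z hz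
  filter_upwards [h', nhdsWithin_le_nhds (hU.mem_nhds hz)] with x hx hxU
  rcases hx with hx | hx
  · exact hx
  · exact absurd hxU hx

/-- A nowhere vanishing holomorphic function on a disc has a holomorphic logarithm. -/
theorem exists_analytic_log_ball {c : ℂ} {r : ℝ} {g : ℂ → ℂ}
    (hg : AnalyticOnNhd ℂ g (ball c r)) (hne : ∀ z ∈ ball c r, g z ≠ 0) :
    ∃ L : ℂ → ℂ, AnalyticOnNhd ℂ L (ball c r) ∧ ∀ z ∈ ball c r, Complex.exp (L z) = g z := by
  rcases le_or_gt r 0 with hr | hr
  · exact ⟨fun _ => 0, fun z hz => absurd hz (by simp [ball_eq_empty.2 hr]),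
      fun z hz => absurd hz (by simp [ball_eq_empty.2 hr])⟩
  have hd : DifferentiableOn ℂ (fun z => deriv g z / g z) (ball c r) := fun z hz =>
    (((hg z hz).deriv.differentiableAt).div (hg z hz).differentiableAt
      (hne z hz)).differentiableWithinAt
  obtain ⟨M, hM0, hM⟩ :=
    hd.isExactOn_ball.with_val_at c (Complex.log (g c))
  refine ⟨M, fun z hz => ?_, fun z hz => ?_⟩
  · have : DifferentiableOn ℂ M (ball c r) := fun w hw =>
      (hM w hw).differentiableAt.differentiableWithinAt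
    exact this.analyticAt (isOpen_ball.mem_nhds hz)
  · have hder : ∀ w ∈ ball c r, HasDerivAt (fun w => g w * Complex.exp (-M w)) 0 w := by
      intro w hw
      have h1 := ((hg w hw).differentiableAt.hasDerivAt).mul ((hM w hw).neg.cexp)
      refine h1.congr_deriv ?_
      have := hne w hw
      field_simp
      ring
    have hconst := isOpen_ball.is_const_of_deriv_eq_zero (convex_ball c r).isPreconnected
      (fun w hw => (hder w hw).differentiableAt.differentiableWithinAt)
      (fun w hw => (hder w hw).deriv) hz (mem_ball_self hr)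
    have hc : g c * Complex.exp (-M c) = 1 := by
      rw [hM0, Complex.exp_neg, Complex.exp_log (hne c (mem_ball_self hr))]
      exact mul_inv_cancel₀ (hne c (mem_ball_self hr))
    simp only [hc] at hconst
    rw [Complex.exp_neg] at hconst
    have h0 := Complex.exp_ne_zero (M z)
    field_simp at hconst
    exact hconst.symm

/-- `F` is an `n`-th root of `f` on `U`. -/
structure IsRootOn (n : ℕ) (f F : ℂ → ℂ) (U : Set ℂ) : Prop where
  nf : MeromorphicNFOn F U
  pow_eq : ∀ z ∈ U, F ^ n =ᶠ[𝓝[≠] z] f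

theorem IsRootOn.meromorphicAt {n : ℕ} {f F : ℂ → ℂ} {U : Set ℂ} (h : IsRootOn n f F U) {z : ℂ}
    (hz : z ∈ U) : MeromorphicAt F z :=
  (h.nf hz).meromorphicAt

theorem IsRootOn.mono {n : ℕ} {f F : ℂ → ℂ} {U V : Set ℂ} (h : IsRootOn n f F U) (hV : V ⊆ U) :
    IsRootOn n f F V :=
  ⟨fun z hz => h.nf (hV hz), fun z hz => h.pow_eq z (hV hz)⟩

/-- `n` times the order of an `n`-th root is the order. -/
theorem IsRootOn.order_eq {n : ℕ} {f F : ℂ → ℂ} {U : Set ℂ} (h : IsRootOn n f F U) {z : ℂ}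
    (hz : z ∈ U) : meromorphicOrderAt f z = n * meromorphicOrderAt F z := by
  rw [← meromorphicOrderAt_congr (h.pow_eq z hz), meromorphicOrderAt_pow (h.meromorphicAt hz)]

theorem IsRootOn.const_mul {n : ℕ} {f F : ℂ → ℂ} {U : Set ℂ} (h : IsRootOn n f F U) {c : ℂ}
    (hc : c ^ n = 1) (hn : n ≠ 0) : IsRootOn n f (fun z => c * F z) U := by
  have hc0 : c ≠ 0 := by
    rintro rfl
    simp [zero_pow hn] at hc
  refine ⟨fun z hz => ?_, fun z hz => ?_⟩
  · exact (meromorphicNFAt_mul_iff_right (g := fun _ => c) analyticAt_const hc0).2 (h.nf hz)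
  · filter_upwards [h.pow_eq z hz] with w hw
    simp only [Pi.pow_apply] at hw ⊢
    rw [mul_pow, hc, one_mul, hw]

/-- Roots on a preconnected open set differ by a constant root of unity. -/
theorem root_unique {n : ℕ} (hn : n ≠ 0) {f F G : ℂ → ℂ} {U : Set ℂ} (hU : IsOpen U)
    (hUc : IsPreconnected U) (hne : ∀ z ∈ U, meromorphicOrderAt f z ≠ ⊤)
    (hF : IsRootOn n f F U) (hG : IsRootOn n f G U) :
    ∃ ζ : ℂ, ζ ^ n = 1 ∧ EqOn G (fun z => ζ * F z) U := by
  rcases U.eq_empty_or_nonempty with rfl | ⟨z₀, hz₀⟩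
  · exact ⟨1, one_pow n, by simp [EqOn]⟩
  have hm : MeromorphicOn (G / F) U := fun z hz => (hG.meromorphicAt hz).div (hF.meromorphicAt hz)
  set h := toMeromorphicNFOn (G / F) U with hdef
  have hFne : ∀ z ∈ U, ∀ᶠ w in 𝓝[≠] z, F w ≠ 0 := by
    intro z hz
    refine (meromorphicOrderAt_ne_top_iff_eventually_ne_zero (hF.meromorphicAt hz)).1 ?_
    intro htop
    exact hne z hz (by rw [hF.order_eq hz, htop]; simp [hn])
  have hGh : ∀ z ∈ U, G =ᶠ[𝓝[≠] z] fun w => h w * F w := by
    intro z hz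
    filter_upwards [MeromorphicOn.toMeromorphicNFOn_eq_self_on_nhdsNE hm hz, hFne z hz]
      with w hw hw0
    rw [hdef, hw]
    simp [div_mul_cancel₀ _ hw0]
  have hpow : ∀ z ∈ U, ∀ᶠ w in 𝓝[≠] z, h w ^ n = 1 := by
    intro z hz
    filter_upwards [hGh z hz, hF.pow_eq z hz, hG.pow_eq z hz, hFne z hz] with w hw hwF hwG hw0
    simp only [Pi.pow_apply] at hwF hwG
    rw [hw, mul_pow, hwF] at hwG
    exact (mul_eq_right₀ (by rw [← hwF]; exact pow_ne_zero n hw0)).1 hwG
  have hnf : MeromorphicNFOn h U := meromorphicNFOn_toMeromorphicNFOn _ _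
  have hanal : ∀ z ∈ U, AnalyticAt ℂ h z := by
    intro z hz
    have hz' := hnf hz
    refine hz'.meromorphicOrderAt_nonneg_iff_analyticAt.1 ?_
    have h1 : meromorphicOrderAt (h ^ n) z = 0 := by
      classical
      rw [meromorphicOrderAt_congr (f₂ := fun _ => (1 : ℂ))]
      · rw [meromorphicOrderAt_const]; simp
      · exact hpow z hz
    rw [meromorphicOrderAt_pow hz'.meromorphicAt] at h1
    cases ho : meromorphicOrderAt h z with
    | top => simp
    | coe m =>
      rw [ho] at h1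
      have : (n : ℤ) * m = 0 := by exact_mod_cast h1
      rcases mul_eq_zero.1 this with h2 | h2
      · exact absurd (by exact_mod_cast h2) hn
      · simp [h2]
  have hval : ∀ z ∈ U, h z ^ n = 1 := by
    intro z hz
    refine tendsto_nhds_unique (((hanal z hz).continuousAt.pow n).tendsto.mono_left
      (nhdsWithin_le_nhds (s := {z}ᶜ))) ?_
    exact tendsto_const_nhds.congr' ((hpow z hz).mono fun w hw => hw.symm)
  have hfin : {w : ℂ | w ^ n = 1}.Finite := by
    refine (Polynomial.nthRootsFinset n (1 : ℂ)).finite_toSet.subset fun w hw => ?_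
    simpa [Polynomial.mem_nthRootsFinset (Nat.pos_of_ne_zero hn)] using hw
  have hcst : ∀ z ∈ U, h z = h z₀ := by
    intro z hz
    have : Finite {w : ℂ | w ^ n = 1} := hfin
    exact hUc.constant_of_mapsTo (S := U) (T := {w : ℂ | w ^ n = 1})
      (isDiscrete_iff_discreteTopology.2 inferInstance)
      (fun w hw => (hanal w hw).continuousAt.continuousWithinAt) (fun w hw => hval w hw) hz hz₀
  refine ⟨h z₀, hval z₀ hz₀, fun z hz => ?_⟩
  have hev : G =ᶠ[𝓝[≠] z] fun w => h z₀ * F w := by
    filter_upwards [hGh z hz, nhdsWithin_le_nhds (hU.mem_nhds hz)] with w hw hwU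
    rw [hw, hcst w hwU]
  exact (((hG.nf hz).eventuallyEq_nhdsNE_iff_eventuallyEq_nhds
    ((hF.const_mul (hval z₀ hz₀) hn).nf hz)).1 hev).eq_of_nhds

/-- Roots exist on discs whose closure lies in the domain of meromorphy. -/
theorem exists_root_ball {n : ℕ} (hn : n ≠ 0) {c : ℂ} {r : ℝ} {f : ℂ → ℂ}
    (hf : MeromorphicOn f (closedBall c r))
    (hne : ∀ z ∈ ball c r, meromorphicOrderAt f z ≠ ⊤)
    (hdiv : ∀ z ∈ ball c r, (n : ℤ) ∣ (meromorphicOrderAt f z).untop₀) :
    ∃ F : ℂ → ℂ, IsRootOn n f F (ball c r) := by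
  have hfb : MeromorphicOn f (ball c r) := fun z hz => hf z (ball_subset_closedBall hz)
  have hfin := MeromorphicOn.divisor_ball_support_finite hf
  obtain ⟨g, hga, hg0, hgf⟩ := hfb.extract_zeros_poles (fun u => hne u u.2) hfin
  obtain ⟨L, hLa, hL⟩ := exists_analytic_log_ball hga (fun z hz => hg0 ⟨z, hz⟩)
  set D := MeromorphicOn.divisor f (ball c r) with hD
  have hDdiv : ∀ u, (n : ℤ) ∣ D u := by
    intro u
    by_cases hu : u ∈ ball c r
    · rw [hD, MeromorphicOn.divisor_apply hfb hu]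
      exact hdiv u hu
    · rw [D.apply_eq_zero_of_notMem hu]
      exact dvd_zero _
  set d : ℂ → ℤ := fun u => D u / n with hd
  have hdD : ∀ u, d u * n = D u := fun u => Int.ediv_mul_cancel (hDdiv u)
  have hdfin : d.HasFiniteSupport := by
    refine hfin.subset fun u hu => ?_
    rw [mem_support] at hu ⊢
    intro h0
    exact hu (by simp [hd, h0])
  set φ := ∏ᶠ u, (· - u : ℂ → ℂ) ^ d u with hφ
  have hφn : φ ^ n = ∏ᶠ u, (· - u : ℂ → ℂ) ^ D u := by
    rw [hφ, finprod_pow _ _]
    · refine finprod_congr fun u => ?_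
      rw [← zpow_natCast, ← zpow_mul, hdD]
    · show Set.Finite _
      rw [FactorizedRational.mulSupport]
      exact hdfin
  refine ⟨fun z => φ z * Complex.exp (L z / n), ⟨fun z hz => ?_, fun z hz => ?_⟩⟩
  · exact (meromorphicNFAt_mul_iff_left (g := fun w => Complex.exp (L w / n))
      (((hLa z hz).div analyticAt_const (Nat.cast_ne_zero.2 hn)).cexp) (Complex.exp_ne_zero _)).2
      (FactorizedRational.meromorphicNFOn_univ d trivial)
  · filter_upwards [eventually_nhdsNE_of_codiscreteWithin isOpen_ball hz hgf,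
      nhdsWithin_le_nhds (isOpen_ball.mem_nhds hz)] with w hw hwU
    simp only [Pi.pow_apply, Pi.smul_apply', smul_eq_mul] at hw ⊢
    rw [mul_pow, ← Complex.exp_nat_mul, mul_div_cancel₀ _ (Nat.cast_ne_zero.2 hn), hL w hwU,
      show φ w ^ n = (φ ^ n) w from rfl, hφn, hw]

/-- The centre of the `m`-th disc exhausting the upper half plane. -/
def exhC (m : ℕ) : ℂ := ((m + 1 : ℝ) : ℂ) * Complex.I

/-- The radius of the `m`-th disc exhausting the upper half plane. -/
def exhR (m : ℕ) : ℝ := (m + 1 : ℝ) - 1 / (m + 2)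

/-- The `m`-th disc exhausting the upper half plane. -/
def exhBall (m : ℕ) : Set ℂ := ball (exhC m) (exhR m)

theorem dist_exhC_sq (z : ℂ) (m : ℕ) :
    dist z (exhC m) ^ 2 = z.re ^ 2 + (z.im - (m + 1)) ^ 2 := by
  rw [dist_eq_norm, Complex.sq_norm, Complex.normSq_apply]
  simp [exhC]
  ring

theorem exhR_pos (m : ℕ) : 0 < exhR m := by
  have h : (1 : ℝ) / (m + 2) < 1 := by
    rw [div_lt_one (by positivity)]
    have : (0 : ℝ) ≤ m := by positivity
    linarith
  have : (0 : ℝ) ≤ m := by positivity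
  unfold exhR
  linarith

theorem closedBall_exh_subset (m : ℕ) : closedBall (exhC m) (exhR m) ⊆ upperHalfPlaneSet := by
  intro z hz
  rw [mem_closedBall] at hz
  have h2 := dist_exhC_sq z m
  have h1 : dist z (exhC m) ^ 2 ≤ exhR m ^ 2 := pow_le_pow_left₀ dist_nonneg hz 2
  have h3 : exhR m < m + 1 := by
    have : (0 : ℝ) < 1 / (m + 2) := by positivity
    unfold exhR
    linarith
  have h4 := exhR_pos m
  show 0 < z.im
  nlinarith [sq_nonneg z.re]

theorem exhBall_subset (m : ℕ) : exhBall m ⊆ upperHalfPlaneSet :=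
  ball_subset_closedBall.trans (closedBall_exh_subset m)

theorem exhBall_mono : Monotone exhBall := by
  refine monotone_nat_of_le_succ fun m => ?_
  refine ball_subset_ball' ?_
  have h1 : dist (exhC m) (exhC (m + 1)) = 1 := by
    rw [dist_eq_norm, exhC, exhC, ← sub_mul, norm_mul, Complex.norm_I, mul_one, ← Complex.ofReal_sub,
      Complex.norm_real]
    push_cast
    norm_num
  have h2 : (1 : ℝ) / (m + 1 + 2) ≤ 1 / (m + 2) :=
    one_div_le_one_div_of_le (by positivity) (by linarith)
  rw [h1]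
  unfold exhR
  push_cast
  linarith

theorem exists_mem_exhBall {z : ℂ} (hz : z ∈ upperHalfPlaneSet) : ∃ m, z ∈ exhBall m := by
  have hy : 0 < z.im := hz
  obtain ⟨m, hm⟩ := exists_nat_gt ((z.re ^ 2 + z.im ^ 2 + 2) / (2 * z.im))
  refine ⟨m, ?_⟩
  rw [exhBall, mem_ball]
  refine lt_of_pow_lt_pow_left₀ 2 (exhR_pos m).le ?_
  rw [dist_exhC_sq]
  rw [div_lt_iff₀ (by positivity)] at hm
  have h1 : (m + 1 : ℝ) * (1 / (m + 2)) ≤ 1 := by
    rw [mul_one_div, div_le_one (by positivity)]
    linarith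
  unfold exhR
  nlinarith [sq_nonneg (1 / (m + 2 : ℝ))]

/-- A meromorphic function on the upper half plane with all orders divisible by `n` has an
`n`-th root. -/
theorem exists_root {n : ℕ} (hn : n ≠ 0) {f : ℂ → ℂ} (hf : MeromorphicOn f upperHalfPlaneSet)
    (hne : ∀ z ∈ upperHalfPlaneSet, meromorphicOrderAt f z ≠ ⊤)
    (hdiv : ∀ z ∈ upperHalfPlaneSet, (n : ℤ) ∣ (meromorphicOrderAt f z).untop₀) :
    ∃ F : ℂ → ℂ, IsRootOn n f F upperHalfPlaneSet := by
  classical
  have hroot : ∀ m, ∃ F : ℂ → ℂ, IsRootOn n f F (exhBall m) := fun m =>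
    exists_root_ball hn (fun z hz => hf z (closedBall_exh_subset m hz))
      (fun z hz => hne z (exhBall_subset m hz)) (fun z hz => hdiv z (exhBall_subset m hz))
  have hext : ∀ m (F : ℂ → ℂ), IsRootOn n f F (exhBall m) →
      ∃ G, IsRootOn n f G (exhBall (m + 1)) ∧ EqOn G F (exhBall m) := by
    intro m F hF
    obtain ⟨G, hG⟩ := hroot (m + 1)
    have hsub := exhBall_mono (Nat.le_succ m)
    obtain ⟨ζ, hζ, heq⟩ := root_unique hn isOpen_ball (convex_ball _ _).isPreconnected
      (fun z hz => hne z (exhBall_subset m hz)) (hG.mono hsub) hF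
    exact ⟨_, hG.const_mul hζ hn, fun z hz => (heq hz).symm⟩
  let S : ∀ m, {F : ℂ → ℂ // IsRootOn n f F (exhBall m)} := fun m =>
    Nat.rec (motive := fun m => {F : ℂ → ℂ // IsRootOn n f F (exhBall m)})
      ⟨_, (hroot 0).choose_spec⟩
      (fun k F => ⟨_, ((hext k F.1 F.2).choose_spec).1⟩) m
  have hS : ∀ m k, m ≤ k → EqOn (S k).1 (S m).1 (exhBall m) := by
    intro m k hmk
    induction hmk with
    | refl => exact fun _ _ => rfl
    | @step k hk ih =>
      intro z hz
      refine Eq.trans ?_ (ih hz)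
      exact ((hext k (S k).1 (S k).2).choose_spec).2 (exhBall_mono hk hz)
  set F : ℂ → ℂ := fun z => if h : ∃ m, z ∈ exhBall m then (S (Nat.find h)).1 z else 0 with hF
  have hFm : ∀ m, EqOn F (S m).1 (exhBall m) := by
    intro m z hz
    have h : ∃ m, z ∈ exhBall m := ⟨m, hz⟩
    simp only [hF, dif_pos h]
    exact (hS _ m (Nat.find_min' h hz) (Nat.find_spec h)).symm
  refine ⟨F, fun z hz => ?_, fun z hz => ?_⟩
  · obtain ⟨m, hm⟩ := exists_mem_exhBall hz
    exact (meromorphicNFAt_congr ((hFm m).eventuallyEq_of_mem (isOpen_ball.mem_nhds hm))).2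
      ((S m).2.nf hm)
  · obtain ⟨m, hm⟩ := exists_mem_exhBall hz
    filter_upwards [(S m).2.pow_eq z hm, nhdsWithin_le_nhds (isOpen_ball.mem_nhds hm)]
      with w hw hwm
    simp only [Pi.pow_apply] at hw ⊢
    rw [hFm m hwm, hw]

end FLTA.Kummer
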