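/-
`SL(2,ℤ)` acting by fractional linear transformations on functions `ℂ → ℂ`, and the geometry of
elements of small trace.
-/
import Mathlib.Analysis.Complex.UpperHalfPlane.Topology
import Mathlib.Analysis.Complex.UpperHalfPlane.FixedPoints
import Mathlib.Analysis.Meromorphic.NormalForm
import Mathlib.Analysis.Calculus.Deriv.Inv
import Mathlib.LinearAlgebra.Matrix.SpecialLinearGroup

set_option autoImplicit false

noncomputable section

open Filter Topology Set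
open UpperHalfPlane (upperHalfPlaneSet)
open scoped MatrixGroups

namespace FLTA.Kummer

/-- The denominator of the fractional linear map. -/
def slDen (γ : SL(2, ℤ)) (z : ℂ) : ℂ := (γ 1 0 : ℂ) * z + (γ 1 1 : ℂ)

/-- The fractional linear map on `ℂ`. -/
def slAct (γ : SL(2, ℤ)) (z : ℂ) : ℂ := ((γ 0 0 : ℂ) * z + (γ 0 1 : ℂ)) / slDen γ z

theorem coe_smul_eq_slAct (γ : SL(2, ℤ)) (τ : UpperHalfPlane) :
    ((γ • τ : UpperHalfPlane) : ℂ) = slAct γ (τ : ℂ) := by
  rw [UpperHalfPlane.coe_specialLinearGroup_apply]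
  simp [slAct, slDen]

theorem slDen_ne_zero (γ : SL(2, ℤ)) {z : ℂ} (hz : z ∈ upperHalfPlaneSet) : slDen γ z ≠ 0 := by
  intro h
  have hne : ![((γ 1 0 : ℤ) : ℝ), ((γ 1 1 : ℤ) : ℝ)] ≠ 0 := by
    intro h0
    have h1 := congrFun h0 0
    have h2 := congrFun h0 1
    simp at h1 h2
    have hd := Matrix.det_fin_two (γ : Matrix (Fin 2) (Fin 2) ℤ)
    rw [γ.2, h1, h2] at hd
    simp at hd
  have hz' : z.im ≠ 0 := ne_of_gt hz
  refine UpperHalfPlane.linear_ne_zero_of_im hz' hne ?_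
  simpa [slDen] using h

theorem slAct_mem (γ : SL(2, ℤ)) {z : ℂ} (hz : z ∈ upperHalfPlaneSet) :
    slAct γ z ∈ upperHalfPlaneSet := by
  have h := coe_smul_eq_slAct γ ⟨z, hz⟩
  rw [show slAct γ z = ((γ • (⟨z, hz⟩ : UpperHalfPlane) : UpperHalfPlane) : ℂ) from h.symm]
  exact (γ • (⟨z, hz⟩ : UpperHalfPlane)).im_pos

theorem slAct_one {z : ℂ} : slAct 1 z = z := by simp [slAct, slDen]

theorem slAct_mul (γ δ : SL(2, ℤ)) {z : ℂ} (hz : z ∈ upperHalfPlaneSet) :
    slAct (γ * δ) z = slAct γ (slAct δ z) := by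
  have h1 := coe_smul_eq_slAct (γ * δ) ⟨z, hz⟩
  rw [mul_smul] at h1
  have h2 := coe_smul_eq_slAct γ (δ • ⟨z, hz⟩)
  rw [coe_smul_eq_slAct δ ⟨z, hz⟩] at h2
  exact h1.symm.trans h2

theorem analyticAt_slAct (γ : SL(2, ℤ)) {z : ℂ} (hz : z ∈ upperHalfPlaneSet) :
    AnalyticAt ℂ (slAct γ) z :=
  ((analyticAt_const.mul analyticAt_id).add analyticAt_const).div
    ((analyticAt_const.mul analyticAt_id).add analyticAt_const) (slDen_ne_zero γ hz)

theorem deriv_slAct_ne_zero (γ : SL(2, ℤ)) {z : ℂ} (hz : z ∈ upperHalfPlaneSet) :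
    deriv (slAct γ) z ≠ 0 := by
  have hd := slDen_ne_zero γ hz
  have h1 : HasDerivAt (fun w : ℂ => (γ 0 0 : ℂ) * w + (γ 0 1 : ℂ)) (γ 0 0 : ℂ) z := by
    simpa using ((hasDerivAt_id z).const_mul (γ 0 0 : ℂ)).add_const (γ 0 1 : ℂ)
  have h2 : HasDerivAt (slDen γ) (γ 1 0 : ℂ) z := by
    unfold slDen
    simpa using ((hasDerivAt_id z).const_mul (γ 1 0 : ℂ)).add_const (γ 1 1 : ℂ)
  have h := h1.div h2 hd
  rw [show deriv (slAct γ) z = _ from h.deriv]
  refine div_ne_zero ?_ (pow_ne_zero 2 hd)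
  have hdet : ((γ 0 0 : ℂ)) * (γ 1 1 : ℂ) - (γ 0 1 : ℂ) * (γ 1 0 : ℂ) = 1 := by
    have hd' := Matrix.det_fin_two (γ : Matrix (Fin 2) (Fin 2) ℤ)
    rw [γ.2] at hd'
    exact_mod_cast hd'.symm
  simp only [slDen]
  rw [show (γ 0 0 : ℂ) * ((γ 1 0 : ℂ) * z + (γ 1 1 : ℂ))
      - ((γ 0 0 : ℂ) * z + (γ 0 1 : ℂ)) * (γ 1 0 : ℂ) = 1 by linear_combination hdet]
  exact one_ne_zero

theorem tendsto_slAct_nhdsNE (γ : SL(2, ℤ)) {z : ℂ} (hz : z ∈ upperHalfPlaneSet) :
    Tendsto (slAct γ) (𝓝[≠] z) (𝓝[≠] (slAct γ z)) :=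
  (analyticAt_slAct γ hz).differentiableAt.hasDerivAt.tendsto_nhdsNE (deriv_slAct_ne_zero γ hz)

theorem meromorphicNFAt_comp_slAct {f : ℂ → ℂ} (γ : SL(2, ℤ)) {z : ℂ}
    (hz : z ∈ upperHalfPlaneSet) (hf : MeromorphicNFAt f (slAct γ z)) :
    MeromorphicNFAt (f ∘ slAct γ) z :=
  hf.comp_analyticAt (analyticAt_slAct γ hz)

theorem meromorphicOrderAt_comp_slAct (f : ℂ → ℂ) (γ : SL(2, ℤ)) {z : ℂ}
    (hz : z ∈ upperHalfPlaneSet) :
    meromorphicOrderAt (f ∘ slAct γ) z = meromorphicOrderAt f (slAct γ z) :=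
  meromorphicOrderAt_comp_of_deriv_ne_zero (analyticAt_slAct γ hz) (deriv_slAct_ne_zero γ hz)

theorem trace_sq_lt_four_cases {g : SL(2, ℤ)}
    (h : (g : Matrix (Fin 2) (Fin 2) ℤ).trace ^ 2 < 4) :
    ∃ τ : UpperHalfPlane, g • τ = τ := by
  have hell : (Matrix.SpecialLinearGroup.mapGL ℝ g : GL (Fin 2) ℝ).IsElliptic := by
    show Matrix.discr _ < 0
    rw [Matrix.discr_fin_two]
    have hdet : ((g : Matrix (Fin 2) (Fin 2) ℤ)).det = 1 := g.2
    rw [Matrix.det_fin_two] at hdet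
    rw [Matrix.trace_fin_two] at h
    simp only [Matrix.trace_fin_two, Matrix.det_fin_two]
    simp
    have h' : (((g 0 0 : ℤ) : ℝ) + (g 1 1 : ℤ)) ^ 2 < 4 := by exact_mod_cast h
    have hdet' : ((g 0 0 : ℤ) : ℝ) * (g 1 1 : ℤ) - (g 0 1 : ℤ) * (g 1 0 : ℤ) = 1 := by
      exact_mod_cast hdet
    nlinarith
  refine ⟨UpperHalfPlane.fixedPt _ hell, ?_⟩
  exact (UpperHalfPlane.gl_smul_eq_self_iff_eq_fixedPt
    (by rw [← Matrix.GeneralLinearGroup.val_det_apply]; simp) hell).2 rfl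

/-- An element with `trace² = 4` is, up to sign, conjugate in `SL(2,ℤ)` to a translation. -/
theorem exists_conj_translation {g : SL(2, ℤ)}
    (h : (g : Matrix (Fin 2) (Fin 2) ℤ).trace ^ 2 = 4) :
    ∃ (A : SL(2, ℤ)) (w : ℤ),
      g = A * ModularGroup.T ^ w * A⁻¹ ∨ g = -(A * ModularGroup.T ^ w * A⁻¹) := by
  suffices H : ∀ g : SL(2, ℤ), (g : Matrix (Fin 2) (Fin 2) ℤ).trace = 2 →
      ∃ (A : SL(2, ℤ)) (w : ℤ), g = A * ModularGroup.T ^ w * A⁻¹ by
    have h2 : (g : Matrix (Fin 2) (Fin 2) ℤ).trace = 2 ∨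
        (g : Matrix (Fin 2) (Fin 2) ℤ).trace = -2 := by
      have : ((g : Matrix (Fin 2) (Fin 2) ℤ).trace - 2) *
          ((g : Matrix (Fin 2) (Fin 2) ℤ).trace + 2) = 0 := by linear_combination h
      rcases mul_eq_zero.1 this with h' | h' <;> [left; right] <;> omega
    rcases h2 with h2 | h2
    · obtain ⟨A, w, hA⟩ := H g h2
      exact ⟨A, w, Or.inl hA⟩
    · obtain ⟨A, w, hA⟩ := H (-g) (by
        rw [Matrix.SpecialLinearGroup.coe_neg, Matrix.trace_neg, h2]; norm_num)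
      exact ⟨A, w, Or.inr (by rw [← hA, neg_neg])⟩
  intro g htr
  rw [Matrix.trace_fin_two] at htr
  have hdet := g.2
  rw [Matrix.det_fin_two] at hdet
  by_cases hc : g 1 0 = 0
  · refine ⟨1, g 0 1, ?_⟩
    rw [one_mul, inv_one, mul_one]
    have ha : g 0 0 = 1 := by
      rw [hc, mul_zero, sub_zero] at hdet
      have : (g 0 0 - 1) * (g 0 0 - 1) = 0 := by
        have : g 1 1 = 2 - g 0 0 := by linarith
        rw [this] at hdet
        linear_combination -hdet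
      rcases mul_eq_zero.1 this with h' | h' <;> omega
    ext i j
    fin_cases i <;> fin_cases j <;> simp [ModularGroup.coe_T_zpow, hc, ha]
    omega
  · -- the fixed vector `(a - 1, c)`
    obtain ⟨p, q, hpq, k, hp, hq⟩ : ∃ p q : ℤ, IsCoprime p q ∧
        ∃ k : ℤ, g 0 0 - 1 = k * p ∧ g 1 0 = k * q := by
      refine ⟨(g 0 0 - 1) / Int.gcd (g 0 0 - 1) (g 1 0), g 1 0 / Int.gcd (g 0 0 - 1) (g 1 0),
        ?_, Int.gcd (g 0 0 - 1) (g 1 0), ?_, ?_⟩
      · rw [Int.isCoprime_iff_gcd_eq_one]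
        exact Int.gcd_div_gcd_div_gcd (Int.gcd_pos_of_ne_zero_right _ hc)
      · exact (Int.mul_ediv_cancel' (Int.gcd_dvd_left _ _)).symm
      · exact (Int.mul_ediv_cancel' (Int.gcd_dvd_right _ _)).symm
    obtain ⟨A, hA0, hA1⟩ := hpq.exists_SL2_col 0
    have hk : k ≠ 0 := by
      rintro rfl
      rw [zero_mul] at hq
      exact hc hq
    have he1 : g 0 0 * p + g 0 1 * q = p := by
      have : k * (g 0 0 * p + g 0 1 * q - p) = 0 := by
        linear_combination (-(g 0 0) + 1) * hp + (-(g 0 1)) * hq - hdet + (g 0 0) * htr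
      rcases mul_eq_zero.1 this with h' | h'
      · exact absurd h' hk
      · linarith
    have he2 : g 1 0 * p + g 1 1 * q = q := by
      have : k * (g 1 0 * p + g 1 1 * q - q) = 0 := by
        linear_combination (-(g 1 0)) * hp + (-(g 1 1) + 1) * hq + (g 1 0) * htr
      rcases mul_eq_zero.1 this with h' | h'
      · exact absurd h' hk
      · linarith
    set B : SL(2, ℤ) := A⁻¹ * g * A with hB
    have hB10 : B 1 0 = 0 := by
      simp [hB, Matrix.SpecialLinearGroup.coe_inv, Matrix.adjugate_fin_two, Matrix.mul_apply,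
        Matrix.vecMul, dotProduct, Fin.sum_univ_two, hA0, hA1]
      linear_combination (-q) * he1 + p * he2
    have hBtr : B 0 0 + B 1 1 = 2 := by
      have hAdet := A.2
      rw [Matrix.det_fin_two] at hAdet
      simp [hB, Matrix.SpecialLinearGroup.coe_inv, Matrix.adjugate_fin_two, Matrix.mul_apply,
        Matrix.vecMul, dotProduct, Fin.sum_univ_two]
      linear_combination (g 0 0 + g 1 1) * hAdet + htr
    have hBdet := B.2
    rw [Matrix.det_fin_two, hB10, mul_zero, sub_zero] at hBdet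
    have ha : B 0 0 = 1 := by
      have : (B 0 0 - 1) * (B 0 0 - 1) = 0 := by
        linear_combination -hBdet + (B 0 0) * hBtr
      rcases mul_eq_zero.1 this with h' | h' <;> omega
    have hBT : B = ModularGroup.T ^ (B 0 1) := by
      ext i j
      fin_cases i <;> fin_cases j <;> simp [ModularGroup.coe_T_zpow, hB10, ha]
      omega
    refine ⟨A, B 0 1, ?_⟩
    rw [← hBT, hB]
    group

end FLTA.Kummer
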