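/-
The character of an `n`-th root of an invariant meromorphic function.
-/
import Fermat.Agent.Kummer.Root
import Fermat.Agent.Kummer.SLAct
import Mathlib.Analysis.SpecialFunctions.Complex.CircleAddChar
import Mathlib.Analysis.SpecialFunctions.Complex.Analytic
import Mathlib.Analysis.Complex.UpperHalfPlane.FunctionsBoundedAtInfty

set_option autoImplicit false

noncomputable section

open Filter Topology Set Function
open UpperHalfPlane (upperHalfPlaneSet atImInfty)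
open scoped MatrixGroups

namespace FLTA.Kummer

local notation "U" => upperHalfPlaneSet

section RootIdx

variable (n : ℕ) [NeZero n]

/-- The index of an `n`-th root of unity. -/
def rootIdx (ζ : ℂ) : ZMod n := invFun (ZMod.stdAddChar (N := n)) ζ

theorem stdAddChar_pow_self (k : ZMod n) : ZMod.stdAddChar k ^ n = 1 := by
  rw [← AddChar.map_nsmul_eq_pow, nsmul_eq_mul, ZMod.natCast_self, zero_mul, AddChar.map_zero_eq_one]

theorem exists_stdAddChar_eq {ζ : ℂ} (hζ : ζ ^ n = 1) : ∃ k : ZMod n, ZMod.stdAddChar k = ζ := by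
  classical
  have hsub : Finset.univ.image (ZMod.stdAddChar (N := n)) ⊆ Polynomial.nthRootsFinset n (1 : ℂ) := by
    intro x hx
    obtain ⟨k, -, rfl⟩ := Finset.mem_image.1 hx
    rw [Polynomial.mem_nthRootsFinset (Nat.pos_of_ne_zero (NeZero.ne n))]
    exact stdAddChar_pow_self n k
  have hcard : (Polynomial.nthRootsFinset n (1 : ℂ)).card
      ≤ (Finset.univ.image (ZMod.stdAddChar (N := n))).card := by
    rw [Finset.card_image_of_injective _ ZMod.injective_stdAddChar,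
      (Complex.isPrimitiveRoot_exp n (NeZero.ne n)).card_nthRootsFinset, Finset.card_univ, ZMod.card]
  have hmem : ζ ∈ Polynomial.nthRootsFinset n (1 : ℂ) :=
    (Polynomial.mem_nthRootsFinset (Nat.pos_of_ne_zero (NeZero.ne n)) 1).2 hζ
  rw [← Finset.eq_of_subset_of_card_le hsub hcard] at hmem
  obtain ⟨k, -, hk⟩ := Finset.mem_image.1 hmem
  exact ⟨k, hk⟩

theorem stdAddChar_rootIdx {ζ : ℂ} (hζ : ζ ^ n = 1) : ZMod.stdAddChar (rootIdx n ζ) = ζ :=
  invFun_eq (exists_stdAddChar_eq n hζ)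

theorem rootIdx_stdAddChar (k : ZMod n) : rootIdx n (ZMod.stdAddChar k) = k :=
  leftInverse_invFun ZMod.injective_stdAddChar k

end RootIdx

section Mero

/-- Equality of functions off a discrete subset of the upper half plane. -/
def EqMero (f g : ℂ → ℂ) : Prop := ∀ z ∈ U, f =ᶠ[𝓝[≠] z] g

theorem EqMero.refl (f : ℂ → ℂ) : EqMero f f := fun _ _ => EventuallyEq.refl _ _

theorem EqMero.symm {f g : ℂ → ℂ} (h : EqMero f g) : EqMero g f := fun z hz => (h z hz).symm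

theorem EqMero.trans {f g k : ℂ → ℂ} (h : EqMero f g) (h' : EqMero g k) : EqMero f k :=
  fun z hz => (h z hz).trans (h' z hz)

theorem EqMero.mul {f g f' g' : ℂ → ℂ} (h : EqMero f g) (h' : EqMero f' g') :
    EqMero (f * f') (g * g') := fun z hz => (h z hz).mul (h' z hz)

theorem EqMero.div {f g f' g' : ℂ → ℂ} (h : EqMero f g) (h' : EqMero f' g') :
    EqMero (f / f') (g / g') := fun z hz => (h z hz).div (h' z hz)

theorem EqMero.pow {f g : ℂ → ℂ} (h : EqMero f g) (k : ℕ) : EqMero (f ^ k) (g ^ k) :=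
  fun z hz => (h z hz).pow_const k

theorem EqMero.comp_slAct {f g : ℂ → ℂ} (h : EqMero f g) (γ : SL(2, ℤ)) :
    EqMero (f ∘ slAct γ) (g ∘ slAct γ) := fun _ hz =>
  (h _ (slAct_mem γ hz)).comp_tendsto (tendsto_slAct_nhdsNE γ hz)

theorem EqMero.of_eqOn {f g : ℂ → ℂ} (h : EqOn f g U) : EqMero f g := fun _ hz =>
  (h.eventuallyEq_of_mem (UpperHalfPlane.isOpen_upperHalfPlaneSet.mem_nhds hz)).filter_mono
    nhdsWithin_le_nhds

/-- Functions in normal form that agree off a discrete set agree everywhere. -/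
theorem EqMero.eqOn {f g : ℂ → ℂ} (h : EqMero f g) (hf : MeromorphicNFOn f U)
    (hg : MeromorphicNFOn g U) : EqOn f g U := fun z hz =>
  (((hf hz).eventuallyEq_nhdsNE_iff_eventuallyEq_nhds (hg hz)).1 (h z hz)).eq_of_nhds

/-- The normal form on the upper half plane. -/
def nfOn (f : ℂ → ℂ) : ℂ → ℂ := toMeromorphicNFOn f U

theorem meromorphicNFOn_nfOn (f : ℂ → ℂ) : MeromorphicNFOn (nfOn f) U :=
  meromorphicNFOn_toMeromorphicNFOn f U

theorem eqMero_nfOn {f : ℂ → ℂ} (hf : MeromorphicOn f U) : EqMero (nfOn f) f := fun _ hz =>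
  hf.toMeromorphicNFOn_eq_self_on_nhdsNE hz

/-- Composition with `slAct` preserves meromorphy on the upper half plane. -/
theorem meromorphicOn_comp_slAct {f : ℂ → ℂ} (hf : MeromorphicOn f U) (γ : SL(2, ℤ)) :
    MeromorphicOn (f ∘ slAct γ) U := fun z hz =>
  (hf _ (slAct_mem γ hz)).comp_analyticAt (analyticAt_slAct γ hz)

/-- A meromorphic function on the upper half plane, nowhere locally zero, invariant under `Γ`. -/
structure IsInvMero (Γ : Subgroup SL(2, ℤ)) (f : ℂ → ℂ) : Prop where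
  mero : MeromorphicOn f U
  order_ne_top : ∀ z ∈ U, meromorphicOrderAt f z ≠ ⊤
  invariant : ∀ γ ∈ Γ, EqMero (f ∘ slAct γ) f

variable {Γ : Subgroup SL(2, ℤ)}

theorem IsInvMero.eventually_ne_zero {f : ℂ → ℂ} (hf : IsInvMero Γ f) {z : ℂ} (hz : z ∈ U) :
    ∀ᶠ w in 𝓝[≠] z, f w ≠ 0 :=
  (meromorphicOrderAt_ne_top_iff_eventually_ne_zero (hf.mero z hz)).1 (hf.order_ne_top z hz)

theorem isInvMero_const (Γ : Subgroup SL(2, ℤ)) {c : ℂ} (hc : c ≠ 0) :
    IsInvMero Γ (fun _ => c) where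
  mero := fun z _ => MeromorphicAt.const c z
  order_ne_top := fun z _ => by
    classical
    rw [meromorphicOrderAt_const, if_neg hc]; simp
  invariant := fun _ _ => EqMero.refl _

theorem IsInvMero.mul {f g : ℂ → ℂ} (hf : IsInvMero Γ f) (hg : IsInvMero Γ g) :
    IsInvMero Γ (f * g) where
  mero := fun z hz => (hf.mero z hz).mul (hg.mero z hz)
  order_ne_top := fun z hz => by
    rw [meromorphicOrderAt_mul (hf.mero z hz) (hg.mero z hz)]
    exact WithTop.add_ne_top.2 ⟨hf.order_ne_top z hz, hg.order_ne_top z hz⟩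
  invariant := fun γ hγ => (hf.invariant γ hγ).mul (hg.invariant γ hγ)

theorem IsInvMero.inv {f : ℂ → ℂ} (hf : IsInvMero Γ f) : IsInvMero Γ f⁻¹ where
  mero := fun z hz => (hf.mero z hz).inv
  order_ne_top := fun z hz => by
    rw [meromorphicOrderAt_inv]
    intro h
    exact hf.order_ne_top z hz (by simpa using h)
  invariant := fun γ hγ => fun z hz => (hf.invariant γ hγ z hz).inv

theorem IsInvMero.div {f g : ℂ → ℂ} (hf : IsInvMero Γ f) (hg : IsInvMero Γ g) :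
    IsInvMero Γ (f / g) := by
  rw [div_eq_mul_inv]
  exact hf.mul hg.inv

theorem IsInvMero.pow {f : ℂ → ℂ} (hf : IsInvMero Γ f) : ∀ k : ℕ, IsInvMero Γ (f ^ k)
  | 0 => by rw [pow_zero]; exact isInvMero_const Γ one_ne_zero
  | k + 1 => by rw [pow_succ]; exact (IsInvMero.pow hf k).mul hf

theorem IsInvMero.congr {f g : ℂ → ℂ} (hf : IsInvMero Γ f) (hg : MeromorphicOn g U)
    (h : EqMero f g) : IsInvMero Γ g where
  mero := hg
  order_ne_top := fun z hz => by
    rw [← meromorphicOrderAt_congr (h z hz)]; exact hf.order_ne_top z hz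
  invariant := fun γ hγ => ((h.comp_slAct γ).symm.trans (hf.invariant γ hγ)).trans h

end Mero

section Char

variable {n : ℕ} [NeZero n] {Γ : Subgroup SL(2, ℤ)}

/-- `χ` is the character of an `n`-th root of `f`. -/
def IsCharOf (n : ℕ) [NeZero n] (Γ : Subgroup SL(2, ℤ)) (f : ℂ → ℂ)
    (χ : Additive Γ →+ ZMod n) : Prop :=
  ∃ F : ℂ → ℂ, MeromorphicOn F U ∧ EqMero (F ^ n) f ∧
    ∀ γ : Γ, EqMero (F ∘ slAct (γ : SL(2, ℤ)))
      (fun z => ZMod.stdAddChar (χ (Additive.ofMul γ)) * F z)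

theorem order_ne_top_of_pow {f F : ℂ → ℂ} (hf : IsInvMero Γ f) (hF : MeromorphicOn F U)
    (h : EqMero (F ^ n) f) {z : ℂ} (hz : z ∈ U) : meromorphicOrderAt F z ≠ ⊤ := by
  intro htop
  refine hf.order_ne_top z hz ?_
  rw [← meromorphicOrderAt_congr (h z hz), meromorphicOrderAt_pow (hF z hz), htop]
  simp [NeZero.ne n]

theorem eventually_ne_zero_of_pow {f F : ℂ → ℂ} (hf : IsInvMero Γ f) (hF : MeromorphicOn F U)
    (h : EqMero (F ^ n) f) {z : ℂ} (hz : z ∈ U) : ∀ᶠ w in 𝓝[≠] z, F w ≠ 0 :=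
  (meromorphicOrderAt_ne_top_iff_eventually_ne_zero (hF z hz)).1 (order_ne_top_of_pow hf hF h hz)

/-- Two roots differ by a constant root of unity. -/
theorem exists_eq_const_mul {f F G : ℂ → ℂ} (hf : IsInvMero Γ f) (hF : MeromorphicOn F U)
    (hFp : EqMero (F ^ n) f) (hG : MeromorphicOn G U) (hGp : EqMero (G ^ n) f) :
    ∃ ζ : ℂ, ζ ^ n = 1 ∧ EqMero G (fun z => ζ * F z) := by
  have hF' : IsRootOn n f (nfOn F) U :=
    ⟨meromorphicNFOn_nfOn F, ((eqMero_nfOn hF).pow n).trans hFp⟩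
  have hG' : IsRootOn n f (nfOn G) U :=
    ⟨meromorphicNFOn_nfOn G, ((eqMero_nfOn hG).pow n).trans hGp⟩
  obtain ⟨ζ, hζ, heq⟩ := root_unique (NeZero.ne n) UpperHalfPlane.isOpen_upperHalfPlaneSet
    (convex_halfSpace_im_gt 0).isPreconnected hf.order_ne_top hF' hG'
  refine ⟨ζ, hζ, ((eqMero_nfOn hG).symm.trans (EqMero.of_eqOn heq)).trans ?_⟩
  intro z hz
  filter_upwards [eqMero_nfOn hF z hz] with w hw
  rw [hw]

/-- A multiplier of a root is unique. -/
theorem const_eq_of_eqMero {f F : ℂ → ℂ} (hf : IsInvMero Γ f) (hF : MeromorphicOn F U)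
    (hFp : EqMero (F ^ n) f) {a b : ℂ} (h : EqMero (fun z => a * F z) (fun z => b * F z)) :
    a = b := by
  have hz : (Complex.I : ℂ) ∈ U := by simp [upperHalfPlaneSet]
  obtain ⟨w, hw, hw'⟩ := ((h _ hz).and (eventually_ne_zero_of_pow hf hF hFp hz)).exists
  exact mul_right_cancel₀ hw' hw

theorem IsCharOf.unique {f : ℂ → ℂ} (hf : IsInvMero Γ f) {χ χ' : Additive Γ →+ ZMod n}
    (h : IsCharOf n Γ f χ) (h' : IsCharOf n Γ f χ') : χ = χ' := by
  obtain ⟨F, hF, hFp, hFχ⟩ := h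
  obtain ⟨G, hG, hGp, hGχ⟩ := h'
  obtain ⟨ζ, hζ, hGF⟩ := exists_eq_const_mul hf hF hFp hG hGp
  have hζ0 : ζ ≠ 0 := by
    rintro rfl
    simp [zero_pow (NeZero.ne n)] at hζ
  refine AddMonoidHom.ext fun γ => ?_
  apply ZMod.injective_stdAddChar
  refine const_eq_of_eqMero hf hF hFp fun z hz => ?_
  have hz' := slAct_mem (γ.toMul : SL(2, ℤ)) hz
  filter_upwards [hFχ γ.toMul z hz, hGχ γ.toMul z hz, hGF z hz,
    (tendsto_slAct_nhdsNE _ hz).eventually (hGF _ hz')] with w h1 h2 h3 h4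
  simp only [comp_apply, ofMul_toMul] at h1 h2 h4 ⊢
  rw [h4, h1, h3] at h2
  refine mul_left_cancel₀ hζ0 ?_
  linear_combination h2

/-- The product of two roots is a root of the product. -/
theorem IsCharOf.mul {f g : ℂ → ℂ} {χ χ' : Additive Γ →+ ZMod n} (h : IsCharOf n Γ f χ)
    (h' : IsCharOf n Γ g χ') : IsCharOf n Γ (f * g) (χ + χ') := by
  obtain ⟨F, hF, hFp, hFχ⟩ := h
  obtain ⟨G, hG, hGp, hGχ⟩ := h'
  refine ⟨F * G, fun z hz => (hF z hz).mul (hG z hz), by rw [mul_pow]; exact hFp.mul hGp,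
    fun γ z hz => ?_⟩
  filter_upwards [hFχ γ z hz, hGχ γ z hz] with w h1 h2
  simp only [comp_apply, Pi.mul_apply, AddMonoidHom.add_apply, AddChar.map_add_eq_mul] at *
  rw [h1, h2]; ring

theorem IsCharOf.congr {f g : ℂ → ℂ} {χ : Additive Γ →+ ZMod n} (h : IsCharOf n Γ f χ)
    (hfg : EqMero f g) : IsCharOf n Γ g χ := by
  obtain ⟨F, hF, hFp, hFχ⟩ := h
  exact ⟨F, hF, hFp.trans hfg, hFχ⟩

/-- `n`-th powers of invariant functions have trivial character. -/
theorem isCharOf_pow {g : ℂ → ℂ} (hg : IsInvMero Γ g) : IsCharOf n Γ (g ^ n) 0 := by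
  refine ⟨g, hg.mero, EqMero.refl _, fun γ => ?_⟩
  refine (hg.invariant _ γ.2).trans fun z _ => Eventually.of_forall fun w => ?_
  simp [AddChar.map_zero_eq_one]

theorem isCharOf_const {c : ℂ} (hc : c ≠ 0) : IsCharOf n Γ (fun _ => c) 0 := by
  obtain ⟨d, hd⟩ := IsAlgClosed.exists_pow_nat_eq c (Nat.pos_of_ne_zero (NeZero.ne n))
  have hd0 : d ≠ 0 := by
    rintro rfl
    exact hc (by rw [← hd, zero_pow (NeZero.ne n)])
  refine (isCharOf_pow (isInvMero_const Γ hd0)).congr fun z _ => Eventually.of_forall fun w => ?_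
  simp [hd]

/-- A trivial character means an invariant root. -/
theorem IsCharOf.exists_invariant_root {f : ℂ → ℂ} (hf : IsInvMero Γ f)
    (h : IsCharOf n Γ f 0) : ∃ g, IsInvMero Γ g ∧ EqMero (g ^ n) f := by
  obtain ⟨F, hF, hFp, hFχ⟩ := h
  refine ⟨F, ⟨hF, fun z hz => order_ne_top_of_pow hf hF hFp hz, fun γ hγ => ?_⟩, hFp⟩
  refine (hFχ ⟨γ, hγ⟩).trans fun z _ => Eventually.of_forall fun w => ?_
  simp [AddChar.map_zero_eq_one]

/-- An invariant function that is locally an `n`-th power of invariant functions, also at the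
cusps. -/
structure IsLocPow (n : ℕ) (Γ : Subgroup SL(2, ℤ)) (f : ℂ → ℂ) : Prop extends IsInvMero Γ f where
  interior : ∀ z ∈ U, ∃ h, IsInvMero Γ h ∧
    meromorphicOrderAt f z = n * meromorphicOrderAt h z
  cusp : ∀ A : SL(2, ℤ), ∃ h, IsInvMero Γ h ∧ ∃ L : ℂ, L ≠ 0 ∧
    Tendsto (fun τ : UpperHalfPlane => nfOn (f / h ^ n) ↑(A • τ)) atImInfty (𝓝 L)

theorem IsLocPow.dvd_order {f : ℂ → ℂ} (hf : IsLocPow n Γ f) :
    ∀ z ∈ U, (n : ℤ) ∣ (meromorphicOrderAt f z).untop₀ := by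
  intro z hz
  obtain ⟨h, hh, ho⟩ := hf.interior z hz
  obtain ⟨a, ha⟩ := WithTop.ne_top_iff_exists.1 (hh.order_ne_top z hz)
  rw [ho, ← ha]
  exact ⟨a, by norm_cast⟩

theorem IsLocPow.exists_isCharOf {f : ℂ → ℂ} (hf : IsLocPow n Γ f) :
    ∃ χ : Additive Γ →+ ZMod n, IsCharOf n Γ f χ := by
  obtain ⟨F, hF⟩ := exists_root (NeZero.ne n) hf.mero hf.order_ne_top hf.dvd_order
  have hFm : MeromorphicOn F U := fun z hz => (hF.nf hz).meromorphicAt
  have hFp : EqMero (F ^ n) f := hF.pow_eq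
  have key : ∀ γ : Γ, ∃ k : ZMod n,
      EqMero (F ∘ slAct (γ : SL(2, ℤ))) (fun z => ZMod.stdAddChar k * F z) := by
    intro γ
    have h2 : EqMero ((F ∘ slAct (γ : SL(2, ℤ))) ^ n) f :=
      (hFp.comp_slAct _).trans (hf.invariant _ γ.2)
    obtain ⟨ζ, hζ, h⟩ := exists_eq_const_mul hf.toIsInvMero hFm hFp
      (meromorphicOn_comp_slAct hFm _) h2
    exact ⟨rootIdx n ζ, by rw [stdAddChar_rootIdx n hζ]; exact h⟩
  choose k hk using key
  refine ⟨AddMonoidHom.mk' (fun γ => k γ.toMul) fun a b => ?_, F, hFm, hFp, fun γ => hk γ⟩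
  apply ZMod.injective_stdAddChar
  refine const_eq_of_eqMero hf.toIsInvMero hFm hFp fun z hz => ?_
  filter_upwards [hk (a + b).toMul z hz, hk b.toMul z hz,
    (tendsto_slAct_nhdsNE _ hz).eventually (hk a.toMul _ (slAct_mem _ hz)),
    (tendsto_nhdsWithin_of_tendsto_nhds tendsto_id).eventually
      (UpperHalfPlane.isOpen_upperHalfPlaneSet.mem_nhds hz)] with w h1 h2 h3 hw
  simp only [comp_apply, id, toMul_add, Subgroup.coe_mul, AddChar.map_add_eq_mul] at *
  rw [slAct_mul _ _ hw, h3, h2] at h1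
  rw [← h1]; ring

/-- The normal form of the quotient of a root by a comparison function. -/
theorem exists_nf_quot {f F h : ℂ → ℂ} {χ : Additive Γ →+ ZMod n}
    (hF : MeromorphicOn F U) (hFp : EqMero (F ^ n) f) (hh : IsInvMero Γ h)
    (hFχ : ∀ γ : Γ, EqMero (F ∘ slAct (γ : SL(2, ℤ)))
      (fun z => ZMod.stdAddChar (χ (Additive.ofMul γ)) * F z)) :
    ∃ Φ : ℂ → ℂ, MeromorphicNFOn Φ U ∧ EqMero Φ (F / h) ∧
      EqOn (Φ ^ n) (nfOn (f / h ^ n)) U ∧
      ∀ γ : Γ, ∀ z ∈ U, Φ (slAct (γ : SL(2, ℤ)) z) =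
        ZMod.stdAddChar (χ (Additive.ofMul γ)) * Φ z := by
  have hm : MeromorphicOn (F / h) U := fun z hz => (hF z hz).div (hh.mero z hz)
  have hΦ := meromorphicNFOn_nfOn (F / h)
  refine ⟨nfOn (F / h), hΦ, eqMero_nfOn hm, ?_, fun γ z hz => ?_⟩
  · have h2 : MeromorphicNFOn (nfOn (F / h) ^ n) U := fun z hz => by
      simpa using (hΦ hz).zpow (n := (n : ℤ))
    refine EqMero.eqOn ?_ h2 (meromorphicNFOn_nfOn _)
    refine ((eqMero_nfOn hm).pow n).trans (EqMero.trans ?_ (EqMero.symm (eqMero_nfOn ?_)))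
    · rw [div_pow]
      exact hFp.div (EqMero.refl _)
    · intro z hz
      exact ((hF z hz).pow n |>.congr (hFp z hz)).div ((hh.mero z hz).pow n)
  · set c := ZMod.stdAddChar (χ (Additive.ofMul γ)) with hc
    have hc0 : c ≠ 0 := by
      intro h0
      have := stdAddChar_pow_self n (χ (Additive.ofMul γ))
      rw [← hc, h0, zero_pow (NeZero.ne n)] at this
      exact zero_ne_one this
    have h1 : EqMero (nfOn (F / h) ∘ slAct (γ : SL(2, ℤ))) (fun w => c * nfOn (F / h) w) := by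
      refine (((eqMero_nfOn hm).comp_slAct _).trans ?_)
      intro w hw
      filter_upwards [hFχ γ w hw, hh.invariant _ γ.2 w hw, eqMero_nfOn hm w hw] with v e1 e2 e3
      simp only [comp_apply, Pi.div_apply] at *
      rw [e1, e2, e3, hc]; ring
    exact h1.eqOn (fun w hw => meromorphicNFAt_comp_slAct _ hw (hΦ (slAct_mem _ hw)))
      (fun w hw => (meromorphicNFAt_mul_iff_right (g := fun _ => c) analyticAt_const hc0).2 (hΦ hw))
      hz

theorem IsCharOf.apply_eq_zero_of_fixed {f : ℂ → ℂ} (hf : IsLocPow n Γ f)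
    {χ : Additive Γ →+ ZMod n} (h : IsCharOf n Γ f χ) (γ : Γ) {τ : UpperHalfPlane}
    (hτ : (γ : SL(2, ℤ)) • τ = τ) : χ (Additive.ofMul γ) = 0 := by
  obtain ⟨F, hF, hFp, hFχ⟩ := h
  have hz : (τ : ℂ) ∈ U := τ.im_pos
  obtain ⟨h, hh, ho⟩ := hf.interior _ hz
  obtain ⟨Φ, hΦ, hΦe, -, hΦγ⟩ := exists_nf_quot hF hFp hh hFχ
  have hΦ0 : Φ τ ≠ 0 := by
    rw [← (hΦ hz).meromorphicOrderAt_eq_zero_iff, meromorphicOrderAt_congr (hΦe _ hz),
      meromorphicOrderAt_div (hF _ hz) (hh.mero _ hz)]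
    have hFo : (n : WithTop ℤ) * meromorphicOrderAt F (τ : ℂ)
        = n * meromorphicOrderAt h (τ : ℂ) := by
      rw [← ho, ← meromorphicOrderAt_congr (hFp _ hz), meromorphicOrderAt_pow (hF _ hz)]
    obtain ⟨a, ha⟩ := WithTop.ne_top_iff_exists.1 (order_ne_top_of_pow hf.toIsInvMero hF hFp hz)
    obtain ⟨b, hb⟩ := WithTop.ne_top_iff_exists.1 (hh.order_ne_top _ hz)
    rw [← ha, ← hb] at hFo ⊢
    have hab : (n : ℤ) * a = n * b := by exact_mod_cast hFo
    rw [mul_left_cancel₀ (Int.natCast_ne_zero.2 (NeZero.ne n)) hab]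
    norm_cast
    simp
  have h1 := hΦγ γ τ hz
  rw [← coe_smul_eq_slAct, hτ] at h1
  apply ZMod.injective_stdAddChar (N := n)
  rw [AddChar.map_zero_eq_one]
  exact mul_right_cancel₀ hΦ0 (by rw [← h1, one_mul])

/-- Continuous functions on `ℝ` with `n`-th power near a nonzero constant and periodic `n`-th
power are periodic. -/
theorem apply_eq_of_pow_mem_ball {Ψ : ℝ → ℂ} (hΨ : Continuous Ψ) {L : ℂ} (hL : L ≠ 0)
    (hball : ∀ s, Ψ s ^ n / L ∈ Metric.ball (1 : ℂ) (1 / 2)) {s t : ℝ}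
    (hst : Ψ s ^ n = Ψ t ^ n) : Ψ s = Ψ t := by
  set R : ℝ → ℂ := fun u => (Ψ u ^ n / L) ^ ((n : ℂ)⁻¹) with hR
  have hne : ∀ u, Ψ u ^ n / L ≠ 0 := fun u h0 => by
    have := hball u
    rw [h0, Metric.mem_ball] at this
    norm_num at this
  have hRc : Continuous R := by
    refine Continuous.cpow ((hΨ.pow n).div_const L) continuous_const fun u => Or.inl ?_
    have h1 := hball u
    rw [Metric.mem_ball, dist_eq_norm] at h1
    have h2 := (Complex.abs_re_le_norm _).trans_lt h1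
    rw [Complex.sub_re, Complex.one_re, abs_lt] at h2
    linarith
  have hR0 : ∀ u, R u ≠ 0 := fun u h0 => by
    have h : R u ^ n = 0 := by rw [h0, zero_pow (NeZero.ne n)]
    rw [hR] at h
    simp only at h
    rw [Complex.cpow_nat_inv_pow _ (NeZero.ne n)] at h
    exact hne u h
  have hq : ∀ u, (Ψ u / R u) ^ n = L := fun u => by
    rw [div_pow, hR]
    simp only
    rw [Complex.cpow_nat_inv_pow _ (NeZero.ne n)]
    have hΨ0 : Ψ u ^ n ≠ 0 := fun h0 => hne u (by rw [h0, zero_div])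
    field_simp
  have hfin : {x : ℂ | x ^ n = L}.Finite := by
    classical
    refine (Polynomial.nthRootsFinset n L).finite_toSet.subset fun x hx => ?_
    simpa [Polynomial.mem_nthRootsFinset (Nat.pos_of_ne_zero (NeZero.ne n))] using hx
  have : Finite {x : ℂ | x ^ n = L} := hfin
  have hc : Ψ s / R s = Ψ t / R t :=
    isPreconnected_univ.constant_of_mapsTo (S := (Set.univ : Set ℝ)) (T := {x : ℂ | x ^ n = L})
      (isDiscrete_iff_discreteTopology.2 inferInstance)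
      (hΨ.div hRc hR0).continuousOn (fun u _ => hq u) (mem_univ s) (mem_univ t)
  have hRst : R s = R t := by simp [hR, hst]
  rw [hRst] at hc
  exact (div_left_inj' (hR0 t)).1 hc

theorem slAct_neg (γ : SL(2, ℤ)) (z : ℂ) : slAct (-γ) z = slAct γ z := by
  simp only [slAct, slDen, Matrix.SpecialLinearGroup.coe_neg, Matrix.neg_apply, Int.cast_neg]
  rw [show (-(γ 0 0 : ℂ)) * z + -(γ 0 1 : ℂ) = -((γ 0 0 : ℂ) * z + (γ 0 1 : ℂ)) by ring,
    show (-(γ 1 0 : ℂ)) * z + -(γ 1 1 : ℂ) = -((γ 1 0 : ℂ) * z + (γ 1 1 : ℂ)) by ring,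
    neg_div_neg_eq]

theorem smul_translation (w : ℤ) (τ : UpperHalfPlane) (A : SL(2, ℤ)) (γ : SL(2, ℤ))
    (h : γ = A * ModularGroup.T ^ w * A⁻¹ ∨ γ = -(A * ModularGroup.T ^ w * A⁻¹)) :
    γ • (A • τ) = A • ((w : ℝ) +ᵥ τ) := by
  have h1 : (A * ModularGroup.T ^ w * A⁻¹) • (A • τ) = A • ((w : ℝ) +ᵥ τ) := by
    rw [← mul_smul, inv_mul_cancel_right, mul_smul, UpperHalfPlane.modular_T_zpow_smul]
  rcases h with rfl | rfl
  · exact h1
  · rw [← h1]
    apply UpperHalfPlane.ext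
    simp only [coe_smul_eq_slAct, slAct_neg]

theorem IsCharOf.apply_eq_zero_of_translation {f : ℂ → ℂ} (hf : IsLocPow n Γ f)
    {χ : Additive Γ →+ ZMod n} (hχ : IsCharOf n Γ f χ) (γ : Γ) {A : SL(2, ℤ)} {w : ℤ}
    (hγ : (γ : SL(2, ℤ)) = A * ModularGroup.T ^ w * A⁻¹ ∨
      (γ : SL(2, ℤ)) = -(A * ModularGroup.T ^ w * A⁻¹)) :
    χ (Additive.ofMul γ) = 0 := by
  obtain ⟨F, hF, hFp, hFχ⟩ := hχ
  obtain ⟨h, hh, L, hL, hlim⟩ := hf.cusp A
  obtain ⟨Φ, hΦ, -, hΦn, hΦγ⟩ := exists_nf_quot hF hFp hh hFχ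
  have hev : ∀ᶠ τ : UpperHalfPlane in atImInfty,
      Φ ↑(A • τ) ^ n / L ∈ Metric.ball (1 : ℂ) (1 / 2) := by
    have h1 : Tendsto (fun τ : UpperHalfPlane => Φ ↑(A • τ) ^ n / L) atImInfty (𝓝 (L / L)) := by
      refine (hlim.div_const L).congr fun τ => ?_
      exact congrArg (· / L) (hΦn (A • τ).im_pos).symm
    rw [div_self hL] at h1
    exact h1 (Metric.ball_mem_nhds _ (by norm_num))
  rw [Filter.Eventually, UpperHalfPlane.atImInfty_mem] at hev
  obtain ⟨Y, hY⟩ := hev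
  set τ₀ : UpperHalfPlane := ⟨⟨0, max Y 1⟩, by simp⟩
  set z : ℝ → ℂ := fun s => ((A • (s +ᵥ τ₀) : UpperHalfPlane) : ℂ) with hz
  have hball : ∀ s, Φ (z s) ^ n / L ∈ Metric.ball (1 : ℂ) (1 / 2) := fun s =>
    hY (s +ᵥ τ₀) (by rw [UpperHalfPlane.vadd_im]; exact le_max_left _ _)
  have hzU : ∀ s, z s ∈ U := fun s => (A • (s +ᵥ τ₀) : UpperHalfPlane).im_pos
  have hΦ0 : ∀ s, Φ (z s) ≠ 0 := fun s h0 => by
    have := hball s
    rw [h0, zero_pow (NeZero.ne n), zero_div, Metric.mem_ball] at this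
    norm_num at this
  have hcont : Continuous fun s => Φ (z s) := by
    refine continuous_iff_continuousAt.2 fun s => ?_
    have han : AnalyticAt ℂ Φ (z s) :=
      (hΦ (hzU s)).meromorphicOrderAt_nonneg_iff_analyticAt.1
        (le_of_eq ((hΦ (hzU s)).meromorphicOrderAt_eq_zero_iff.2 (hΦ0 s)).symm)
    refine han.continuousAt.comp ?_
    have h1 : Continuous fun u : ℝ => ((u +ᵥ τ₀ : UpperHalfPlane) : ℂ) := by
      simp only [UpperHalfPlane.coe_vadd]
      fun_prop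
    have h2 : z = fun u => slAct A ((u +ᵥ τ₀ : UpperHalfPlane) : ℂ) :=
      funext fun u => coe_smul_eq_slAct A _
    rw [h2]
    exact ContinuousAt.comp (f := fun u : ℝ => ((u +ᵥ τ₀ : UpperHalfPlane) : ℂ))
      (analyticAt_slAct A (s +ᵥ τ₀).im_pos).continuousAt h1.continuousAt
  have hper : z w = slAct (γ : SL(2, ℤ)) (z 0) := by
    rw [hz]
    simp only [zero_vadd]
    rw [← coe_smul_eq_slAct, smul_translation w τ₀ A _ hγ]
  have hpow : Φ (z w) ^ n = Φ (z 0) ^ n := by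
    rw [hper, hΦγ γ _ (hzU 0), mul_pow, stdAddChar_pow_self, one_mul]
  have heq : Φ (z w) = Φ (z 0) := apply_eq_of_pow_mem_ball hcont hL hball hpow
  rw [hper, hΦγ γ _ (hzU 0)] at heq
  apply ZMod.injective_stdAddChar (N := n)
  rw [AddChar.map_zero_eq_one]
  exact mul_right_cancel₀ (hΦ0 0) (by rw [heq, one_mul])

/-- The character of a root of a locally `n`-th power kills the elements of small trace. -/
theorem IsCharOf.apply_eq_zero_of_trace {f : ℂ → ℂ} (hf : IsLocPow n Γ f)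
    {χ : Additive Γ →+ ZMod n} (hχ : IsCharOf n Γ f χ) (γ : Γ)
    (hγ : ((γ : SL(2, ℤ)) : Matrix (Fin 2) (Fin 2) ℤ).trace ^ 2 ≤ 4) :
    χ (Additive.ofMul γ) = 0 := by
  rcases lt_or_eq_of_le hγ with hlt | heq
  · obtain ⟨τ, hτ⟩ := trace_sq_lt_four_cases hlt
    exact hχ.apply_eq_zero_of_fixed hf γ hτ
  · obtain ⟨A, w, hA⟩ := exists_conj_translation heq
    exact hχ.apply_eq_zero_of_translation hf γ hA

end Char

end FLTA.Kummer
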