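/-
`n`-th roots and multipliers in the field of meromorphic functions on `ℍ`.
-/
import Fermat.Agent.Bridge.Hol
import Fermat.Agent.Kummer.Root
import Mathlib.Analysis.SpecialFunctions.Complex.CircleAddChar
import Mathlib.NumberTheory.ModularForms.CongruenceSubgroups
import Mathlib.RingTheory.RootsOfUnity.PrimitiveRoots
import Fermat.Agent.Kummer.RootChar

set_option autoImplicit false

noncomputable section

open scoped MatrixGroups Topology
open UpperHalfPlane hiding I
open CongruenceSubgroup Filter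
open FLTA.Bridge

namespace FLTA.Kummer

/-- The image of an element of `SL(2, ℤ)` in `GL(2, ℝ)⁺`, as a homomorphism. -/
def slPosHom : SL(2, ℤ) →* GL(2, ℝ)⁺ :=
  Matrix.SpecialLinearGroup.toGLPos.comp (Matrix.SpecialLinearGroup.map (Int.castRingHom ℝ))

theorem slPosHom_apply (γ : SL(2, ℤ)) : slPosHom γ =
    Matrix.SpecialLinearGroup.toGLPos (Matrix.SpecialLinearGroup.map (Int.castRingHom ℝ) γ) := rfl

variable {N n : ℕ} [NeZero n]

theorem exists_const_of_pow_eq_one {u : Mero} (h : u ^ n = 1) :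
    ∃ k : ZMod n, u = algebraMap ℂ Mero (ZMod.stdAddChar k) := by
  obtain ⟨i, -, hi⟩ := ((Complex.isPrimitiveRoot_exp n (NeZero.ne n)).map_of_injective
    (algebraMap ℂ Mero).injective).eq_pow_of_pow_eq_one h
  obtain ⟨k, hk⟩ := exists_stdAddChar_eq n
    (ζ := Complex.exp (2 * Real.pi * Complex.I / n) ^ i)
    (by rw [pow_right_comm, (Complex.isPrimitiveRoot_exp n (NeZero.ne n)).pow_eq_one,
      one_pow])
  exact ⟨k, by rw [hk, map_pow, hi]⟩

theorem const_stdAddChar_injective :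
    Function.Injective fun k : ZMod n => algebraMap ℂ Mero (ZMod.stdAddChar k) :=
  (algebraMap ℂ Mero).injective.comp ZMod.injective_stdAddChar

/-- The meromorphic function `F` has multiplier `χ`. -/
def HasMult (χ : Additive (Gamma0 N) →+ ZMod n) (F : Mero) : Prop :=
  ∀ γ : Gamma0 N, meroSmul (slPosHom (γ : SL(2, ℤ))) F =
    algebraMap ℂ Mero (ZMod.stdAddChar (χ (Additive.ofMul γ))) * F

theorem HasMult.unique {χ χ' : Additive (Gamma0 N) →+ ZMod n} {F : Mero} (hF : F ≠ 0)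
    (h : HasMult χ F) (h' : HasMult χ' F) : χ = χ' := by
  refine AddMonoidHom.ext fun γ => const_stdAddChar_injective (mul_right_cancel₀ hF ?_)
  exact (h γ.toMul).symm.trans (h' γ.toMul)

theorem HasMult.mul {χ χ' : Additive (Gamma0 N) →+ ZMod n} {F G : Mero}
    (h : HasMult χ F) (h' : HasMult χ' G) : HasMult (χ + χ') (F * G) := fun γ => by
  rw [map_mul, h γ, h' γ, AddMonoidHom.add_apply, AddChar.map_add_eq_mul, map_mul]
  ring

theorem hasMult_of_invariant {F : Mero}
    (h : ∀ γ : Gamma0 N, meroSmul (slPosHom (γ : SL(2, ℤ))) F = F) :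
    HasMult (0 : Additive (Gamma0 N) →+ ZMod n) F := fun γ => by
  rw [h γ, AddMonoidHom.zero_apply, AddChar.map_zero_eq_one, map_one, one_mul]

theorem hasMult_const (c : ℂ) :
    HasMult (0 : Additive (Gamma0 N) →+ ZMod n) (algebraMap ℂ Mero c) :=
  hasMult_of_invariant fun _ => AlgEquiv.commutes _ _

theorem HasMult.invariant {F : Mero} (h : HasMult (0 : Additive (Gamma0 N) →+ ZMod n) F)
    (γ : Gamma0 N) : meroSmul (slPosHom (γ : SL(2, ℤ))) F = F := by
  rw [h γ, AddMonoidHom.zero_apply, AddChar.map_zero_eq_one, map_one, one_mul]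

/-- A non-zero root of an invariant function has a multiplier. -/
theorem exists_hasMult {F : Mero} (hF : F ≠ 0)
    (h : ∀ γ : Gamma0 N, meroSmul (slPosHom (γ : SL(2, ℤ))) (F ^ n) = F ^ n) :
    ∃ χ : Additive (Gamma0 N) →+ ZMod n, HasMult χ F := by
  have key : ∀ γ : Gamma0 N, ∃ k : ZMod n,
      meroSmul (slPosHom (γ : SL(2, ℤ))) F = algebraMap ℂ Mero (ZMod.stdAddChar k) * F := by
    intro γ
    obtain ⟨k, hk⟩ := exists_const_of_pow_eq_one (n := n)
      (u := meroSmul (slPosHom (γ : SL(2, ℤ))) F / F)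
      (by rw [div_pow, ← map_pow, h γ, div_self (pow_ne_zero n hF)])
    exact ⟨k, by rw [← hk, div_mul_cancel₀ _ hF]⟩
  choose k hk using key
  refine ⟨AddMonoidHom.mk' (fun γ => k γ.toMul) fun a b => ?_, hk⟩
  refine const_stdAddChar_injective (mul_right_cancel₀ hF ?_)
  show algebraMap ℂ Mero (ZMod.stdAddChar (k (a + b).toMul)) * F =
    algebraMap ℂ Mero (ZMod.stdAddChar (k a.toMul + k b.toMul)) * F
  rw [AddChar.map_add_eq_mul, map_mul, ← hk, toMul_add, Subgroup.coe_mul, map_mul slPosHom,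
    meroSmul_mul, hk, map_mul, AlgEquiv.commutes, hk]
  ring

/-- A function with orders divisible by `n` at every point of `ℍ` is an `n`-th power. -/
theorem exists_mero_root {x : Mero} (hx : x ≠ 0) (h : ∀ τ, (n : ℤ) ∣ meroOrd τ x) :
    ∃ F : Mero, F ^ n = x := by
  have hn := NeZero.ne n
  obtain ⟨A, B, hB, rfl⟩ := IsFractionRing.div_surjective (A := Hol) x
  have hA : A ≠ 0 := fun h0 => hx (by simp [h0])
  have hB' : B ≠ 0 := nonZeroDivisors.ne_zero hB
  have hCne : A * B ^ (n - 1) ≠ 0 := mul_ne_zero hA (pow_ne_zero _ hB')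
  set C : Hol := A * B ^ (n - 1) with hC
  have hCc : (C : ℍ → ℂ) ≠ 0 := fun h0 => hCne (Subtype.ext h0)
  have hAc : (A : ℍ → ℂ) ≠ 0 := fun h0 => hA (Subtype.ext h0)
  have hBc : (B : ℍ → ℂ) ≠ 0 := fun h0 => hB' (Subtype.ext h0)
  set f : ℂ → ℂ := (C : ℍ → ℂ) ∘ ofComplex with hf
  have hmer : MeromorphicOn f upperHalfPlaneSet := fun z hz =>
    (analyticAt_of_mem_hol C.2 ⟨z, hz⟩).meromorphicAt
  have hord : ∀ τ : ℍ, meromorphicOrderAt f (τ : ℂ) = ((ordAt τ (C : ℍ → ℂ) : ℤ) : WithTop ℤ) := by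
    intro τ
    rw [(analyticAt_of_mem_hol C.2 τ).meromorphicOrderAt_eq,
      ← Nat.cast_analyticOrderNatAt (analyticOrderAt_ne_top C.2 hCc τ)]
    rfl
  have hordC : ∀ (k : ℕ) (τ : ℍ), ordAt τ ((A * B ^ k : Hol) : ℍ → ℂ) =
      ordAt τ (A : ℍ → ℂ) + k * ordAt τ (B : ℍ → ℂ) := by
    intro k τ
    induction k with
    | zero => simp
    | succ k ih =>
      have h1 : A * B ^ k ≠ 0 := mul_ne_zero hA (pow_ne_zero _ hB')
      rw [pow_succ, ← mul_assoc, MulMemClass.coe_mul,
        ordAt_mul (A * B ^ k).2 B.2 (fun h0 => h1 (Subtype.ext h0)) hBc, ih]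
      ring
  obtain ⟨G, hG⟩ := exists_root hn hmer
    (fun z hz => by rw [show z = ((⟨z, hz⟩ : ℍ) : ℂ) from rfl, hord]; simp)
    (fun z hz => by
      rw [show z = ((⟨z, hz⟩ : ℍ) : ℂ) from rfl, hord, WithTop.untop₀_coe]
      have h1 := h ⟨z, hz⟩
      rw [meroOrd_div _ hA hB'] at h1
      rw [hC, hordC]
      obtain ⟨c, hc⟩ := h1
      refine ⟨c + ordAt ⟨z, hz⟩ (B : ℍ → ℂ), ?_⟩
      push_cast [Nat.cast_sub (Nat.one_le_iff_ne_zero.2 hn)]
      linear_combination hc)
  have hGan : ∀ τ : ℍ, AnalyticAt ℂ G (τ : ℂ) := by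
    intro τ
    refine (hG.nf τ.im_pos).meromorphicOrderAt_nonneg_iff_analyticAt.1 ?_
    have h1 : meromorphicOrderAt (G ^ n) (τ : ℂ) = ((ordAt τ (C : ℍ → ℂ) : ℤ) : WithTop ℤ) := by
      rw [meromorphicOrderAt_congr (hG.pow_eq _ τ.im_pos), hord]
    rw [meromorphicOrderAt_pow (hG.meromorphicAt τ.im_pos)] at h1
    cases ho : meromorphicOrderAt G (τ : ℂ) with
    | top => exact le_top
    | coe a =>
      rw [ho] at h1
      have h2 : (n : ℤ) * a = (ordAt τ (C : ℍ → ℂ) : ℤ) := by exact_mod_cast h1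
      have : 0 ≤ a := by
        by_contra ha
        have := mul_neg_of_pos_of_neg (Int.natCast_pos.2 (Nat.pos_of_ne_zero hn)) (not_le.1 ha)
        omega
      exact WithTop.coe_le_coe.2 this
  have hGh : (fun τ : ℍ => G τ) ∈ Hol := by
    rw [mem_hol_iff_differentiableOn]
    intro z hz
    refine (DifferentiableAt.congr_of_eventuallyEq (hGan ⟨z, hz⟩).differentiableAt
      ?_).differentiableWithinAt
    filter_upwards [isOpen_upperHalfPlaneSet.mem_nhds hz] with w hw
    simp [ofComplex_apply_of_im_pos hw]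
  have hpow : (⟨_, hGh⟩ : Hol) ^ n = C := by
    refine Subtype.ext (funext fun τ => ?_)
    have h1 : AnalyticAt ℂ (G ^ n) (τ : ℂ) := (hGan τ).pow n
    have h2 := ((h1.continuousAt.eventuallyEq_nhds_iff_eventuallyEq_nhdsNE
      (analyticAt_of_mem_hol C.2 τ).continuousAt).1 (hG.pow_eq _ τ.im_pos)).eq_of_nhds
    simpa [hf] using h2
  refine ⟨algebraMap Hol Mero ⟨_, hGh⟩ / algebraMap Hol Mero B, ?_⟩
  rw [div_pow, ← map_pow, hpow, hC, map_mul, map_pow]
  have hBm : algebraMap Hol Mero B ≠ 0 := by simpa using hB'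
  rw [div_eq_div_iff (pow_ne_zero n hBm) hBm, mul_assoc, ← pow_succ,
    Nat.sub_add_cancel (Nat.one_le_iff_ne_zero.2 hn)]

/-! ### A meromorphic function as a function on `ℂ` -/

/-- A representative function of an element of `Mero`. -/
def meroFun (x : Mero) : ℂ → ℂ :=
  ((IsLocalization.sec (nonZeroDivisors Hol) x).1 : ℍ → ℂ) ∘ ofComplex /
    (((IsLocalization.sec (nonZeroDivisors Hol) x).2 : Hol) : ℍ → ℂ) ∘ ofComplex

theorem eventually_ne_zero_hol {B : Hol} (hB : B ≠ 0) {z : ℂ} (hz : z ∈ upperHalfPlaneSet) :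
    ∀ᶠ w in 𝓝[≠] z, (B : ℍ → ℂ) (ofComplex w) ≠ 0 := by
  rcases (analyticAt_of_mem_hol B.2 ⟨z, hz⟩).eventually_eq_zero_or_eventually_ne_zero with h | h
  · exact absurd (Subtype.ext (eq_zero_of_eventually_zero B.2 h)) hB
  · exact h

theorem meroFun_div (A : Hol) {B : Hol} (hB : B ≠ 0) :
    EqMero (meroFun (algebraMap Hol Mero A / algebraMap Hol Mero B))
      ((A : ℍ → ℂ) ∘ ofComplex / (B : ℍ → ℂ) ∘ ofComplex) := by
  set p := IsLocalization.sec (nonZeroDivisors Hol) (algebraMap Hol Mero A / algebraMap Hol Mero B)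
    with hp'
  have hp : algebraMap Hol Mero A / algebraMap Hol Mero B * algebraMap Hol Mero (p.2 : Hol) =
      algebraMap Hol Mero p.1 := IsLocalization.sec_spec _ _
  have hp2 : (p.2 : Hol) ≠ 0 := nonZeroDivisors.coe_ne_zero _
  have heq : A * (p.2 : Hol) = p.1 * B := by
    apply IsFractionRing.injective Hol Mero
    rw [map_mul, map_mul, ← hp]
    field_simp [show algebraMap Hol Mero B ≠ 0 by simpa using hB]
  intro z hz
  filter_upwards [eventually_ne_zero_hol hp2 hz, eventually_ne_zero_hol hB hz] with w h1 h2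
  have h3 := congrArg (fun K : Hol => (K : ℍ → ℂ) (ofComplex w)) heq
  simp only [MulMemClass.coe_mul, Pi.mul_apply] at h3
  simp only [meroFun, ← hp', Pi.div_apply, Function.comp_apply]
  rw [div_eq_div_iff h1 h2]
  linear_combination -h3

theorem meromorphicOn_meroFun (x : Mero) : MeromorphicOn (meroFun x) upperHalfPlaneSet := fun z hz =>
  (analyticAt_of_mem_hol (Subtype.prop _) ⟨z, hz⟩).meromorphicAt.div
    (analyticAt_of_mem_hol (Subtype.prop _) ⟨z, hz⟩).meromorphicAt

theorem meroFun_mul (x y : Mero) : EqMero (meroFun (x * y)) (meroFun x * meroFun y) := by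
  obtain ⟨A, B, hB, rfl⟩ := IsFractionRing.div_surjective (A := Hol) x
  obtain ⟨C, D, hD, rfl⟩ := IsFractionRing.div_surjective (A := Hol) y
  have hB' : B ≠ 0 := nonZeroDivisors.ne_zero hB
  have hD' : D ≠ 0 := nonZeroDivisors.ne_zero hD
  rw [div_mul_div_comm, ← map_mul, ← map_mul]
  refine (meroFun_div (A * C) (mul_ne_zero hB' hD')).trans (EqMero.trans ?_
    (((meroFun_div A hB').mul (meroFun_div C hD')).symm))
  exact EqMero.of_eqOn fun z _ => by simp [div_mul_div_comm]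

theorem meroFun_const (c : ℂ) : EqMero (meroFun (algebraMap ℂ Mero c)) fun _ => c := by
  have h1 : algebraMap ℂ Mero c =
      algebraMap Hol Mero (algebraMap ℂ Hol c) / algebraMap Hol Mero 1 := by
    rw [map_one, div_one, ← IsScalarTower.algebraMap_apply]
  rw [h1]
  exact (meroFun_div _ one_ne_zero).trans (EqMero.of_eqOn fun z _ => by simp)

theorem meroFun_pow (x : Mero) : ∀ k : ℕ, EqMero (meroFun (x ^ k)) (meroFun x ^ k)
  | 0 => by
    rw [pow_zero, pow_zero, ← map_one (algebraMap ℂ Mero)]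
    exact meroFun_const 1
  | k + 1 => by
    rw [pow_succ, pow_succ]
    exact (meroFun_mul _ _).trans ((meroFun_pow x k).mul (EqMero.refl _))

theorem meroFun_meroSmul (γ : SL(2, ℤ)) (x : Mero) :
    EqMero (meroFun (meroSmul (slPosHom γ) x)) (meroFun x ∘ slAct γ) := by
  obtain ⟨A, B, hB, rfl⟩ := IsFractionRing.div_surjective (A := Hol) x
  have hB' : B ≠ 0 := nonZeroDivisors.ne_zero hB
  rw [map_div₀, meroSmul_algebraMap, meroSmul_algebraMap]
  refine (meroFun_div _ (by simpa using hB')).trans (EqMero.trans ?_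
    ((meroFun_div A hB').comp_slAct γ).symm)
  refine EqMero.of_eqOn fun z hz => ?_
  have h1 : ∀ τ : ℍ, ((slPosHom γ : GL(2, ℝ)⁺) : GL (Fin 2) ℝ) • τ = γ • τ := fun τ => rfl
  simp only [Pi.div_apply, Function.comp_apply, coe_holSmulEquiv,
    ofComplex_apply_of_im_pos hz, h1]
  rw [← ofComplex_apply (γ • (⟨z, hz⟩ : ℍ)), coe_smul_eq_slAct]

theorem meromorphicOrderAt_meroFun {x : Mero} (hx : x ≠ 0) (τ : ℍ) :
    meromorphicOrderAt (meroFun x) (τ : ℂ) = (meroOrd τ x : WithTop ℤ) := by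
  obtain ⟨A, B, hB, rfl⟩ := IsFractionRing.div_surjective (A := Hol) x
  have hA : A ≠ 0 := fun h => hx (by simp [h])
  have hB' : B ≠ 0 := nonZeroDivisors.ne_zero hB
  have h1 : ∀ {C : Hol}, C ≠ 0 → meromorphicOrderAt ((C : ℍ → ℂ) ∘ ofComplex) (τ : ℂ) =
      ((ordAt τ (C : ℍ → ℂ) : ℤ) : WithTop ℤ) := fun {C} hC => by
    rw [(analyticAt_of_mem_hol C.2 τ).meromorphicOrderAt_eq,
      ← Nat.cast_analyticOrderNatAt
        (analyticOrderAt_ne_top C.2 (fun h0 => hC (Subtype.ext h0)) τ)]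
    rfl
  rw [meromorphicOrderAt_congr (meroFun_div A hB' _ τ.im_pos),
    meromorphicOrderAt_div (analyticAt_of_mem_hol A.2 τ).meromorphicAt
      (analyticAt_of_mem_hol B.2 τ).meromorphicAt, h1 hA, h1 hB', meroOrd_div τ hA hB']
  norm_cast

/-- An invariant element of `Mero` gives an invariant function. -/
theorem isInvMero_meroFun {x : Mero} (hx : x ≠ 0)
    (h : ∀ γ ∈ Gamma0 N, meroSmul (slPosHom γ) x = x) : IsInvMero (Gamma0 N) (meroFun x) where
  mero := meromorphicOn_meroFun x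
  order_ne_top := fun z hz => by
    rw [show z = ((⟨z, hz⟩ : ℍ) : ℂ) from rfl, meromorphicOrderAt_meroFun hx]
    simp
  invariant := fun γ hγ => by
    have h1 := meroFun_meroSmul γ x
    rw [h γ hγ] at h1
    exact h1.symm

/-- A multiplier in `Mero` is a character of a root. -/
theorem HasMult.isCharOf {χ : Additive (Gamma0 N) →+ ZMod n} {F x : Mero} (h : HasMult χ F)
    (hFx : F ^ n = x) : IsCharOf n (Gamma0 N) (meroFun x) χ := by
  refine ⟨meroFun F, meromorphicOn_meroFun F, ?_, fun γ => ?_⟩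
  · rw [← hFx]
    exact (meroFun_pow F n).symm
  · have h1 := meroFun_meroSmul (γ : SL(2, ℤ)) F
    rw [h γ] at h1
    exact h1.symm.trans ((meroFun_mul _ _).trans ((meroFun_const _).mul (EqMero.refl _)))

end FLTA.Kummer
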