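/-
The Kummer character of a function whose divisor is divisible by `n`.
-/
import Fermat.Agent.Bridge.Places
import Fermat.Agent.Gamma0.Complex.Main
import Fermat.Agent.Kummer.TorsionDiv
import Fermat.Agent.Kummer.MeroRoot
import Fermat.Agent.Kummer.ExpansionLim

set_option autoImplicit false

noncomputable section

open scoped MatrixGroups Topology
open UpperHalfPlane hiding I
open CongruenceSubgroup Filter ModularCurve AlgebraicCurve Function
open FLTA.Bridge
open FLTA.Gamma0 (homPar0)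

namespace FLTA.Kummer

variable (N n : ℕ) [NeZero N] [NeZero n] {L : Type*} [Field L] [Algebra ℚ L] (ι : L →+* ℂ)

local notation "FN" => laurentBaseChange L (modularFunctionFieldFull N)

theorem evMero_ne_zero {x : FN} (hx : x ≠ 0) : evMero N ι x ≠ 0 := (map_ne_zero _).2 hx

theorem meroSmul_slPosHom_evMero {γ : SL(2, ℤ)} (hγ : γ ∈ Gamma0 N) (x : FN) :
    meroSmul (slPosHom γ) (evMero N ι x) = evMero N ι x :=
  meroSmul_evMero N ι hγ x

theorem evFrac_eq_of_rep {x : FN} {A B : ModHol N} (hB : B ≠ 0)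
    (h : coeffMap ι (x : LaurentSeries L) * qexp N B = qexp N A) :
    evFrac N ι x = algebraMap (ModHol N) (ModFrac N) A / algebraMap (ModHol N) (ModFrac N) B := by
  apply qexpFrac_injective N
  have h1 : ∀ C : ModHol N, qexpFrac N (algebraMap (ModHol N) (ModFrac N) C) = qexp N C :=
    fun C => IsFractionRing.lift_algebraMap _ C
  have hB0 : qexp N B ≠ 0 := (map_ne_zero_iff _ (qexp_injective N)).2 hB
  rw [qexpFrac_evFrac, map_div₀, h1, h1, eq_div_iff hB0, h]

/-- At a cusp where the order is zero the function has a non-zero limit. -/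
theorem exists_tendsto_nfOn {y : FN} (hy : y ≠ 0) (g : SL(2, ℤ)) (h0 : ordCusp N ι g y = 0) :
    ∃ c : ℂ, c ≠ 0 ∧ Tendsto (fun τ : ℍ => nfOn (meroFun (evMero N ι y)) ↑(g • τ)) atImInfty
      (𝓝 c) := by
  obtain ⟨A, B, hB, hAB⟩ := exists_rep N ι y
  have hA : A ≠ 0 := by
    rintro rfl
    rw [map_zero, mul_eq_zero] at hAB
    rcases hAB with h | h
    · exact hy (Subtype.ext ((map_eq_zero_iff _ (coeffMap ι).injective).1 h))
    · exact hB ((map_eq_zero_iff _ (qexp_injective N)).1 h)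
  have hB' : modHolToHol N B ≠ 0 := (map_ne_zero_iff _ (modHolToHol_injective N)).2 hB
  set a := qexpAt N g A with ha
  set b := qexpAt N g B with hb
  have ha0 : a ≠ 0 := (map_ne_zero_iff _ (qexpAt_injective N g)).2 hA
  have hb0 : b ≠ 0 := (map_ne_zero_iff _ (qexpAt_injective N g)).2 hB
  have hord : a.order = b.order := by
    have h1 : ∀ C : ModHol N, qexpFracAt N g (algebraMap (ModHol N) (ModFrac N) C) = qexpAt N g C :=
      fun C => IsFractionRing.lift_algebraMap _ C
    rw [ordCusp, evFrac_eq_of_rep N ι hB hAB, map_div₀, h1, h1] at h0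
    have h2 := HahnSeries.order_mul (div_ne_zero ha0 hb0) hb0
    rw [div_mul_cancel₀ _ hb0, h0, zero_add] at h2
    exact h2
  have htA := tendsto_div_qParam_order (h := N) (modHolToHolInfty N g A)
  have htB := tendsto_div_qParam_order (h := N) (modHolToHolInfty N g B)
  change Tendsto _ _ (𝓝 (a.coeff a.order)) at htA
  change Tendsto _ _ (𝓝 (b.coeff b.order)) at htB
  have hlA : a.coeff a.order ≠ 0 := mt HahnSeries.coeff_order_eq_zero.1 ha0
  have hlB : b.coeff b.order ≠ 0 := mt HahnSeries.coeff_order_eq_zero.1 hb0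
  refine ⟨_, div_ne_zero hlA hlB, (htA.div htB hlB).congr' ?_⟩
  filter_upwards [htB.eventually_ne hlB] with τ hτ
  have hBτ : (B : ℍ → ℂ) (g • τ) ≠ 0 := fun h => hτ (by
    show (B : ℍ → ℂ) (g • τ) / _ = 0
    rw [h, zero_div])
  set z : ℂ := ((g • τ : ℍ) : ℂ) with hz
  set q : ℂ → ℂ := (((modHolToHol N A : Hol) : ℍ → ℂ) ∘ ofComplex) /
    (((modHolToHol N B : Hol) : ℍ → ℂ) ∘ ofComplex) with hq
  have hzU : z ∈ upperHalfPlaneSet := (g • τ).im_pos
  have he : EqMero (nfOn (meroFun (evMero N ι y))) q :=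
    (eqMero_nfOn (meromorphicOn_meroFun _)).trans
      (by rw [evMero_eq_of_rep N ι hB hAB]; exact meroFun_div _ hB')
  have han : AnalyticAt ℂ q z := (analyticAt_of_mem_hol (Subtype.prop _) (g • τ)).div
    (analyticAt_of_mem_hol (Subtype.prop _) (g • τ)) (by
      rw [Function.comp_apply, ofComplex_apply]; exact hBτ)
  have hval := (((meromorphicNFOn_nfOn _ hzU).eventuallyEq_nhdsNE_iff_eventuallyEq_nhds
    han.meromorphicNFAt).1 (he z hzU)).eq_of_nhds
  rw [hval]
  show ((A : ℍ → ℂ) (g • τ) / _) / ((B : ℍ → ℂ) (g • τ) / _) = _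
  have hq0 : Function.Periodic.qParam (N : ℝ) (τ : ℂ) ≠ 0 := Periodic.qParam_ne_zero _
  simp only [ha, hb] at hord
  simp only [hq, hz, Pi.div_apply, comp_apply, ofComplex_apply]
  rw [show (expansion N (modHolToHolInfty N g A)).order = _ from hord]
  exact div_div_div_cancel_right₀ (zpow_ne_zero _ hq0) _ _

variable [IsAlgClosed L]

omit [NeZero n] in
theorem dvd_meroOrd_evMero {x : FN} (hx : IsDivFun L n x) (τ : ℍ) :
    (n : ℤ) ∣ meroOrd τ (evMero N ι x) := by
  show (n : ℤ) ∣ ordF N ι τ x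
  by_cases hτ : IsPointOver ι τ
  · rw [ordF_eq_mul_ord_placeAt N ι τ hτ]
    exact dvd_mul_of_dvd_right (hx.2 _) _
  · rw [ordF_eq_zero_of_not_isPointOver N ι hτ]
    exact dvd_zero _

omit [NeZero n] in
/-- The function of a divisible element is locally an `n`-th power, also at the cusps. -/
theorem isLocPow_evMero {x : FN} (hx : IsDivFun L n x) :
    IsLocPow n (Gamma0 N) (meroFun (evMero N ι x)) := by
  have hinv : ∀ {w : FN}, w ≠ 0 → IsInvMero (Gamma0 N) (meroFun (evMero N ι w)) :=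
    fun {w} hw => isInvMero_meroFun (evMero_ne_zero N ι hw)
      fun γ hγ => meroSmul_slPosHom_evMero N ι hγ w
  refine ⟨hinv hx.1, fun z hz => ?_, fun g => ?_⟩
  · rw [show z = ((⟨z, hz⟩ : ℍ) : ℂ) from rfl]
    generalize (⟨z, hz⟩ : ℍ) = τ
    rw [meromorphicOrderAt_meroFun (evMero_ne_zero N ι hx.1)]
    by_cases hτ : IsPointOver ι τ
    · obtain ⟨a, ha⟩ := hx.2 (placeAt N ι τ hτ)
      obtain ⟨w, hw, hwa⟩ := FLTA.Curves.exists_ord_eq (placeAt N ι τ hτ) a
      refine ⟨_, hinv hw, ?_⟩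
      rw [meromorphicOrderAt_meroFun (evMero_ne_zero N ι hw), show meroOrd τ (evMero N ι x) =
        n * meroOrd τ (evMero N ι w) from ?_]
      · norm_cast
      show ordF N ι τ x = n * ordF N ι τ w
      rw [ordF_eq_mul_ord_placeAt N ι τ hτ, ordF_eq_mul_ord_placeAt N ι τ hτ, ha, hwa]
      ring
    · refine ⟨fun _ => (1 : ℂ), isInvMero_const _ one_ne_zero, ?_⟩
      classical
      rw [show meroOrd τ (evMero N ι x) = ordF N ι τ x from rfl,
        ordF_eq_zero_of_not_isPointOver N ι hτ, meromorphicOrderAt_const, if_neg one_ne_zero]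
      simp
  · obtain ⟨a, ha⟩ := hx.2 (cuspPlace N ι g)
    obtain ⟨w, hw, hwa⟩ := FLTA.Curves.exists_ord_eq (cuspPlace N ι g) a
    have hy : x / w ^ n ≠ 0 := div_ne_zero hx.1 (pow_ne_zero n hw)
    have hy0 : ordCusp N ι g (x / w ^ n) = 0 := by
      rw [ordCusp_eq_mul_ord_cuspPlace, div_eq_mul_inv,
        (cuspPlace N ι g).ord_mul hx.1 (inv_ne_zero (pow_ne_zero n hw)), Place.ord_inv,
        FLTA.Curves.ord_pow, ha, hwa]
      ring
    obtain ⟨c, hc, hlim⟩ := exists_tendsto_nfOn N ι hy g hy0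
    refine ⟨_, hinv hw, c, hc, hlim.congr fun τ => ?_⟩
    have he : EqMero (meroFun (evMero N ι (x / w ^ n)))
        (meroFun (evMero N ι x) / meroFun (evMero N ι w) ^ n) := by
      have h1 := meroFun_mul (evMero N ι (x / w ^ n)) (evMero N ι w ^ n)
      rw [← map_pow, ← map_mul, div_mul_cancel₀ _ (pow_ne_zero n hw), map_pow] at h1
      intro z hz
      filter_upwards [h1 z hz, meroFun_pow (evMero N ι w) n z hz,
        (hinv hw).eventually_ne_zero hz] with u e1 e2 e3
      simp only [Pi.mul_apply, Pi.div_apply, Pi.pow_apply] at *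
      rw [e1, e2]
      field_simp
    have hm : MeromorphicOn (meroFun (evMero N ι x) / meroFun (evMero N ι w) ^ n)
        upperHalfPlaneSet := ((hinv hx.1).div ((hinv hw).pow n)).mero
    exact EqMero.eqOn (((eqMero_nfOn (meromorphicOn_meroFun _)).trans he).trans (eqMero_nfOn hm).symm)
      (meromorphicNFOn_nfOn _) (meromorphicNFOn_nfOn _) (g • τ).im_pos

/-- `F` is a Kummer root of `x` with character `χ`. -/
def IsKummerRoot (x : FN) (χ : Additive (Gamma0 N) →+ ZMod n) (F : Mero) : Prop :=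
  HasMult χ F ∧ ∃ c : ℂ, c ≠ 0 ∧ F ^ n = algebraMap ℂ Mero c * evMero N ι x

open Classical in
/-- The Kummer character of a divisible function (zero otherwise). -/
def kummerChar (x : FN) : Additive (Gamma0 N) →+ ZMod n :=
  if h : ∃ χ F, IsKummerRoot N n ι x χ F then h.choose else 0

omit [IsAlgClosed L] in
theorem IsKummerRoot.ne_zero {x : FN} (hx : x ≠ 0) {χ : Additive (Gamma0 N) →+ ZMod n} {F : Mero}
    (h : IsKummerRoot N n ι x χ F) : F ≠ 0 := by
  rintro rfl
  obtain ⟨-, c, hc, he⟩ := h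
  rw [zero_pow (NeZero.ne n)] at he
  exact mul_ne_zero (by simpa using hc) (evMero_ne_zero N ι hx) he.symm

omit [IsAlgClosed L] in
theorem IsKummerRoot.unique {x : FN} (hx : x ≠ 0) {χ χ' : Additive (Gamma0 N) →+ ZMod n}
    {F F' : Mero} (h : IsKummerRoot N n ι x χ F) (h' : IsKummerRoot N n ι x χ' F') : χ = χ' := by
  have hF := h.ne_zero N n ι hx
  obtain ⟨hχ, c, hc, he⟩ := h
  obtain ⟨hχ', c', hc', he'⟩ := h'
  obtain ⟨d, hd⟩ := IsAlgClosed.exists_pow_nat_eq (c' / c) (Nat.pos_of_ne_zero (NeZero.ne n))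
  have hd0 : d ≠ 0 := by
    rintro rfl
    rw [zero_pow (NeZero.ne n)] at hd
    exact div_ne_zero hc' hc hd.symm
  have h1 : HasMult χ (algebraMap ℂ Mero d * F) := by
    simpa using (hasMult_const (N := N) (n := n) d).mul hχ
  obtain ⟨k, hk⟩ := exists_const_of_pow_eq_one (n := n) (u := F' / (algebraMap ℂ Mero d * F)) (by
    rw [div_pow, mul_pow, ← map_pow, hd, he, he', ← mul_assoc, ← map_mul,
      div_mul_cancel₀ c' hc, div_self]
    exact mul_ne_zero (by simpa using hc') (evMero_ne_zero N ι hx))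
  have hne : algebraMap ℂ Mero d * F ≠ 0 := mul_ne_zero (by simpa using hd0) hF
  rw [div_eq_iff hne] at hk
  have h2 : HasMult χ F' := by
    rw [hk]
    simpa using (hasMult_const (N := N) (n := n) (ZMod.stdAddChar k)).mul h1
  refine h2.unique ?_ hχ'
  rw [hk]
  exact mul_ne_zero ((map_ne_zero _).2 fun h0 => by
    have := stdAddChar_pow_self n k
    rw [h0, zero_pow (NeZero.ne n)] at this
    exact zero_ne_one this) hne

omit [IsAlgClosed L] in
theorem kummerChar_eq {x : FN} (hx : x ≠ 0) {χ : Additive (Gamma0 N) →+ ZMod n} {F : Mero}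
    (h : IsKummerRoot N n ι x χ F) : kummerChar N n ι x = χ := by
  have he : ∃ χ F, IsKummerRoot N n ι x χ F := ⟨χ, F, h⟩
  rw [kummerChar, dif_pos he]
  exact IsKummerRoot.unique N n ι hx he.choose_spec.choose_spec h

theorem exists_isKummerRoot {x : FN} (hx : IsDivFun L n x) :
    ∃ F, F ^ n = evMero N ι x ∧ IsKummerRoot N n ι x (kummerChar N n ι x) F := by
  obtain ⟨F, hF⟩ := exists_mero_root (n := n) (evMero_ne_zero N ι hx.1)
    (dvd_meroOrd_evMero N n ι hx)
  have hF0 : F ≠ 0 := by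
    rintro rfl
    rw [zero_pow (NeZero.ne n)] at hF
    exact evMero_ne_zero N ι hx.1 hF.symm
  obtain ⟨χ, hχ⟩ := exists_hasMult (N := N) hF0 fun γ => by
    rw [hF]; exact meroSmul_slPosHom_evMero N ι γ.2 x
  have h : IsKummerRoot N n ι x χ F := ⟨hχ, 1, one_ne_zero, by rw [hF, map_one, one_mul]⟩
  exact ⟨F, hF, (kummerChar_eq N n ι hx.1 h).symm ▸ h⟩

theorem kummerChar_mem_homPar0 {x : FN} (hx : IsDivFun L n x) :
    kummerChar N n ι x ∈ homPar0 ℤ (Gamma0 N) (ZMod n) := by
  obtain ⟨F, hF, h, -⟩ := exists_isKummerRoot N n ι hx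
  intro γ hγ
  exact (h.isCharOf hF).apply_eq_zero_of_trace (isLocPow_evMero N n ι hx) γ hγ

theorem kummerChar_mul {x y : FN} (hx : IsDivFun L n x) (hy : IsDivFun L n y) :
    kummerChar N n ι (x * y) = kummerChar N n ι x + kummerChar N n ι y := by
  obtain ⟨F, hF, hFχ, -⟩ := exists_isKummerRoot N n ι hx
  obtain ⟨G, hG, hGχ, -⟩ := exists_isKummerRoot N n ι hy
  exact kummerChar_eq N n ι (mul_ne_zero hx.1 hy.1)
    ⟨hFχ.mul hGχ, 1, one_ne_zero, by rw [mul_pow, hF, hG, map_mul, map_one, one_mul]⟩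

omit [IsAlgClosed L] in
theorem kummerChar_const {a : L} (ha : a ≠ 0) :
    kummerChar N n ι (algebraMap L FN a) = 0 :=
  kummerChar_eq N n ι (by simpa using ha) (F := 1)
    ⟨by simpa using hasMult_const (N := N) (n := n) 1, (ι a)⁻¹,
      inv_ne_zero ((map_ne_zero ι).2 ha), by
      rw [one_pow, evMero_algebraMap, ← map_mul, inv_mul_cancel₀ ((map_ne_zero ι).2 ha), map_one]⟩

omit [IsAlgClosed L] in
theorem kummerChar_pow {w : FN} (hw : w ≠ 0) : kummerChar N n ι (w ^ n) = 0 :=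
  kummerChar_eq N n ι (pow_ne_zero n hw) (F := evMero N ι w)
    ⟨hasMult_of_invariant fun γ => meroSmul_slPosHom_evMero N ι γ.2 w, 1, one_ne_zero,
      by rw [map_one, one_mul, map_pow]⟩

/-- A trivial character means an invariant root. -/
theorem exists_invariant_root_of_kummerChar_eq_zero {x : FN} (hx : IsDivFun L n x)
    (h : kummerChar N n ι x = 0) :
    ∃ F : Mero, F ^ n = evMero N ι x ∧
      ∀ γ ∈ Gamma0 N, meroSmul (slPosHom γ) F = F := by
  obtain ⟨F, hF, hχ, -⟩ := exists_isKummerRoot N n ι hx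
  rw [h] at hχ
  exact ⟨F, hF, fun γ hγ => hχ.invariant ⟨γ, hγ⟩⟩

end FLTA.Kummer
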