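/-
A function with an invariant `n`-th root on `ℍ` is a constant times an `n`-th power.
-/
import Fermat.Agent.Kummer.Kappa
import Fermat.Agent.Kummer.Descent
import Fermat.Agent.Kummer.AutOrbit

set_option autoImplicit false

noncomputable section

open scoped MatrixGroups Topology
open UpperHalfPlane hiding I
open CongruenceSubgroup Filter ModularCurve AlgebraicCurve
open FLTA.Bridge

namespace FLTA.Kummer

local notation "𝕢" => Function.Periodic.qParam

theorem order_coeffMap_hom {K M : Type*} [Field K] [Field M] (σ : K →+* M)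
    (x : LaurentSeries K) : (coeffMap σ x).order = x.order := by
  rcases eq_or_ne x 0 with rfl | hx
  · simp
  refine le_antisymm (HahnSeries.order_le_of_coeff_ne_zero ?_) ?_
  · rw [coeffMap_coeff]
    exact (map_ne_zero σ).2 (mt HahnSeries.coeff_order_eq_zero.1 hx)
  · refine HahnSeries.order_le_of_coeff_ne_zero fun h => ?_
    refine mt HahnSeries.coeff_order_eq_zero.1 ((map_ne_zero (coeffMap σ)).2 hx) ?_
    rw [coeffMap_coeff, h, map_zero]

theorem leadingCoeff_coeffMap_hom {K M : Type*} [Field K] [Field M] (σ : K →+* M)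
    (x : LaurentSeries K) : (coeffMap σ x).leadingCoeff = σ x.leadingCoeff := by
  rw [HahnSeries.leadingCoeff_eq, HahnSeries.leadingCoeff_eq, order_coeffMap_hom, coeffMap_coeff]

/-- A Laurent series with coefficients in the image of `ι` comes from the smaller field. -/
theorem exists_coeffMap_eq {K M : Type*} [Field K] [Field M] (ι : K →+* M) {y : LaurentSeries M}
    (h : ∀ k, y.coeff k ∈ Set.range ι) : ∃ g : LaurentSeries K, coeffMap ι g = y := by
  choose c hc using h
  have hs : Function.support c ⊆ y.support := fun k hk hy => hk (ι.injective (by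
    show ι (c k) = ι 0
    rw [hc, map_zero]; exact hy))
  refine ⟨⟨c, y.isPWO_support.mono hs⟩, HahnSeries.ext (funext fun k => ?_)⟩
  rw [coeffMap_coeff]
  exact hc k

/-- An `n`-th root with leading coefficient one of a series over `L` is a series over `L`. -/
theorem coeff_mem_range_of_pow_eq {L : Type*} [Field L] [IsAlgClosed L] [CharZero L] {n : ℕ}
    [NeZero n] (ι : L →+* ℂ) {x : LaurentSeries L} {y : LaurentSeries ℂ}
    (hy : y.leadingCoeff = 1) (h : y ^ n = coeffMap ι x) (k : ℤ) :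
    y.coeff k ∈ Set.range ι := by
  let := ι.toAlgebra
  refine mem_range_of_finite_orbit ((Set.finite_singleton (y.coeff k)).subset ?_)
  rintro _ ⟨σ, rfl⟩
  rw [Set.mem_singleton_iff]
  have hy0 : y ≠ 0 := fun h0 => by simp [h0] at hy
  have hcomp : ((σ : ℂ →+* ℂ)).comp ι = ι := RingHom.ext fun a => σ.commutes a
  have hpow : coeffMap (σ : ℂ →+* ℂ) y ^ n = y ^ n := by
    rw [← map_pow, h, coeffMap_coeffMap, coeffMap_congr hcomp]
  obtain ⟨i, -, hi⟩ := ((Complex.isPrimitiveRoot_exp n (NeZero.ne n)).map_of_injective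
    (algebraMap ℂ (LaurentSeries ℂ)).injective).eq_pow_of_pow_eq_one
      (ξ := coeffMap (σ : ℂ →+* ℂ) y / y)
      (by rw [div_pow, hpow, div_self (pow_ne_zero n hy0)])
  rw [← map_pow, eq_div_iff hy0] at hi
  have hl := congrArg HahnSeries.leadingCoeff hi
  rw [leadingCoeff_mul', (leadingCoeff_algebraMap' _).1, leadingCoeff_coeffMap_hom, hy, mul_one]
    at hl
  rw [hl, map_one, map_one, one_mul] at hi
  have hk := congrArg (fun z : LaurentSeries ℂ => z.coeff k) hi.symm
  simpa using hk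

variable (N n : ℕ) [NeZero N] [NeZero n]

omit [NeZero N] in
theorem growthInfty_of_pow {F : ℍ → ℂ} (h : GrowthInfty fun τ => F τ ^ n) : GrowthInfty F := by
  obtain ⟨m, hm⟩ := h
  refine ⟨m, ?_⟩
  have hb : IsBoundedAtImInfty ((fun τ : ℍ => 𝕢 1 τ ^ (m * (n - 1))) *
      fun τ : ℍ => 𝕢 1 τ ^ m * F τ ^ n) := (isBoundedAtImInfty_qParam_pow (m * (n - 1))).mul hm
  rw [isBoundedAtImInfty_iff] at hb ⊢
  obtain ⟨M, A, hMA⟩ := hb
  refine ⟨max 1 M, A, fun τ hτ => ?_⟩
  rcases le_or_gt ‖𝕢 1 (τ : ℂ) ^ m * F τ‖ 1 with h1 | h1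
  · exact h1.trans (le_max_left _ _)
  refine ((le_self_pow₀ h1.le (NeZero.ne n)).trans (le_of_eq ?_)).trans
    ((hMA τ hτ).trans (le_max_right _ _))
  rw [← norm_pow, mul_pow, Pi.mul_apply, ← mul_assoc, ← pow_add, ← pow_mul]
  congr 3
  conv_lhs => rw [← Nat.sub_add_cancel (Nat.one_le_iff_ne_zero.2 (NeZero.ne n)), mul_add, mul_one]

omit [NeZero N] [NeZero n] in
theorem meroOrd_pow (τ : ℍ) {x : Mero} (hx : x ≠ 0) :
    ∀ k : ℕ, meroOrd τ (x ^ k) = k * meroOrd τ x
  | 0 => by
    rw [pow_zero, ← map_one (algebraMap ℂ Mero), meroOrd_algebraMap_const, Nat.cast_zero, zero_mul]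
  | k + 1 => by
    rw [pow_succ, meroOrd_mul τ (pow_ne_zero k hx) hx, meroOrd_pow τ hx k]
    push_cast
    ring

variable {L : Type*} [Field L] [Algebra ℚ L] (ι : L →+* ℂ)

local notation "FN" => laurentBaseChange L (modularFunctionFieldFull N)

/-- An invariant root of the function of `x` has a `q`-expansion in the function field over `ℂ`. -/
theorem exists_fieldC_pow_eq {x : FN} (hx : x ≠ 0) {F : Mero} (hF : F ^ n = evMero N ι x)
    (hinv : ∀ γ ∈ Gamma0 N, meroSmul (slPosHom γ) F = F) :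
    ∃ y ∈ fieldC N, y ^ n = coeffMap ι (x : LaurentSeries L) := by
  have hn := NeZero.ne n
  obtain ⟨A, B, hB, hAB⟩ := exists_rep N ι x
  have hev := evMero_eq_of_rep N ι hB hAB
  set bH := algebraMap Hol Mero (modHolToHol N B) with hbH
  have hb0 : bH ≠ 0 :=
    (map_ne_zero_iff _ (IsFractionRing.injective Hol Mero)).2
      ((map_ne_zero_iff _ (modHolToHol_injective N)).2 hB)
  set C : ModHol N := A * B ^ (n - 1) with hC
  have hpow : (F * bH) ^ n = algebraMap Hol Mero (modHolToHol N C) := by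
    rw [mul_pow, hF, hev, hC, map_mul, map_pow, map_mul, map_pow, ← hbH, div_mul_eq_mul_div,
      div_eq_iff hb0, mul_assoc, ← pow_succ, Nat.sub_add_cancel (Nat.one_le_iff_ne_zero.2 hn)]
  have hF0 : F ≠ 0 := by
    rintro rfl
    rw [zero_pow hn] at hF
    exact evMero_ne_zero N ι hx hF.symm
  have hC0 : modHolToHol N C ≠ 0 := fun h0 => by
    rw [h0, map_zero] at hpow
    exact pow_ne_zero n (mul_ne_zero hF0 hb0) hpow
  obtain ⟨H, hH⟩ := exists_algebraMap_eq_of_meroOrd_nonneg (x := F * bH) (fun τ => by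
    have h1 : (0 : ℤ) ≤ meroOrd τ (algebraMap Hol Mero (modHolToHol N C)) := by
      rw [show algebraMap Hol Mero (modHolToHol N C) = algebraMap Hol Mero (modHolToHol N C) /
        algebraMap Hol Mero 1 by rw [map_one, div_one], meroOrd_div τ hC0 one_ne_zero,
        (ordAt_eq_zero_iff (1 : Hol).2 (fun h => one_ne_zero (Subtype.ext h)) τ).mpr one_ne_zero]
      simp
    rw [← hpow, meroOrd_pow τ (mul_ne_zero hF0 hb0)] at h1
    exact nonneg_of_mul_nonneg_right h1 (Int.natCast_pos.2 (Nat.pos_of_ne_zero hn)))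
  have hHn : H ^ n = modHolToHol N C := by
    apply IsFractionRing.injective Hol Mero
    rw [map_pow, hH, hpow]
  have hHmem : (H : ℍ → ℂ) ∈ ModHol N := by
    refine ⟨H.2, fun γ hγ τ => ?_, fun g => growthInfty_of_pow n ?_⟩
    · have h1 : meroSmul (slPosHom γ) (algebraMap Hol Mero H) = algebraMap Hol Mero H := by
        have h2 : meroSmul (slPosHom γ) bH = bH := by
          rw [hbH, meroSmul_algebraMap]
          exact congrArg _ (Subtype.ext (funext fun τ => B.2.2.1 γ hγ τ))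
        rw [hH, map_mul, hinv γ hγ, h2]
      rw [meroSmul_algebraMap] at h1
      exact congrArg (fun K : Hol => (K : ℍ → ℂ) τ) (IsFractionRing.injective Hol Mero h1)
    · have h1 : (fun τ : ℍ => (H : ℍ → ℂ) (g • τ) ^ n) = fun τ : ℍ => (C : ℍ → ℂ) (g • τ) :=
        funext fun τ => congrArg (fun K : Hol => (K : ℍ → ℂ) (g • τ)) hHn
      rw [h1]
      exact C.2.2.2 g
  set H' : ModHol N := ⟨_, hHmem⟩ with hH'
  have hH'n : H' ^ n = C := modHolToHol_injective N (by rw [map_pow, ← hHn]; rfl)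
  refine ⟨qexpFrac N (algebraMap (ModHol N) (ModFrac N) H' / algebraMap (ModHol N) (ModFrac N) B),
    qexpFrac_mem_fieldC N _, ?_⟩
  have h1 : ∀ K : ModHol N, qexpFrac N (algebraMap (ModHol N) (ModFrac N) K) = qexp N K :=
    fun K => IsFractionRing.lift_algebraMap _ K
  have hqB : qexp N B ≠ 0 := (map_ne_zero_iff _ (qexp_injective N)).2 hB
  rw [map_div₀, h1, h1, div_pow, div_eq_iff (pow_ne_zero n hqB), ← map_pow, hH'n, hC, map_mul,
    map_pow, ← hAB, mul_assoc, ← pow_succ', Nat.sub_add_cancel (Nat.one_le_iff_ne_zero.2 hn)]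

variable [IsAlgClosed L]

include ι in
theorem exists_eq_const_mul_pow_of_root {x : FN} (hx : x ≠ 0) {F : Mero}
    (hF : F ^ n = evMero N ι x) (hinv : ∀ γ ∈ Gamma0 N, meroSmul (slPosHom γ) F = F) :
    ∃ (a : L) (g : FN), a ≠ 0 ∧ g ≠ 0 ∧ x = algebraMap L FN a * g ^ n := by
  have : CharZero L := algebraRat.charZero L
  obtain ⟨y, hy, hyn⟩ := exists_fieldC_pow_eq N n ι hx hF hinv
  have hxL : (x : LaurentSeries L) ≠ 0 := by simpa using hx
  set a := (x : LaurentSeries L).leadingCoeff with ha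
  have ha0 : a ≠ 0 := HahnSeries.leadingCoeff_ne_zero.2 hxL
  set l := y.leadingCoeff with hl
  have hln : l ^ n = ι a := by
    rw [hl, ← leadingCoeff_pow', hyn, leadingCoeff_coeffMap_hom]
  have hl0 : l ≠ 0 := fun h0 => by
    rw [h0, zero_pow (NeZero.ne n)] at hln
    exact ha0 ((map_eq_zero ι).1 hln.symm)
  set y₁ := algebraMap ℂ (LaurentSeries ℂ) l⁻¹ * y with hy₁
  have hy₁m : y₁ ∈ fieldC N := mul_mem ((fieldC N).algebraMap_mem _) hy
  have hy₁l : y₁.leadingCoeff = 1 := by
    rw [hy₁, leadingCoeff_mul', (leadingCoeff_algebraMap' _).1, ← hl, inv_mul_cancel₀ hl0]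
  have hy₁n : y₁ ^ n = coeffMap ι (((algebraMap L FN a)⁻¹ * x : FN) : LaurentSeries L) := by
    rw [hy₁, mul_pow, hyn, ← map_pow, inv_pow, hln, ← map_inv₀ ι, ← map_inv₀ (algebraMap L FN)]
    show _ = coeffMap ι (algebraMap L (LaurentSeries L) a⁻¹ * (x : LaurentSeries L))
    rw [map_mul]
    congr 1
    rw [algebraMap_laurentSeries_eq_single, algebraMap_laurentSeries_eq_single, coeffMap_single]
  obtain ⟨g, hg⟩ := exists_coeffMap_eq ι fun k => coeff_mem_range_of_pow_eq ι hy₁l hy₁n k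
  have hgm : g ∈ laurentBaseChange L (modularFunctionFieldFull N) :=
    (mem_laurentBaseChange_iff_coeffMap_mem N ι).2 (hg.symm ▸ hy₁m)
  have he : ((algebraMap L FN a)⁻¹ * x : FN) = (⟨g, hgm⟩ : FN) ^ n := by
    refine Subtype.ext ((coeffMap ι).injective ?_)
    rw [SubmonoidClass.coe_pow, map_pow, hg, hy₁n]
  refine ⟨a, ⟨g, hgm⟩, ha0, fun h0 => ?_, ?_⟩
  · rw [h0, zero_pow (NeZero.ne n)] at he
    exact mul_ne_zero (inv_ne_zero (by simpa using ha0)) hx he
  · rw [← he, ← mul_assoc, mul_inv_cancel₀ (by simpa using ha0), one_mul]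

end FLTA.Kummer
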