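/-
Descent of Kummer representatives from `ℂ` to an algebraically closed subfield.
-/
import Fermat.Agent.Kummer.Kernel
import Fermat.Agent.Curves.BasicModular

set_option autoImplicit false

noncomputable section

open scoped MatrixGroups Topology
open UpperHalfPlane hiding I
open CongruenceSubgroup Filter ModularCurve AlgebraicCurve
open FLTA.Bridge
open FLTA.Gamma0 (homPar0)

namespace FLTA.Kummer

variable (N n : ℕ) [NeZero N] [NeZero n]

local notation "ιC" => RingHom.id ℂ

theorem cuspDiv_ne_zero (g : SL(2, ℤ)) : cuspDiv N g ≠ 0 :=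
  (Nat.gcd_pos_of_pos_right _ (Nat.pos_of_ne_zero (NeZero.ne N))).ne'

/-- The Kummer map over `ℂ`. -/
def kummerMapC : KummerMap ℂ (fieldC N) n (Additive (Gamma0 N) →+ ZMod n) where
  toFun := kummerChar N n ιC
  map_mul' _ _ hf hg := kummerChar_mul N n ιC hf hg
  map_const' _ ha := kummerChar_const N n ιC ha
  map_pow' _ hg := kummerChar_pow N n ιC hg
  ker' _ hf h := by
    obtain ⟨F, hF, hinv⟩ := exists_invariant_root_of_kummerChar_eq_zero N n ιC hf h
    exact exists_eq_const_mul_pow_of_root N n ιC hf.1 hF hinv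

theorem finite_image_kummerMapC :
    ((kummerMapC N n).toFun '' {f : fieldC N | IsDivFun ℂ n f}).Finite := by
  have : Finite (homPar0 ℤ (Gamma0 N) (ZMod n)) :=
    Finite.of_equiv _ (FLTA.Gamma0.homPar0Equiv N ℤ (ZMod n)).toEquiv.symm
  refine (Set.toFinite (homPar0 ℤ (Gamma0 N) (ZMod n) : Set _)).subset ?_
  rintro _ ⟨f, hf, rfl⟩
  exact kummerChar_mem_homPar0 N n ιC hf

omit [NeZero n] [NeZero N] in
theorem galFun_jF (σ : ℂ ≃ₐ[ℚ] ℂ) : galFun _ σ (jF N ℂ) = jF N ℂ := by
  refine Subtype.ext ?_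
  rw [coe_galFun]
  exact coeffMap_coeffEmb _ _

omit [NeZero n] in
theorem order_le_ord_cuspPlace_one (f : fieldC N) :
    (f : LaurentSeries ℂ).order = (cuspPlace N ιC 1).ord f := by
  have hd : cuspDiv N 1 = N := by simp [cuspDiv]
  have h1 := ordCusp_eq_mul_ord_cuspPlace N ιC 1 f
  have h2 : qexpFracAt N 1 (evFrac N ιC f) = qExpand ℂ N (f : LaurentSeries ℂ) := by
    have h3 : qexpFracAt N 1 = (qExpand ℂ N).comp (qexpFrac N) :=
      IsLocalization.ringHom_ext (nonZeroDivisors (ModHol N)) (RingHom.ext fun A => by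
        simp only [qexpFracAt, qexpFrac, RingHom.comp_apply, IsFractionRing.lift_algebraMap]
        exact qexpAt_one N A)
    rw [h3, RingHom.comp_apply, qexpFrac_evFrac, coeffMap_id]
  rw [ordCusp, h2, hd] at h1
  have h4 : (qExpand ℂ N (f : LaurentSeries ℂ)).order = (N : ℤ) * (f : LaurentSeries ℂ).order := by
    rcases eq_or_ne (f : LaurentSeries ℂ) 0 with h0 | h0
    · simp [h0]
    refine le_antisymm (HahnSeries.order_le_of_coeff_ne_zero ?_) ?_
    · rw [qExpand_coeff_mul]
      exact mt HahnSeries.coeff_order_eq_zero.mp h0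
    · have hc := mt HahnSeries.coeff_order_eq_zero.mp
        ((map_ne_zero_iff _ (qExpand_injective (R := ℂ) N)).2 h0)
      by_cases hd : (N : ℤ) ∣ (qExpand ℂ N (f : LaurentSeries ℂ)).order
      · obtain ⟨t, ht⟩ := hd
        rw [ht] at hc ⊢
        rw [qExpand_coeff_mul] at hc
        exact mul_le_mul_of_nonneg_left (HahnSeries.order_le_of_coeff_ne_zero hc)
          (Int.natCast_nonneg N)
      · exact absurd (qExpand_coeff_of_not_dvd N _ hd) hc
  rw [h4] at h1
  exact mul_left_cancel₀ (Int.natCast_ne_zero.2 (NeZero.ne N)) h1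

omit [NeZero n] in
/-- The order at infinity of a good representative is bounded. -/
theorem exists_order_le (a : ℕ) :
    ∃ M : ℤ, ∀ f : fieldC N, IsGoodRep n (jF N ℂ) a f → (f : LaurentSeries ℂ).order ≤ M := by
  classical
  have hP : HasPrincipalDivisors ℂ (fieldC N) :=
    FLTA.Curves.hasPrincipalDivisors_of_isSepFunctionField _ _
  have hj0 : jF N ℂ ≠ 0 := fun h => by
    have h' := transcendental_jF N ℂ
    rw [h] at h'
    exact h' isAlgebraic_zero
  obtain ⟨E, hE, -⟩ := hP.exists_divisor (jF N ℂ) hj0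
  set P : Divisor ℂ (fieldC N) := E.mapRange (fun x => max 0 (-x)) (by simp) with hPdef
  refine ⟨(a : ℤ) * Divisor.degree P, fun f hf => ?_⟩
  obtain ⟨D, hD, hDdeg⟩ := hP.exists_divisor f hf.divisible.1
  set v₀ := cuspPlace N ιC 1
  have := FLTA.Curves.finite_residueField_of_isSepFunctionField (K := ℂ) (F := fieldC N) v₀
  have hdeg : 1 ≤ v₀.deg := Module.finrank_pos
  set Q : Divisor ℂ (fieldC N) := D + (a : ℤ) • P with hQ
  have hPv : ∀ v, P v = max 0 (-v.ord (jF N ℂ)) := fun v => by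
    rw [hPdef, Finsupp.mapRange_apply, hE]
  have hQv : ∀ v, 0 ≤ Q v := fun v => by
    rw [hQ, Finsupp.add_apply, Finsupp.smul_apply, smul_eq_mul, hD, hPv]
    have := hf.bound v
    rw [neg_mul] at this
    omega
  have hsum : Q v₀ * v₀.deg ≤ Divisor.degree Q := by
    rw [show Divisor.degree Q = Q.sum fun v m => m * (v.deg : ℤ) from
      Finsupp.liftAddHom_apply _ _]
    by_cases hv : v₀ ∈ Q.support
    · exact Finset.single_le_sum (f := fun v => Q v * (v.deg : ℤ))
        (fun v _ => mul_nonneg (hQv v) (Int.natCast_nonneg _)) hv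
    · rw [Finsupp.notMem_support_iff.1 hv, zero_mul]
      exact Finset.sum_nonneg fun v _ => mul_nonneg (hQv v) (Int.natCast_nonneg _)
  rw [hQ, map_add, map_zsmul, hDdeg, zero_add, smul_eq_mul, ← hQ] at hsum
  have h0 : D v₀ ≤ Q v₀ := by
    rw [hQ, Finsupp.add_apply, Finsupp.smul_apply, smul_eq_mul, hPv]
    have := mul_nonneg (Int.natCast_nonneg a) (le_max_left 0 (-v₀.ord (jF N ℂ)))
    omega
  rw [order_le_ord_cuspPlace_one N f, ← hD]
  have h1 : Q v₀ * 1 ≤ Q v₀ * (v₀.deg : ℤ) :=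
    mul_le_mul_of_nonneg_left (by exact_mod_cast hdeg) (hQv v₀)
  rw [mul_one] at h1
  have h2 : D (cuspPlace N ιC 1) = D v₀ := rfl
  omega

variable {L : Type*} [Field L] [Algebra ℚ L] [IsAlgClosed L] (ι : L →+* ℂ)

local notation "FN" => laurentBaseChange L (modularFunctionFieldFull N)

omit [NeZero n] [IsAlgClosed L] in
theorem toFieldC_eq {x : FN} {g : fieldC N}
    (h : coeffMap ι (x : LaurentSeries L) = (g : LaurentSeries ℂ)) :
    evFrac N ι x = evFrac N ιC g := by
  refine qexpFrac_injective N ?_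
  rw [qexpFrac_evFrac, qexpFrac_evFrac, coeffMap_id, h]

omit [NeZero n] in
theorem isDivFun_of_coeffMap {x : FN} {g : fieldC N}
    (h : coeffMap ι (x : LaurentSeries L) = (g : LaurentSeries ℂ)) (hg : IsDivFun ℂ n g) :
    IsDivFun L n x := by
  have he := toFieldC_eq N ι h
  refine ⟨fun h0 => hg.1 (Subtype.ext (by rw [← h, h0]; exact map_zero _)), fun v => ?_⟩
  rcases exists_eq_placeAt_or_cuspPlace N ι v with ⟨τ, hτ, rfl⟩ | ⟨g', rfl⟩
  · have hτ' : IsPointOver ιC τ := ⟨_, rfl⟩
    have h1 : ordF N ι τ x = ordF N ιC τ g := by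
      show meroOrd τ (toMero N (evFrac N ι x)) = meroOrd τ (toMero N (evFrac N ιC g))
      rw [he]
    rw [ordF_eq_mul_ord_placeAt N ι τ hτ, ordF_eq_mul_ord_placeAt N ιC τ hτ'] at h1
    rw [mul_left_cancel₀ (Int.natCast_ne_zero.2 (ellipticIndex_pos N τ).ne') h1]
    exact hg.2 _
  · have h1 : ordCusp N ι g' x = ordCusp N ιC g' g := by rw [ordCusp, ordCusp, he]
    rw [ordCusp_eq_mul_ord_cuspPlace, ordCusp_eq_mul_ord_cuspPlace] at h1
    rw [mul_left_cancel₀ (Int.natCast_ne_zero.2 (cuspDiv_ne_zero N g')) h1]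
    exact hg.2 _

/-- A character with a good representative over `ℂ` has a representative over `L`. -/
theorem exists_kummerChar_eq_of_goodRep {a : ℕ} {f : fieldC N} (hf : IsGoodRep n (jF N ℂ) a f) :
    ∃ x : FN, IsDivFun L n x ∧ kummerChar N n ι x = kummerChar N n ιC f := by
  have : CharZero L := algebraRat.charZero L
  obtain ⟨M, hM⟩ := exists_order_le N n a
  obtain ⟨g, hg, hgf, hfin⟩ := exists_rep_finite_orbit (kummerMapC N n) (NeZero.ne n)
    (finite_image_kummerMapC N n) (galFun_jF N) hM hf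
  let := ι.toAlgebra
  have : IsScalarTower ℚ L ℂ := IsScalarTower.of_algebraMap_eq' (RingHom.ext_rat _ _)
  obtain ⟨y, hy⟩ := exists_coeffMap_eq ι (y := (g : LaurentSeries ℂ)) fun k =>
    mem_range_of_finite_orbit ((hfin k).subset (by
      rintro _ ⟨σ, rfl⟩
      exact ⟨σ.restrictScalars ℚ, rfl⟩))
  have hym : y ∈ laurentBaseChange L (modularFunctionFieldFull N) :=
    (mem_laurentBaseChange_iff_coeffMap_mem N ι).2 (hy.symm ▸ g.2)
  refine ⟨⟨y, hym⟩, isDivFun_of_coeffMap N n ι hy hg.divisible, ?_⟩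
  have he : evMero N ι ⟨y, hym⟩ = evMero N ιC g :=
    congrArg (toMero N) (toFieldC_eq N ι (x := ⟨y, hym⟩) hy)
  obtain ⟨F, hF, hχ, -⟩ := exists_isKummerRoot N n ιC hg.divisible
  refine (kummerChar_eq N n ι (fun h0 => hg.divisible.1 (Subtype.ext ?_))
    (F := F) ⟨hχ, 1, one_ne_zero, by rw [map_one, one_mul, he, hF]⟩).trans hgf
  rw [← hy, show y = ((⟨y, hym⟩ : FN) : LaurentSeries L) from rfl, h0]
  exact map_zero _

end FLTA.Kummer
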