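/-
Eisenstein series attached to characters of `Gamma0 N` trivial on parabolic elements.
-/
import Mathlib.NumberTheory.ModularForms.EisensteinSeries.Basic
import Mathlib.NumberTheory.Modular
import Mathlib.Analysis.Normed.Group.Tannery

set_option autoImplicit false

noncomputable section

open UpperHalfPlane EisensteinSeries Filter Topology Matrix CongruenceSubgroup ModularForm
open scoped MatrixGroups Manifold

namespace FLTA.Kummer

/-! ### Weighted sums over all integer vectors -/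

section Weighted

/-- `∑ v, wt v * (v₀ z + v₁) ^ (-k)` over all integer vectors. -/
def weightedEis (wt : (Fin 2 → ℤ) → ℂ) (k : ℤ) (z : ℍ) : ℂ :=
  ∑' v : Fin 2 → ℤ, wt v * eisSummand k v z

variable {wt : (Fin 2 → ℤ) → ℂ} {k : ℤ}

theorem summable_weightedEis (hwt : ∀ v, ‖wt v‖ ≤ 1) (hk : 3 ≤ k) (z : ℍ) :
    Summable fun v : Fin 2 → ℤ => wt v * eisSummand k v z := by
  refine Summable.of_norm_bounded (summable_norm_eisSummand hk z) fun v => ?_
  rw [norm_mul]
  exact mul_le_of_le_one_left (norm_nonneg _) (hwt v)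

theorem norm_weightedEis_le (hwt : ∀ v, ‖wt v‖ ≤ 1) (hk : 3 ≤ k) (z : ℍ) :
    ‖weightedEis wt k z‖ ≤ ∑' v : Fin 2 → ℤ, ‖eisSummand k v z‖ := by
  refine tsum_of_norm_bounded (summable_norm_eisSummand hk z).hasSum fun v => ?_
  rw [norm_mul]
  exact mul_le_of_le_one_left (norm_nonneg _) (hwt v)

/-- Right multiplication by an element of `SL(2, ℤ)` as a permutation of integer vectors. -/
def vecEquiv (A : SL(2, ℤ)) : (Fin 2 → ℤ) ≃ (Fin 2 → ℤ) where
  toFun v := v ᵥ* (A : Matrix (Fin 2) (Fin 2) ℤ)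
  invFun v := v ᵥ* ((A⁻¹ : SL(2, ℤ)) : Matrix (Fin 2) (Fin 2) ℤ)
  left_inv v := by
    simp only [vecMul_vecMul]
    exact (congrArg (v ᵥ* ·) (congrArg Subtype.val (mul_inv_cancel A))).trans (vecMul_one v)
  right_inv v := by
    simp only [vecMul_vecMul]
    exact (congrArg (v ᵥ* ·) (congrArg Subtype.val (inv_mul_cancel A))).trans (vecMul_one v)

@[simp]
theorem vecEquiv_apply (A : SL(2, ℤ)) (v : Fin 2 → ℤ) :
    vecEquiv A v = v ᵥ* (A : Matrix (Fin 2) (Fin 2) ℤ) := rfl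

/-- Transformation under `SL(2, ℤ)`: the weight is transported. -/
theorem weightedEis_smul (A : SL(2, ℤ)) (z : ℍ) :
    weightedEis wt k (A • z) =
      denom A z ^ k * weightedEis (fun v => wt ((vecEquiv A).symm v)) k z := by
  rw [weightedEis, weightedEis, ← tsum_mul_left,
    ← (vecEquiv A).tsum_eq (fun v => denom A z ^ k * (wt ((vecEquiv A).symm v) * eisSummand k v z))]
  refine tsum_congr fun v => ?_
  rw [Equiv.symm_apply_apply, eisSummand_SL2_apply, vecEquiv_apply]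
  ring

theorem weightedEis_slash (A : SL(2, ℤ)) :
    weightedEis wt k ∣[k] A = weightedEis (fun v => wt ((vecEquiv A).symm v)) k := by
  funext z
  rw [SL_slash_apply, weightedEis_smul, mul_comm (denom A z ^ k), mul_assoc, _root_.zpow_neg,
    mul_inv_cancel₀ (zpow_ne_zero _ (denom_ne_zero _ z)), mul_one]

theorem differentiableOn_weightedEis (hwt : ∀ v, ‖wt v‖ ≤ 1) (hk : 3 ≤ k) :
    DifferentiableOn ℂ (weightedEis wt k ∘ ofComplex) upperHalfPlaneSet := by
  have hk' : (2 : ℝ) < k := by norm_cast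
  have htend : TendstoLocallyUniformlyOn
      (fun (s : Finset (Fin 2 → ℤ)) => fun w : ℂ => ∑ v ∈ s, wt v * eisSummand k v (ofComplex w))
      (weightedEis wt k ∘ ofComplex) atTop upperHalfPlaneSet := by
    rw [tendstoLocallyUniformlyOn_iff_forall_isCompact isOpen_upperHalfPlaneSet]
    intro K hKsub hK
    obtain ⟨A, B, hB, hAB⟩ := subset_verticalStrip_of_isCompact
      (hK.image_of_continuousOn (ofComplex.continuousOn.mono fun w hw => by
        simpa [ofComplex] using hKsub hw) : IsCompact (ofComplex '' K))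
    refine tendstoUniformlyOn_tsum
      (u := fun v => r ⟨⟨A, B⟩, hB⟩ ^ (-k : ℝ) * ‖v‖ ^ (-k : ℝ))
      ((summable_one_div_norm_rpow hk').mul_left _) fun v w hw => ?_
    rw [norm_mul]
    refine (mul_le_of_le_one_left (norm_nonneg _) (hwt v)).trans ?_
    rw [eisSummand, norm_zpow, ← Real.rpow_intCast, Int.cast_neg]
    exact summand_bound_of_mem_verticalStrip (by positivity) v hB (hAB ⟨w, hw, rfl⟩)
  refine htend.differentiableOn (Eventually.of_forall fun s => ?_) isOpen_upperHalfPlaneSet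
  refine DifferentiableOn.fun_sum fun v _ => ?_
  exact (eisSummand_extension_differentiableOn k v).const_mul (wt v)

theorem mdifferentiable_weightedEis (hwt : ∀ v, ‖wt v‖ ≤ 1) (hk : 3 ≤ k) :
    MDifferentiable 𝓘(ℂ) 𝓘(ℂ) (weightedEis wt k) :=
  UpperHalfPlane.mdifferentiable_iff.2 (differentiableOn_weightedEis hwt hk)

/-- A real number `n` with `z - n` in the strip of width one. -/
theorem exists_T_zpow_mem_strip (z : ℍ) : ∃ n : ℤ,
    |((ModularGroup.T ^ n) • z).re| ≤ 1 ∧ ((ModularGroup.T ^ n) • z).im = z.im := by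
  refine ⟨-⌊z.re⌋, ?_, ModularGroup.im_T_zpow_smul _ _⟩
  rw [ModularGroup.re_T_zpow_smul, Int.cast_neg, abs_le]
  constructor <;> linarith [Int.floor_le z.re, Int.lt_floor_add_one z.re]

theorem denom_T_zpow (n : ℤ) (z : ℍ) : denom (ModularGroup.T ^ n : SL(2, ℤ)) z = 1 := by
  rw [ModularGroup.denom_apply, ModularGroup.coe_T_zpow]
  simp

theorem isBoundedAtImInfty_weightedEis (hwt : ∀ v, ‖wt v‖ ≤ 1) (hk : 3 ≤ k) :
    IsBoundedAtImInfty (weightedEis wt k) := by
  rw [UpperHalfPlane.isBoundedAtImInfty_iff]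
  refine ⟨∑' v : Fin 2 → ℤ, r ⟨⟨1, 2⟩, Nat.ofNat_pos⟩ ^ (-k) * ‖v‖ ^ (-k), 2, fun z hz => ?_⟩
  obtain ⟨n, hre, him⟩ := exists_T_zpow_mem_strip z
  set z' := ModularGroup.T ^ n • z with hz'
  have hzz : z = (ModularGroup.T ^ n)⁻¹ • z' := by rw [hz', inv_smul_smul]
  have hval : weightedEis wt k z =
      weightedEis (fun v => wt ((vecEquiv (ModularGroup.T ^ n)⁻¹).symm v)) k z' := by
    conv_lhs => rw [hzz]
    rw [weightedEis_smul, ← _root_.zpow_neg, denom_T_zpow, _root_.one_zpow, one_mul]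
  have hmem : z' ∈ verticalStrip 1 2 := (mem_verticalStrip_iff _ _ _).2 ⟨hre, by rw [him]; exact hz⟩
  have hk' : (2 : ℝ) < k := by norm_cast
  rw [hval]
  refine (norm_weightedEis_le (fun v => hwt _) hk z').trans ?_
  refine (summable_norm_eisSummand hk _).tsum_le_tsum (fun v => ?_) ?_
  · rw [eisSummand, norm_zpow]
    exact_mod_cast summand_bound_of_mem_verticalStrip (lt_trans two_pos hk').le v two_pos hmem
  · exact_mod_cast (summable_one_div_norm_rpow hk').mul_left <|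
      r ⟨⟨1, 2⟩, Nat.ofNat_pos⟩ ^ (-k)

theorem isBoundedAtImInfty_weightedEis_slash (hwt : ∀ v, ‖wt v‖ ≤ 1) (hk : 3 ≤ k) (A : SL(2, ℤ)) :
    IsBoundedAtImInfty (weightedEis wt k ∣[k] A) := by
  rw [weightedEis_slash]
  exact isBoundedAtImInfty_weightedEis (fun v => hwt _) hk

/-- The part of the sum with nonzero first coordinate. -/
def tailNorm (k : ℤ) (z : ℍ) : ℝ :=
  ∑' v : Fin 2 → ℤ, if v 0 = 0 then 0 else ‖eisSummand k v z‖

theorem tailNorm_T_zpow (k n : ℤ) (z : ℍ) :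
    tailNorm k ((ModularGroup.T ^ n) • z) = tailNorm k z := by
  rw [tailNorm, tailNorm,
    ← (vecEquiv (ModularGroup.T ^ n)).tsum_eq (fun v => if v 0 = 0 then 0 else ‖eisSummand k v z‖)]
  refine tsum_congr fun v => ?_
  have h0 : (v ᵥ* ((ModularGroup.T ^ n : SL(2, ℤ)) : Matrix (Fin 2) (Fin 2) ℤ)) 0 = v 0 := by
    rw [ModularGroup.coe_T_zpow]
    simp [vecMul, dotProduct, Fin.sum_univ_two]
  rw [vecEquiv_apply, h0, eisSummand_SL2_apply, denom_T_zpow, _root_.one_zpow, one_mul]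

theorem tendsto_tailNorm_strip (hk : 3 ≤ k) :
    Tendsto (tailNorm k) (atImInfty ⊓ 𝓟 {z : ℍ | |z.re| ≤ 1}) (𝓝 0) := by
  have hk' : (2 : ℝ) < k := by norm_cast
  have htend : Tendsto (fun z : ℍ => z.im) (atImInfty ⊓ 𝓟 {z : ℍ | |z.re| ≤ 1}) atTop :=
    (tendsto_comap : Tendsto UpperHalfPlane.im atImInfty atTop).mono_left inf_le_left
  rw [show (0 : ℝ) = ∑' _ : Fin 2 → ℤ, (0 : ℝ) from tsum_zero.symm]
  refine tendsto_tsum_of_dominated_convergence
    (bound := fun v => r ⟨⟨1, 2⟩, Nat.ofNat_pos⟩ ^ (-k : ℝ) * ‖v‖ ^ (-k : ℝ))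
    ((summable_one_div_norm_rpow hk').mul_left _) (fun v => ?_) ?_
  · by_cases hv : v 0 = 0
    · simp only [hv, if_true]
      exact tendsto_const_nhds
    · simp only [hv, if_false]
      have hlow : Tendsto (fun z : ℍ => |(v 0 : ℝ)| * z.im)
          (atImInfty ⊓ 𝓟 {z : ℍ | |z.re| ≤ 1}) atTop :=
        htend.const_mul_atTop (by positivity)
      have hup : Tendsto (fun z : ℍ => ‖(v 0 : ℂ) * z + v 1‖)
          (atImInfty ⊓ 𝓟 {z : ℍ | |z.re| ≤ 1}) atTop := by
        refine tendsto_atTop_mono (fun z => ?_) hlow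
        refine le_trans (le_of_eq ?_) (Complex.abs_im_le_norm _)
        simp [Complex.add_im, Complex.mul_im, abs_mul, abs_of_pos z.im_pos]
      have := (tendsto_zpow_atTop_zero (𝕜 := ℝ) (n := -k) (by omega)).comp hup
      simpa [Function.comp_def, eisSummand, norm_zpow] using this
  · filter_upwards [mem_inf_of_right (mem_principal_self _),
      mem_inf_of_left (atImInfty_mem _ |>.2 ⟨2, fun z hz => hz⟩ :
        {z : ℍ | 2 ≤ z.im} ∈ atImInfty)] with z hre him v
    split_ifs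
    · rw [norm_zero]
      exact mul_nonneg (Real.rpow_nonneg (r_pos _).le _) (Real.rpow_nonneg (norm_nonneg _) _)
    · rw [norm_norm, eisSummand, norm_zpow, ← Real.rpow_intCast, Int.cast_neg]
      exact summand_bound_of_mem_verticalStrip (by positivity) v two_pos
        ((mem_verticalStrip_iff _ _ _).2 ⟨hre, him⟩)

theorem tendsto_tailNorm (hk : 3 ≤ k) : Tendsto (tailNorm k) atImInfty (𝓝 0) := by
  choose n hre him using exists_T_zpow_mem_strip
  have hg : Tendsto (fun z => (ModularGroup.T ^ n z) • z) atImInfty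
      (atImInfty ⊓ 𝓟 {z : ℍ | |z.re| ≤ 1}) := by
    refine tendsto_inf.2 ⟨?_, tendsto_principal.2 (Eventually.of_forall hre)⟩
    refine tendsto_comap_iff.2 ?_
    simp only [Function.comp_def, him]
    exact tendsto_comap
  refine ((tendsto_tailNorm_strip hk).comp hg).congr fun z => ?_
  exact tailNorm_T_zpow k (n z) z

/-- The limit at infinity is the sum over the vectors `(0, d)`. -/
theorem tendsto_weightedEis (hwt : ∀ v, ‖wt v‖ ≤ 1) (hk : 3 ≤ k) :
    Tendsto (weightedEis wt k) atImInfty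
      (𝓝 (∑' v : Fin 2 → ℤ, if v 0 = 0 then wt v * (v 1 : ℂ) ^ (-k) else 0)) := by
  rw [tendsto_iff_norm_sub_tendsto_zero]
  refine squeeze_zero (fun z => norm_nonneg _) (fun z => ?_) (tendsto_tailNorm hk)
  have hsum : Summable fun v : Fin 2 → ℤ => if v 0 = 0 then wt v * (v 1 : ℂ) ^ (-k) else 0 := by
    refine ((summable_weightedEis hwt hk z).indicator {v | v 0 = 0}).congr fun v => ?_
    by_cases hv : v 0 = 0 <;> simp [hv, eisSummand]
  rw [weightedEis, ← (summable_weightedEis hwt hk z).tsum_sub hsum]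
  have hs : Summable fun v : Fin 2 → ℤ => if v 0 = 0 then 0 else ‖eisSummand k v z‖ := by
    refine Summable.of_nonneg_of_le (fun v => ?_) (fun v => ?_) (summable_norm_eisSummand hk z) <;>
      split_ifs <;> simp
  refine tsum_of_norm_bounded hs.hasSum fun v => ?_
  split_ifs with hv
  · simp [eisSummand, hv]
  · rw [sub_zero, norm_mul]
    exact mul_le_of_le_one_left (norm_nonneg _) (hwt v)

end Weighted

/-! ### Characters of `Gamma0 N` -/

/-- A unitary character of `Gamma0 N` trivial on all elements of trace `±2`. -/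
structure IsCuspChar (N : ℕ) (χ : Gamma0 N →* ℂ) : Prop where
  norm_eq : ∀ γ, ‖χ γ‖ = 1
  parabolic : ∀ γ : Gamma0 N, ((γ : SL(2, ℤ)) : Matrix (Fin 2) (Fin 2) ℤ).trace ^ 2 = 4 → χ γ = 1

variable {N : ℕ} {χ : Gamma0 N →* ℂ}

theorem IsCuspChar.eq_of_row_eq (h : IsCuspChar N χ) {γ δ : Gamma0 N}
    (hrow : ((γ : SL(2, ℤ)) : Matrix (Fin 2) (Fin 2) ℤ) 1 =
      ((δ : SL(2, ℤ)) : Matrix (Fin 2) (Fin 2) ℤ) 1) : χ γ = χ δ := by
  have h1 : χ (γ * δ⁻¹) = 1 := by
    refine h.parabolic _ ?_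
    have hdet := (δ : SL(2, ℤ)).det_coe
    have hdet' := (γ : SL(2, ℤ)).det_coe
    rw [det_fin_two] at hdet hdet'
    have e0 := congrFun hrow 0
    have e1 := congrFun hrow 1
    rw [e0, e1] at hdet'
    simp [Subgroup.coe_mul,
      adjugate_fin_two, trace_fin_two, mul_apply, Fin.sum_univ_two]
    rw [e0, e1]
    linear_combination (((γ : SL(2, ℤ)) 0 0 * (δ : SL(2, ℤ)) 1 1
      - (γ : SL(2, ℤ)) 0 1 * (δ : SL(2, ℤ)) 1 0 + (δ : SL(2, ℤ)) 0 0 * (δ : SL(2, ℤ)) 1 1
      - (δ : SL(2, ℤ)) 0 1 * (δ : SL(2, ℤ)) 1 0) + 2) * hdet'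
      + ((γ : SL(2, ℤ)) 0 0 * (δ : SL(2, ℤ)) 1 1
      - (γ : SL(2, ℤ)) 0 1 * (δ : SL(2, ℤ)) 1 0 + (δ : SL(2, ℤ)) 0 0 * (δ : SL(2, ℤ)) 1 1
      - (δ : SL(2, ℤ)) 0 1 * (δ : SL(2, ℤ)) 1 0 + 2) * hdet
  calc χ γ = χ (γ * δ⁻¹ * δ) := by rw [inv_mul_cancel_right]
    _ = χ δ := by rw [map_mul, h1, one_mul]

/-- `v` is the bottom row of an element of `Gamma0 N`. -/
def IsRow (N : ℕ) (v : Fin 2 → ℤ) : Prop :=
  ∃ γ : Gamma0 N, ((γ : SL(2, ℤ)) : Matrix (Fin 2) (Fin 2) ℤ) 1 = v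

theorem isRow_iff {v : Fin 2 → ℤ} : IsRow N v ↔ IsCoprime (v 0) (v 1) ∧ (N : ℤ) ∣ v 0 := by
  constructor
  · rintro ⟨γ, rfl⟩
    refine ⟨⟨-((γ : SL(2, ℤ)) 0 1), (γ : SL(2, ℤ)) 0 0, ?_⟩, ?_⟩
    · have := (γ : SL(2, ℤ)).det_coe
      rw [det_fin_two] at this
      linear_combination this
    · exact (ZMod.intCast_zmod_eq_zero_iff_dvd _ _).1 (Gamma0_mem.1 γ.2)
  · rintro ⟨⟨a, b, hab⟩, hN⟩
    refine ⟨⟨⟨!![b, -a; v 0, v 1], ?_⟩, ?_⟩, ?_⟩
    · rw [det_fin_two_of]
      linear_combination hab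
    · exact Gamma0_mem.2 ((ZMod.intCast_zmod_eq_zero_iff_dvd _ _).2 hN)
    · funext i
      fin_cases i <;> rfl

open scoped Classical in
/-- The coefficient of the Eisenstein series of `χ`. -/
def rowWeight (N : ℕ) (χ : Gamma0 N →* ℂ) (v : Fin 2 → ℤ) : ℂ :=
  if h : IsRow N v then (χ h.choose)⁻¹ else 0

theorem IsCuspChar.rowWeight_eq (h : IsCuspChar N χ) (γ : Gamma0 N) :
    rowWeight N χ (((γ : SL(2, ℤ)) : Matrix (Fin 2) (Fin 2) ℤ) 1) = (χ γ)⁻¹ := by
  have hr : IsRow N (((γ : SL(2, ℤ)) : Matrix (Fin 2) (Fin 2) ℤ) 1) := ⟨γ, rfl⟩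
  rw [rowWeight, dif_pos hr, h.eq_of_row_eq hr.choose_spec]

theorem IsCuspChar.norm_rowWeight_le (h : IsCuspChar N χ) (v : Fin 2 → ℤ) :
    ‖rowWeight N χ v‖ ≤ 1 := by
  rw [rowWeight]
  split_ifs
  · rw [norm_inv, h.norm_eq, inv_one]
  · simp

theorem IsCuspChar.rowWeight_vecEquiv (h : IsCuspChar N χ) (γ : Gamma0 N) (v : Fin 2 → ℤ) :
    rowWeight N χ ((vecEquiv (γ : SL(2, ℤ))).symm v) = χ γ * rowWeight N χ v := by
  by_cases hv : IsRow N v
  · obtain ⟨δ, rfl⟩ := hv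
    have : (vecEquiv (γ : SL(2, ℤ))).symm (((δ : SL(2, ℤ)) : Matrix (Fin 2) (Fin 2) ℤ) 1) =
        (((δ * γ⁻¹ : Gamma0 N) : SL(2, ℤ)) : Matrix (Fin 2) (Fin 2) ℤ) 1 := by
      exact (Matrix.mul_apply_eq_vecMul (((δ : SL(2, ℤ)) : Matrix (Fin 2) (Fin 2) ℤ))
        (((γ⁻¹ : Gamma0 N) : SL(2, ℤ)) : Matrix (Fin 2) (Fin 2) ℤ) 1).symm
    have hunit : χ γ ≠ 0 := fun h0 => by
      have := h.norm_eq γ
      rw [h0] at this
      simp at this
    rw [this, h.rowWeight_eq, h.rowWeight_eq]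
    have : χ (δ * γ⁻¹) * χ γ = χ δ := by rw [← map_mul, inv_mul_cancel_right]
    have hne : χ (δ * γ⁻¹) ≠ 0 := fun h0 => by
      have := h.norm_eq (δ * γ⁻¹)
      rw [h0] at this
      simp at this
    rw [← this]
    field_simp
  · have hv' : ¬ IsRow N ((vecEquiv (γ : SL(2, ℤ))).symm v) := by
      rintro ⟨δ, hδ⟩
      refine hv ⟨δ * γ, ?_⟩
      have := congrArg (vecEquiv (γ : SL(2, ℤ))) hδ
      rw [Equiv.apply_symm_apply] at this
      exact (Matrix.mul_apply_eq_vecMul (((δ : SL(2, ℤ)) : Matrix (Fin 2) (Fin 2) ℤ))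
        (((γ : SL(2, ℤ)) : Matrix (Fin 2) (Fin 2) ℤ)) 1).trans this
    rw [rowWeight, dif_neg hv', rowWeight, dif_neg hv, mul_zero]

/-- The Eisenstein series of weight `k` and character `χ`, tending to `1` at infinity. -/
def charEis (N : ℕ) (χ : Gamma0 N →* ℂ) (k : ℤ) (z : ℍ) : ℂ :=
  (1 / 2 : ℂ) * weightedEis (rowWeight N χ) k z

variable {k : ℤ}

theorem charEis_smul (h : IsCuspChar N χ) (γ : Gamma0 N) (z : ℍ) :
    charEis N χ k ((γ : SL(2, ℤ)) • z) = χ γ * denom (γ : SL(2, ℤ)) z ^ k * charEis N χ k z := by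
  rw [charEis, charEis, weightedEis_smul]
  simp_rw [h.rowWeight_vecEquiv γ]
  simp only [weightedEis, mul_assoc, tsum_mul_left]
  ring

theorem charEis_slash (h : IsCuspChar N χ) (γ : Gamma0 N) :
    charEis N χ k ∣[k] (γ : SL(2, ℤ)) = χ γ • charEis N χ k := by
  funext z
  rw [SL_slash_apply, charEis_smul h, Pi.smul_apply, smul_eq_mul, _root_.zpow_neg]
  have := zpow_ne_zero k (denom_ne_zero (γ : SL(2, ℤ)) z)
  field_simp

theorem mdifferentiable_charEis (h : IsCuspChar N χ) (hk : 3 ≤ k) :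
    MDifferentiable 𝓘(ℂ) 𝓘(ℂ) (charEis N χ k) :=
  mdifferentiable_const.mul (mdifferentiable_weightedEis h.norm_rowWeight_le hk)

theorem differentiableOn_charEis (h : IsCuspChar N χ) (hk : 3 ≤ k) :
    DifferentiableOn ℂ (charEis N χ k ∘ ofComplex) upperHalfPlaneSet :=
  UpperHalfPlane.mdifferentiable_iff.1 (mdifferentiable_charEis h hk)

theorem isBoundedAtImInfty_charEis_slash (h : IsCuspChar N χ) (hk : 3 ≤ k) (A : SL(2, ℤ)) :
    IsBoundedAtImInfty (charEis N χ k ∣[k] A) := by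
  have hb := (isBoundedAtImInfty_weightedEis_slash h.norm_rowWeight_le hk A).const_mul_left (1 / 2 : ℂ)
  refine hb.congr_left fun z => ?_
  simp [charEis, SL_slash_apply, mul_assoc]

theorem tendsto_charEis (h : IsCuspChar N χ) (hk : 3 ≤ k) (hke : Even k) :
    Tendsto (charEis N χ k) atImInfty (𝓝 1) := by
  have hval : (∑' v : Fin 2 → ℤ,
      if v 0 = 0 then rowWeight N χ v * (v 1 : ℂ) ^ (-k) else 0) = 2 := by
    rw [tsum_eq_sum (s := {![0, 1], ![0, -1]})]
    · rw [Finset.sum_pair (by decide)]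
      have h1 : rowWeight N χ ![0, 1] = 1 := by
        have := h.rowWeight_eq 1
        rw [map_one, inv_one] at this
        convert this using 2
        funext i
        fin_cases i <;> simp
      have h2 : rowWeight N χ ![0, -1] = 1 := by
        have hm : (-1 : SL(2, ℤ)) ∈ Gamma0 N := by simp [Gamma0_mem]
        have := h.rowWeight_eq ⟨-1, hm⟩
        rw [h.parabolic _ (by simp), inv_one] at this
        convert this using 2
        funext i
        fin_cases i <;> simp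
      simp [h1, h2, (hke.neg).neg_one_zpow]
      norm_num
    · intro v hv
      split_ifs with h0
      · have hr : ¬ IsRow N v := by
          rw [isRow_iff]
          rintro ⟨hc, -⟩
          rw [h0, isCoprime_zero_left, Int.isUnit_iff] at hc
          refine hv ?_
          simp only [Finset.mem_insert, Finset.mem_singleton]
          rcases hc with hc | hc <;> [left; right] <;> funext i <;> fin_cases i <;> simp [h0, hc]
        rw [rowWeight, dif_neg hr, zero_mul]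
      · rfl
  have := (tendsto_weightedEis h.norm_rowWeight_le hk).const_mul (1 / 2 : ℂ)
  rw [hval, show (1 / 2 : ℂ) * 2 = 1 by norm_num] at this
  exact this

theorem charEis_ne_zero (h : IsCuspChar N χ) (hk : 3 ≤ k) (hke : Even k) :
    charEis N χ k ≠ 0 := fun h0 => by
  have hl := tendsto_charEis h hk hke
  rw [h0] at hl
  exact one_ne_zero (tendsto_nhds_unique hl (tendsto_const_nhds (x := (0 : ℂ))))

end FLTA.Kummer
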