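/-
For a character `χ` of `Γ₀(N)` with values in `ZMod n`, a holomorphic function `u` on `ℍ` with
multiplier `χ`, growth at most `1 / q` at every cusp and `q u → 1` at infinity.
-/
import Fermat.Agent.Kummer.Eisenstein
import Fermat.Agent.Gamma0.Complex.Basic
import Fermat.Agent.Bridge.Field
import Mathlib.Analysis.SpecialFunctions.Complex.CircleAddChar

set_option autoImplicit false
set_option linter.unusedSectionVars false

noncomputable section

open UpperHalfPlane hiding I
open CongruenceSubgroup Filter Topology Function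
open scoped MatrixGroups Manifold ModularForm
open FLTA.Bridge

namespace FLTA.Kummer

local notation "𝕢" => Periodic.qParam

theorem discriminant_smul (g : SL(2, ℤ)) (τ : ℍ) :
    ModularForm.discriminant (g • τ) = denom g τ ^ (12 : ℤ) * ModularForm.discriminant τ := by
  have h := congrFun (SlashInvariantForm.slash_action_generators_SL2Z
    ModularForm.discriminant_S_invariant ModularForm.discriminant_T_invariant g) τ
  rw [ModularForm.SL_slash_apply, _root_.zpow_neg] at h
  have h0 : denom g τ ^ (12 : ℤ) ≠ 0 := zpow_ne_zero _ (denom_ne_zero _ τ)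
  field_simp at h
  exact_mod_cast h

theorem tendsto_qParam_div_discriminant :
    Tendsto (fun τ : ℍ => 𝕢 1 τ / ModularForm.discriminant τ) atImInfty (𝓝 1) := by
  have h := (ModularForm.tendsto_atImInfty_tprod_one_sub_eta_q_pow.inv₀ one_ne_zero)
  rw [inv_one] at h
  refine h.congr fun τ => ?_
  rw [ModularForm.discriminant_eq_q_prod, div_eq_mul_inv, mul_inv, ← mul_assoc,
    mul_inv_cancel₀ (Periodic.qParam_ne_zero _), one_mul]

variable {N n : ℕ} [NeZero N] [NeZero n]

variable (N) in
/-- The complex character attached to `χ`. -/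
def charC (χ : Additive (Gamma0 N) →+ ZMod n) : Gamma0 N →* ℂ where
  toFun γ := ZMod.stdAddChar (χ (Additive.ofMul γ))
  map_one' := by simp
  map_mul' γ δ := by rw [ofMul_mul, map_add, AddChar.map_add_eq_mul]

theorem charC_apply (χ : Additive (Gamma0 N) →+ ZMod n) (γ : Gamma0 N) :
    charC N χ γ = ZMod.stdAddChar (χ (Additive.ofMul γ)) := rfl

theorem charC_pow (χ : Additive (Gamma0 N) →+ ZMod n) (γ : Gamma0 N) : charC N χ γ ^ n = 1 := by
  rw [charC_apply, ← AddChar.map_nsmul_eq_pow, nsmul_eq_mul, ZMod.natCast_self, zero_mul,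
    AddChar.map_zero_eq_one]

theorem isCuspChar_charC {χ : Additive (Gamma0 N) →+ ZMod n}
    (hχ : FLTA.Gamma0.IsParHom0 (Gamma0 N) χ) : IsCuspChar N (charC N χ) where
  norm_eq γ := Complex.norm_eq_one_of_pow_eq_one (charC_pow χ γ) (NeZero.ne n)
  parabolic γ hγ := by
    rw [charC_apply, hχ γ hγ.le, AddChar.map_zero_eq_one]

theorem isCuspChar_one (N : ℕ) : IsCuspChar N (1 : Gamma0 N →* ℂ) where
  norm_eq _ := norm_one
  parabolic _ _ := rfl

/-- `E_χ E_1² / Δ` in weight `4`. -/
def charFun (N : ℕ) (χ : Gamma0 N →* ℂ) (τ : ℍ) : ℂ :=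
  charEis N χ 4 τ * charEis N (1 : Gamma0 N →* ℂ) 4 τ ^ 2 / ModularForm.discriminant τ

theorem charFun_smul {ψ : Gamma0 N →* ℂ} (hψ : IsCuspChar N ψ) (γ : Gamma0 N) (τ : ℍ) :
    charFun N ψ ((γ : SL(2, ℤ)) • τ) = ψ γ * charFun N ψ τ := by
  rw [charFun, charFun, charEis_smul hψ, charEis_smul (isCuspChar_one N), discriminant_smul,
    MonoidHom.one_apply]
  have h0 := denom_ne_zero (γ : SL(2, ℤ)) τ
  have h1 := ModularForm.discriminant_ne_zero τ
  field_simp

theorem charFun_comp_smul (ψ : Gamma0 N →* ℂ) (g : SL(2, ℤ)) (τ : ℍ) :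
    charFun N ψ (g • τ) =
      (charEis N ψ 4 ∣[(4 : ℤ)] g) τ * (charEis N (1 : Gamma0 N →* ℂ) 4 ∣[(4 : ℤ)] g) τ ^ 2 /
        ModularForm.discriminant τ := by
  rw [charFun, ModularForm.SL_slash_apply, ModularForm.SL_slash_apply, discriminant_smul]
  have h0 := denom_ne_zero g τ
  have h1 := ModularForm.discriminant_ne_zero τ
  simp only [zpow_neg]
  field_simp

theorem mdifferentiable_charFun {ψ : Gamma0 N →* ℂ} (hψ : IsCuspChar N ψ) :
    MDifferentiable 𝓘(ℂ) 𝓘(ℂ) (charFun N ψ) := by
  rw [UpperHalfPlane.mdifferentiable_iff]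
  refine DifferentiableOn.congr
    (((differentiableOn_charEis hψ (k := 4) (by norm_num)).mul
      ((differentiableOn_charEis (isCuspChar_one N) (k := 4) (by norm_num)).pow 2)).div
        (UpperHalfPlane.mdifferentiable_iff.1 CuspForm.discriminant.holo') fun z hz => ?_)
    fun z hz => rfl
  exact ModularForm.discriminant_ne_zero _

/-- `q u` is bounded at every cusp. -/
theorem isBoundedAtImInfty_qParam_mul_charFun {ψ : Gamma0 N →* ℂ} (hψ : IsCuspChar N ψ)
    (g : SL(2, ℤ)) : IsBoundedAtImInfty fun τ : ℍ => 𝕢 1 τ * charFun N ψ (g • τ) := by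
  have h1 : IsBoundedAtImInfty fun τ : ℍ => 𝕢 1 τ / ModularForm.discriminant τ :=
    tendsto_qParam_div_discriminant.isBigO_one ℝ
  have h2 := isBoundedAtImInfty_charEis_slash hψ (k := 4) (by norm_num) g
  have h3 := isBoundedAtImInfty_charEis_slash (isCuspChar_one N) (k := 4) (by norm_num) g
  refine (h1.mul (h2.mul (h3.mul h3))).congr_left fun τ => ?_
  rw [charFun_comp_smul]
  simp only [Pi.mul_apply]
  ring

theorem growthInfty_charFun {ψ : Gamma0 N →* ℂ} (hψ : IsCuspChar N ψ) (g : SL(2, ℤ)) :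
    GrowthInfty (fun τ : ℍ => charFun N ψ (g • τ)) :=
  ⟨1, by simpa using isBoundedAtImInfty_qParam_mul_charFun hψ g⟩

theorem tendsto_qParam_mul_charFun {ψ : Gamma0 N →* ℂ} (hψ : IsCuspChar N ψ) :
    Tendsto (fun τ : ℍ => 𝕢 1 τ * charFun N ψ τ) atImInfty (𝓝 1) := by
  have h := tendsto_qParam_div_discriminant.mul
    ((tendsto_charEis hψ (k := 4) (by norm_num) ⟨2, rfl⟩).mul
      ((tendsto_charEis (isCuspChar_one N) (k := 4) (by norm_num) ⟨2, rfl⟩).pow 2))
  rw [one_pow, mul_one, mul_one] at h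
  refine h.congr fun τ => ?_
  rw [charFun]
  ring

theorem charFun_ne_zero {ψ : Gamma0 N →* ℂ} (hψ : IsCuspChar N ψ) : charFun N ψ ≠ 0 := fun h0 => by
  have h := tendsto_qParam_mul_charFun hψ
  rw [h0] at h
  simp only [Pi.zero_apply, mul_zero] at h
  exact zero_ne_one (tendsto_nhds_unique tendsto_const_nhds h)

variable {χ : Additive (Gamma0 N) →+ ZMod n} (hχ : FLTA.Gamma0.IsParHom0 (Gamma0 N) χ)
include hχ

/-- `u` as a holomorphic function. -/
def charHol : Hol := ⟨charFun N (charC N χ), mdifferentiable_charFun (isCuspChar_charC hχ)⟩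

theorem charHol_ne_zero : charHol hχ ≠ 0 := fun h =>
  charFun_ne_zero (isCuspChar_charC hχ) (congrArg Subtype.val h)

theorem charFun_pow_mem_modHol : charFun N (charC N χ) ^ n ∈ ModHol N := by
  have hψ := isCuspChar_charC hχ
  refine ⟨pow_mem (mdifferentiable_charFun hψ) n, fun γ hγ τ => ?_, fun g => ?_⟩
  · show charFun N (charC N χ) (γ • τ) ^ n = charFun N (charC N χ) τ ^ n
    rw [show γ • τ = ((⟨γ, hγ⟩ : Gamma0 N) : SL(2, ℤ)) • τ from rfl, charFun_smul hψ, mul_pow,
      charC_pow, one_mul]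
  · have h : ∀ k : ℕ, GrowthInfty (fun τ : ℍ => charFun N (charC N χ) (g • τ) ^ k) := by
      intro k
      induction k with
      | zero => simpa using GrowthInfty.const 1
      | succ k ih => exact ih.mul (growthInfty_charFun hψ g)
    exact h n

/-- `u ^ n` as a modular function. -/
def charPow : ModHol N := ⟨charFun N (charC N χ) ^ n, charFun_pow_mem_modHol hχ⟩

theorem modHolToHol_charPow : modHolToHol N (charPow hχ) = charHol hχ ^ n := rfl

theorem charPow_ne_zero : charPow hχ ≠ 0 := fun h => by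
  have h' := congrArg (modHolToHol N) h
  rw [modHolToHol_charPow, map_zero] at h'
  exact charHol_ne_zero hχ (pow_eq_zero_iff (NeZero.ne n) |>.1 h')

/-- `u ^ n` in the function field over `ℂ`. -/
def charElt : fieldC N := modFracEquiv N (algebraMap (ModHol N) (ModFrac N) (charPow hχ))

theorem coe_charElt : (charElt hχ : LaurentSeries ℂ) = qexp N (charPow hχ) :=
  IsLocalization.lift_eq _ _

theorem evMero_charElt :
    evMero N (RingHom.id ℂ) (charElt hχ) = algebraMap Hol Mero (charHol hχ) ^ n := by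
  have h1 : (toFieldC N (RingHom.id ℂ) (charElt hχ)) = charElt hχ :=
    Subtype.ext (ModularCurve.coeffMap_id _)
  rw [evMero, evFrac, RingHom.comp_apply, RingHom.comp_apply, h1, charElt, RingEquiv.toRingHom_eq_coe,
    RingEquiv.coe_toRingHom, RingEquiv.symm_apply_apply, toMero, IsFractionRing.map]
  rw [IsLocalization.map_eq]
  exact map_pow (algebraMap Hol Mero) (charHol hχ) n

theorem meroSmul_charHol (γ : Gamma0 N) :
    meroSmul (Matrix.SpecialLinearGroup.toGLPos (Matrix.SpecialLinearGroup.map (Int.castRingHom ℝ)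
        (γ : SL(2, ℤ)))) (algebraMap Hol Mero (charHol hχ)) =
      algebraMap ℂ Mero (ZMod.stdAddChar (χ (Additive.ofMul γ))) *
        algebraMap Hol Mero (charHol hχ) := by
  rw [meroSmul_algebraMap, IsScalarTower.algebraMap_apply ℂ Hol Mero, ← map_mul]
  congr 1
  exact Subtype.ext (funext fun τ => charFun_smul (isCuspChar_charC hχ) γ τ)

end FLTA.Kummer
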