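/-
Surjectivity of the Kummer comparison: for a parabolic character `χ`, the `n`-th power of the
function `u` with multiplier `χ` is a good representative, defined over `ℂ`.
-/
import Fermat.Agent.Kummer.CharFun
import Fermat.Agent.Kummer.Descent
import Fermat.Agent.Kummer.Kappa
import Fermat.Agent.Kummer.SLAct
import Fermat.Agent.Bridge.Places

set_option autoImplicit false
set_option linter.unusedSectionVars false
set_option linter.style.haveILetI false

noncomputable section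

open UpperHalfPlane hiding I
open CongruenceSubgroup Filter Topology Function ModularCurve AlgebraicCurve
open scoped MatrixGroups Manifold
open FLTA.Bridge

namespace FLTA.Kummer

local notation "𝕢" => Periodic.qParam

/-! ### Elliptic points -/

theorem slDen_mul (γ δ : SL(2, ℤ)) {z : ℂ} (hz : z ∈ upperHalfPlaneSet) :
    slDen (γ * δ) z = slDen γ (slAct δ z) * slDen δ z := by
  have h := slDen_ne_zero δ hz
  simp only [slDen, slAct] at h ⊢
  simp [Matrix.mul_apply, Fin.sum_univ_two]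
  field_simp
  ring

theorem slAct_sub_slAct (γ : SL(2, ℤ)) {z w : ℂ} (hz : z ∈ upperHalfPlaneSet)
    (hw : w ∈ upperHalfPlaneSet) :
    slAct γ z - slAct γ w = (z - w) / (slDen γ z * slDen γ w) := by
  have h1 := slDen_ne_zero γ hz
  have h2 := slDen_ne_zero γ hw
  have hdet : ((γ 0 0 : ℂ)) * (γ 1 1 : ℂ) - (γ 0 1 : ℂ) * (γ 1 0 : ℂ) = 1 := by
    have hd' := Matrix.det_fin_two (γ : Matrix (Fin 2) (Fin 2) ℤ)
    rw [γ.2] at hd'
    exact_mod_cast hd'.symm
  rw [slAct, slAct, div_sub_div _ _ h1 h2]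
  congr 1
  simp only [slDen]
  linear_combination (z - w) * hdet

theorem eq_one_of_slDen_eq_one {γ : SL(2, ℤ)} {τ : ℍ} (hγ : γ • τ = τ)
    (h : slDen γ τ = 1) : γ = 1 := by
  have him : ((γ 1 0 : ℤ) : ℝ) * τ.im = 0 := by
    have := congrArg Complex.im h
    simpa [slDen] using this
  have hc : γ 1 0 = 0 := by
    rcases mul_eq_zero.1 him with h' | h'
    · exact_mod_cast h'
    · exact absurd h' τ.im_ne_zero
  have hd : γ 1 1 = 1 := by
    have h' : ((γ 1 1 : ℤ) : ℂ) = 1 := by simpa [slDen, hc] using h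
    exact_mod_cast h'
  have hdet := γ.2
  rw [Matrix.det_fin_two, hc, hd] at hdet
  have ha : γ 0 0 = 1 := by simpa using hdet
  have hb : γ 0 1 = 0 := by
    have h' := congrArg (fun x : ℍ => (x : ℂ)) hγ
    simp only [coe_smul_eq_slAct, slAct, h, div_one, ha] at h'
    have h'' : ((γ 0 1 : ℤ) : ℂ) = 0 := by simpa using h'
    exact_mod_cast h''
  ext i j
  fin_cases i <;> fin_cases j <;> simp [ha, hb, hc, hd]

/-- The order at `τ` of a function invariant under `γ`, which fixes `τ`. -/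
theorem slDen_pow_two_mul_ordAt {F : ℍ → ℂ} (hF : F ∈ Hol) (hF0 : F ≠ 0) {γ : SL(2, ℤ)} {τ : ℍ}
    (hγ : γ • τ = τ) (hinv : ∀ z : ℍ, F (γ • z) = F z) :
    slDen γ τ ^ (2 * ordAt τ F) = 1 := by
  obtain ⟨g, hg, hg0, hFg⟩ := (analyticAt_of_mem_hol hF τ).analyticOrderAt_ne_top.mp
    (analyticOrderAt_ne_top hF hF0 τ)
  replace hFg : ∀ᶠ z in 𝓝 (τ : ℂ), F (ofComplex z) = (z - τ) ^ ordAt τ F * g z := hFg
  set m := ordAt τ F
  have hτ : (τ : ℂ) ∈ upperHalfPlaneSet := τ.im_pos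
  have hfix : slAct γ τ = τ := by rw [← coe_smul_eq_slAct, hγ]
  have hc : ContinuousAt (slAct γ) (τ : ℂ) := (analyticAt_slAct γ hτ).continuousAt
  have hd : ContinuousAt (slDen γ) (τ : ℂ) := by
    unfold slDen
    fun_prop
  have h2 : ∀ᶠ z in 𝓝[≠] (τ : ℂ), g (slAct γ z) = (slDen γ z * slDen γ τ) ^ m * g z := by
    have ht : Tendsto (slAct γ) (𝓝 (τ : ℂ)) (𝓝 (τ : ℂ)) := by
      have := hc.tendsto
      rwa [hfix] at this
    filter_upwards [nhdsWithin_le_nhds hFg, nhdsWithin_le_nhds (ht.eventually hFg),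
      nhdsWithin_le_nhds (isOpen_upperHalfPlaneSet.mem_nhds hτ), self_mem_nhdsWithin]
      with z h1 h1' hz hne
    have h3 : F (ofComplex (slAct γ z)) = F (ofComplex z) := by
      have e : ofComplex (slAct γ z) = γ • (⟨z, hz⟩ : ℍ) := by
        rw [← ofComplex_apply (γ • (⟨z, hz⟩ : ℍ))]
        exact congrArg ofComplex (coe_smul_eq_slAct γ ⟨z, hz⟩).symm
      rw [e, hinv, ← ofComplex_apply (⟨z, hz⟩ : ℍ)]
    have h4 : slAct γ z - τ = (z - τ) / (slDen γ z * slDen γ τ) := by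
      rw [← slAct_sub_slAct γ hz hτ, hfix]
    rw [h1, h1', h4, div_pow] at h3
    have h5 : (z - (τ : ℂ)) ^ m ≠ 0 := pow_ne_zero _ (sub_ne_zero.2 hne)
    have h6 : (slDen γ z * slDen γ τ) ^ m ≠ 0 :=
      pow_ne_zero _ (mul_ne_zero (slDen_ne_zero γ hz) (slDen_ne_zero γ hτ))
    field_simp at h3
    linear_combination h3
  have hL : Tendsto (fun z => g (slAct γ z)) (𝓝[≠] (τ : ℂ)) (𝓝 (g τ)) := by
    have := (ContinuousAt.comp (by rw [hfix]; exact hg.continuousAt) hc : ContinuousAt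
      (g ∘ slAct γ) (τ : ℂ)).tendsto
    simp only [Function.comp_def, hfix] at this
    exact this.mono_left nhdsWithin_le_nhds
  have hR : Tendsto (fun z => (slDen γ z * slDen γ τ) ^ m * g z) (𝓝[≠] (τ : ℂ))
      (𝓝 ((slDen γ τ * slDen γ τ) ^ m * g τ)) :=
    ((((hd.mul continuousAt_const).pow m).mul hg.continuousAt).tendsto).mono_left
      nhdsWithin_le_nhds
  have heq := tendsto_nhds_unique (hL.congr' h2) hR
  rw [pow_mul, pow_two]
  exact mul_right_cancel₀ hg0 (by rw [one_mul]; exact heq.symm)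

variable {N : ℕ} [NeZero N]

/-- A function invariant under the stabiliser of `τ` vanishes to order divisible by the
ramification index. -/
theorem ellipticIndex_dvd_ordAt {F : ℍ → ℂ} (hF : F ∈ Hol) (hF0 : F ≠ 0) (τ : ℍ)
    (hinv : ∀ γ ∈ Gamma0 N, γ • τ = τ → ∀ z : ℍ, F (γ • z) = F z) :
    ellipticIndex N τ ∣ ordAt τ F := by
  set G := MulAction.stabilizer (Gamma0 N) τ
  have hfix : ∀ g : G, ((g : Gamma0 N) : SL(2, ℤ)) • τ = τ := fun g => g.2
  haveI : Finite (MulAction.stabilizer SL(2, ℤ) τ) := finite_stabilizer τ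
  haveI : Finite G := Finite.of_injective
    (fun g : G => (⟨((g : Gamma0 N) : SL(2, ℤ)), hfix g⟩ : MulAction.stabilizer SL(2, ℤ) τ))
    fun a b h => by
      have h' : ((a : Gamma0 N) : SL(2, ℤ)) = ((b : Gamma0 N) : SL(2, ℤ)) :=
        congrArg (fun x : MulAction.stabilizer SL(2, ℤ) τ => (x : SL(2, ℤ))) h
      exact Subtype.ext (Subtype.ext h')
  have hτ : (τ : ℂ) ∈ upperHalfPlaneSet := τ.im_pos
  let φ : G →* ℂ :=
    { toFun := fun g => slDen ((g : Gamma0 N) : SL(2, ℤ)) τ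
      map_one' := by simp [slDen]
      map_mul' := fun a b => by
        simp only [Subgroup.coe_mul]
        rw [slDen_mul _ _ hτ, ← coe_smul_eq_slAct, hfix b] }
  have hφ : Injective φ := by
    intro a b h
    have h0 : φ (a⁻¹ * b) = 1 := by
      rw [map_mul, ← h, ← map_mul, inv_mul_cancel, map_one]
    exact inv_mul_eq_one.1 (Subtype.ext (Subtype.ext (eq_one_of_slDen_eq_one (hfix _) h0)))
  haveI : IsCyclic G := isCyclic_of_injective_ringHom φ hφ
  obtain ⟨g, hg⟩ := IsCyclic.exists_generator (α := G)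
  have hs : orderOf g = Nat.card G := orderOf_eq_card_of_forall_mem_zpowers hg
  have h1 : Nat.card G ∣ 2 * ordAt τ F := by
    rw [← hs, ← orderOf_injective φ hφ g, orderOf_dvd_iff_pow_eq_one]
    exact slDen_pow_two_mul_ordAt hF hF0 (hfix g) (hinv _ (g : Gamma0 N).2 (hfix g))
  have hneg : (-1 : SL(2, ℤ)) ∈ Gamma0 N := by
    simp [CongruenceSubgroup.Gamma0_mem]
  have h2 : 2 ∣ Nat.card G := by
    let m : G := ⟨⟨-1, hneg⟩, by
      show (-1 : SL(2, ℤ)) • τ = τ
      rw [ModularGroup.SL_neg_smul, one_smul]⟩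
    have hm : orderOf m = 2 := by
      rw [← orderOf_injective φ hφ m, show φ m = -1 by simp [φ, m, slDen]]
      rw [orderOf_neg_one, ringChar.eq_zero]
      rfl
    have hd := orderOf_dvd_natCard m
    rwa [hm] at hd
  obtain ⟨e, he⟩ := h2
  rw [ellipticIndex, show Nat.card (MulAction.stabilizer (Gamma0 N) τ) = 2 * e from he,
    Nat.mul_div_cancel_left _ two_pos]
  exact Nat.dvd_of_mul_dvd_mul_left two_pos (he ▸ h1)

/-! ### Cusps -/

theorem cuspDiv_pos (g : SL(2, ℤ)) : 0 < cuspDiv N g :=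
  Nat.gcd_pos_of_pos_right _ (Nat.pos_of_ne_zero (NeZero.ne N))

theorem cuspWidth_pos (g : SL(2, ℤ)) : 0 < cuspWidth N g :=
  Nat.pos_of_mul_pos_left (a := cuspDiv N g)
    (by rw [cuspDiv_mul_cuspWidth]; exact Nat.pos_of_ne_zero (NeZero.ne N))

theorem conj_T_pow_mem_Gamma0 (g : SL(2, ℤ)) :
    g * ModularGroup.T ^ (cuspWidth N g : ℤ) * g⁻¹ ∈ Gamma0 N := by
  have h1 : ((g * ModularGroup.T ^ (cuspWidth N g : ℤ) * g⁻¹ : SL(2, ℤ)) 1 0 : ℤ) =
      -(g 1 0 * g 1 0 * cuspWidth N g) := by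
    rw [Matrix.SpecialLinearGroup.coe_mul, Matrix.SpecialLinearGroup.coe_mul,
      ModularGroup.coe_T_zpow, Matrix.SpecialLinearGroup.coe_inv, Matrix.adjugate_fin_two]
    simp [Matrix.mul_apply, Fin.sum_univ_two]
    ring
  rw [CongruenceSubgroup.Gamma0_mem, ZMod.intCast_zmod_eq_zero_iff_dvd, h1, dvd_neg]
  obtain ⟨r, hr⟩ := Nat.gcd_dvd_left ((g.1 1 0).natAbs ^ 2) N
  have h2 : (g 1 0 * g 1 0 : ℤ) = (cuspDiv N g : ℤ) * r := by
    rw [← Int.natAbs_mul_self' (g 1 0)]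
    exact_mod_cast by rw [← pow_two]; exact hr
  refine ⟨r, ?_⟩
  have h3 : (cuspDiv N g : ℤ) * cuspWidth N g = N := by exact_mod_cast cuspDiv_mul_cuspWidth N g
  rw [h2, ← h3]
  ring

theorem isSmallTrace_conj_T_pow (g : SL(2, ℤ)) (w : ℤ) :
    FLTA.Gamma0.IsSmallTrace (g * ModularGroup.T ^ w * g⁻¹) := by
  have h1 : ((g * ModularGroup.T ^ w * g⁻¹ : SL(2, ℤ)) : Matrix (Fin 2) (Fin 2) ℤ).trace = 2 := by
    rw [Matrix.SpecialLinearGroup.coe_mul, Matrix.trace_mul_comm, ← Matrix.SpecialLinearGroup.coe_mul,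
      ← mul_assoc, inv_mul_cancel, one_mul, ModularGroup.coe_T_zpow]
    simp [Matrix.trace_fin_two]
  unfold FLTA.Gamma0.IsSmallTrace
  rw [h1]
  norm_num

theorem order_qExpand (k : ℕ) [NeZero k] {x : LaurentSeries ℂ} (hx : x ≠ 0) :
    (qExpand ℂ k x).order = k * x.order := by
  have hy : qExpand ℂ k x ≠ 0 := fun h => hx (qExpand_injective k (by rw [h, map_zero]))
  refine le_antisymm (HahnSeries.order_le_of_coeff_ne_zero ?_) ?_
  · rw [qExpand_coeff_mul]
    exact mt HahnSeries.coeff_order_eq_zero.1 hx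
  · have h := mt HahnSeries.coeff_order_eq_zero.1 hy
    by_cases hd : (k : ℤ) ∣ (qExpand ℂ k x).order
    · obtain ⟨i, hi⟩ := hd
      rw [hi, qExpand_coeff_mul] at h
      rw [hi]
      exact Int.mul_le_mul_of_nonneg_left (HahnSeries.order_le_of_coeff_ne_zero h) (by positivity)
    · exact absurd (qExpand_coeff_of_not_dvd k x hd) h

theorem qexpFracAt_algebraMap (g : SL(2, ℤ)) (A : ModHol N) :
    qexpFracAt N g (algebraMap (ModHol N) (ModFrac N) A) = qexpAt N g A :=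
  IsFractionRing.lift_algebraMap _ _

theorem evFrac_jF : evFrac N (RingHom.id ℂ) (jF N ℂ) =
    algebraMap (ModHol N) (ModFrac N) (jMod N) := by
  apply qexpFrac_injective N
  rw [qexpFrac_evFrac, ModularCurve.coeffMap_id]
  have h1 : qexpFrac N (algebraMap (ModHol N) (ModFrac N) (jMod N)) = qexp N (jMod N) :=
    IsFractionRing.lift_algebraMap _ _
  have h2 : jAt N 1 (one_dvd N) = jMod N := Subtype.ext (funext fun τ => by
    show jInv (scaleTau 1 τ) = jInv τ
    congr 1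
    exact UpperHalfPlane.ext (by simp [coe_scaleTau]))
  rw [h1, ← h2, qexp_jAt]
  rfl

theorem ord_jF_cuspPlace (g : SL(2, ℤ)) :
    (cuspPlace N (RingHom.id ℂ) g).ord (jF N ℂ) = -(cuspWidth N g : ℤ) := by
  have h := ordCusp_eq_mul_ord_cuspPlace N (RingHom.id ℂ) g (jF N ℂ)
  rw [ordCusp, evFrac_jF, qexpFracAt_algebraMap, order_qexpAt_jMod] at h
  have h3 : (cuspDiv N g : ℤ) * cuspWidth N g = N := by exact_mod_cast cuspDiv_mul_cuspWidth N g
  have hk : (cuspDiv N g : ℤ) ≠ 0 := by exact_mod_cast (cuspDiv_pos g).ne'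
  exact mul_left_cancel₀ hk (by linear_combination -h + h3)

/-! ### The function `u ^ n` -/

variable {n : ℕ} [NeZero n] {χ : Additive (Gamma0 N) →+ ZMod n}
  (hχ : FLTA.Gamma0.IsParHom0 (Gamma0 N) χ)
include hχ

theorem charFun_smul_of_isSmallTrace {γ : SL(2, ℤ)} (hγ : γ ∈ Gamma0 N)
    (ht : FLTA.Gamma0.IsSmallTrace γ) (τ : ℍ) :
    charFun N (charC N χ) (γ • τ) = charFun N (charC N χ) τ := by
  have h := charFun_smul (isCuspChar_charC hχ) ⟨γ, hγ⟩ τ
  rwa [charC_apply, hχ ⟨γ, hγ⟩ ht, AddChar.map_zero_eq_one, one_mul] at h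

omit hχ in
theorem isSmallTrace_of_smul_eq {γ : SL(2, ℤ)} {τ : ℍ} (hγ : γ • τ = τ) :
    FLTA.Gamma0.IsSmallTrace γ := by
  by_contra h
  have h' := congrArg (fun x : ℍ => (x : ℂ)) hγ
  simp only [coe_smul_eq_slAct, slAct] at h'
  rw [div_eq_iff (slDen_ne_zero γ τ.im_pos)] at h'
  simp only [slDen] at h'
  have him := congrArg Complex.im h'
  have hre := congrArg Complex.re h'
  simp at him hre
  have him' : ((γ 0 0 : ℤ) : ℝ) = 2 * (γ 1 0 : ℤ) * τ.re + (γ 1 1 : ℤ) :=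
    mul_right_cancel₀ τ.im_ne_zero (by linear_combination him)
  apply h
  have hdet := γ.2
  rw [Matrix.det_fin_two] at hdet
  have hdet' : ((γ 0 0 : ℤ) : ℝ) * (γ 1 1 : ℤ) - (γ 0 1 : ℤ) * (γ 1 0 : ℤ) = 1 := by
    exact_mod_cast hdet
  unfold FLTA.Gamma0.IsSmallTrace
  rw [Matrix.trace_fin_two]
  have key : (((γ 0 0 : ℤ) : ℝ) + (γ 1 1 : ℤ)) ^ 2 =
      4 - 4 * ((γ 1 0 : ℤ) * τ.im) ^ 2 := by
    linear_combination (4 * ((γ 1 0 : ℤ) : ℝ)) * hre + 4 * hdet' +
      ((γ 0 0 : ℝ) - (γ 1 1 : ℝ) - 2 * (γ 1 0 : ℝ) * τ.re) * him'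
  have h4 : (((γ 0 0 : ℤ) : ℝ) + (γ 1 1 : ℤ)) ^ 2 ≤ 4 := by
    rw [key]
    nlinarith [sq_nonneg (((γ 1 0 : ℤ) : ℝ) * τ.im)]
  exact_mod_cast h4

theorem ellipticIndex_dvd_ordAt_charHol (τ : ℍ) :
    ellipticIndex N τ ∣ ordAt τ (charHol hχ : ℍ → ℂ) :=
  ellipticIndex_dvd_ordAt (charHol hχ).2 (fun h => charHol_ne_zero hχ (Subtype.ext h)) τ
    fun _γ hγ hfix z => charFun_smul_of_isSmallTrace hχ hγ (isSmallTrace_of_smul_eq hfix) z

theorem charFun_comp_mem_holInfty (g : SL(2, ℤ)) (w : ℕ) [NeZero w] (hw : cuspWidth N g = w) :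
    (fun τ : ℍ => charFun N (charC N χ) (g • τ)) ∈ HolInfty w := by
  refine ⟨comp_smul_mem_hol (mdifferentiable_charFun (isCuspChar_charC hχ))
    (Matrix.SpecialLinearGroup.toGLPos (Matrix.SpecialLinearGroup.map (Int.castRingHom ℝ) g)),
    fun z => ?_, growthInfty_charFun (isCuspChar_charC hχ) g⟩
  by_cases hz : 0 < z.im
  · have hz' : 0 < (z + (w : ℂ)).im := by simpa using hz
    simp only [comp_apply, ofComplex_apply_of_im_pos hz, ofComplex_apply_of_im_pos hz']
    have e : (⟨z + (w : ℂ), hz'⟩ : ℍ) = (ModularGroup.T ^ (w : ℤ)) • (⟨z, hz⟩ : ℍ) := by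
      apply UpperHalfPlane.ext
      rw [coe_specialLinearGroup_apply]
      rw [ModularGroup.coe_T_zpow]
      simp
    subst hw
    rw [e, ← mul_smul, show g * ModularGroup.T ^ (cuspWidth N g : ℤ) =
      g * ModularGroup.T ^ (cuspWidth N g : ℤ) * g⁻¹ * g by group, mul_smul]
    exact charFun_smul_of_isSmallTrace hχ (conj_T_pow_mem_Gamma0 g)
      (isSmallTrace_conj_T_pow g _) _
  · have hz' : (z + (w : ℂ)).im ≤ 0 := by simpa using not_lt.mp hz
    simp only [comp_apply, ofComplex_apply_of_im_nonpos hz',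
      ofComplex_apply_of_im_nonpos (not_lt.mp hz)]

theorem evFrac_charElt :
    evFrac N (RingHom.id ℂ) (charElt hχ) = algebraMap (ModHol N) (ModFrac N) (charPow hχ) := by
  apply qexpFrac_injective N
  rw [qexpFrac_evFrac, ModularCurve.coeffMap_id, coe_charElt]
  exact (IsFractionRing.lift_algebraMap _ _).symm

/-- The order of `u ^ n` at a cusp. -/
theorem exists_ord_charElt_cuspPlace (g : SL(2, ℤ)) :
    ∃ m : ℤ, (cuspPlace N (RingHom.id ℂ) g).ord (charElt hχ) = n * m ∧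
      -(cuspWidth N g : ℤ) ≤ m := by
  haveI : NeZero (cuspWidth N g) := ⟨(cuspWidth_pos g).ne'⟩
  haveI : NeZero (cuspDiv N g) := ⟨(cuspDiv_pos g).ne'⟩
  set w := cuspWidth N g with hw
  have hU := charFun_comp_mem_holInfty hχ g w hw.symm
  let U : HolInfty w := ⟨_, hU⟩
  have hU0 : U ≠ 0 := fun h => by
    refine charFun_ne_zero (isCuspChar_charC hχ) (funext fun τ => ?_)
    have h' := congrFun (congrArg Subtype.val h) (g⁻¹ • τ)
    simpa [U] using h'
  have hx0 : expansion w U ≠ 0 := fun h =>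
    hU0 (expansion_injective w (h.trans (map_zero _).symm))
  have h1 : qexpAt N g (charPow hχ) = qExpand ℂ (cuspDiv N g) ((expansion w U) ^ n) := by
    rw [← map_pow]
    refine Eq.trans ?_ (expansionFun_mul_period w (cuspDiv N g) (U ^ n).2)
    rw [mul_comm, cuspDiv_mul_cuspWidth]
    rfl
  have h := ordCusp_eq_mul_ord_cuspPlace N (RingHom.id ℂ) g (charElt hχ)
  rw [ordCusp, evFrac_charElt, qexpFracAt_algebraMap, h1, order_qExpand _ (pow_ne_zero n hx0),
    order_pow'] at h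
  have hk : (cuspDiv N g : ℤ) ≠ 0 := by exact_mod_cast (cuspDiv_pos g).ne'
  refine ⟨(expansion w U).order, (mul_left_cancel₀ hk h).symm, ?_⟩
  have h2 : expansion w U = HahnSeries.single (-(1 * w : ℕ) : ℤ) (1 : ℂ) *
      HahnSeries.ofPowerSeries ℤ ℂ (qExpansion (w : ℝ)
        (fun τ : ℍ => 𝕢 1 τ ^ 1 * charFun N (charC N χ) (g • τ))) :=
    expansionFun_eq w hU (by simpa using
      isBoundedAtImInfty_qParam_mul_charFun (isCuspChar_charC hχ) g)
  rw [h2] at hx0 ⊢
  rw [HahnSeries.order_mul (left_ne_zero_of_mul hx0) (right_ne_zero_of_mul hx0),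
    HahnSeries.order_single one_ne_zero]
  have h3 : (0 : ℤ) ≤ (HahnSeries.ofPowerSeries ℤ ℂ (qExpansion (w : ℝ)
      (fun τ : ℍ => 𝕢 1 τ ^ 1 * charFun N (charC N χ) (g • τ)))).order :=
    order_nonneg_of_forall_coeff fun j hj => ModularCurve.ofPowerSeries_coeff_of_neg _ hj
  omega

theorem leadingCoeff_charElt : (charElt hχ : LaurentSeries ℂ).leadingCoeff = 1 := by
  have hψ := isCuspChar_charC hχ
  have hw1 : cuspWidth N (1 : SL(2, ℤ)) = 1 := by
    simp [cuspWidth, Nat.div_self (Nat.pos_of_ne_zero (NeZero.ne N))]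
  have hU : charFun N (charC N χ) ∈ HolInfty 1 := by
    simpa using charFun_comp_mem_holInfty hχ 1 1 hw1
  let U : HolInfty 1 := ⟨_, hU⟩
  have h1 : (charElt hχ : LaurentSeries ℂ) = expansion 1 U ^ n := by
    rw [coe_charElt, ← map_pow]
    rfl
  have hb : IsBoundedAtImInfty fun τ : ℍ => 𝕢 1 τ ^ 1 * charFun N (charC N χ) τ := by
    simpa using isBoundedAtImInfty_qParam_mul_charFun hψ 1
  let V : HolInfty 1 := ⟨_, qParam_pow_mul_mem 1 hU 1⟩
  have hV : expansion 1 V = HahnSeries.ofPowerSeries ℤ ℂ (qExpansion ((1 : ℕ) : ℝ)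
      (fun τ : ℍ => 𝕢 1 τ ^ 1 * charFun N (charC N χ) τ)) :=
    expansionFun_of_bounded 1 V.2 hb
  have hV1 : (expansion 1 V).coeff 0 = 1 :=
    tendsto_nhds_unique (tendsto_atImInfty_coeff_zero 1 V
      ((isBoundedAtImInfty_iff_order 1 V).1 hb)) (by
        show Tendsto (fun τ : ℍ => 𝕢 1 τ ^ 1 * charFun N (charC N χ) τ) atImInfty (𝓝 1)
        simpa using tendsto_qParam_mul_charFun hψ)
  have hV0 : expansion 1 V ≠ 0 := fun h => by simp [h] at hV1
  have hord : (expansion 1 V).order = 0 :=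
    le_antisymm (HahnSeries.order_le_of_coeff_ne_zero (by simp [hV1]))
      ((isBoundedAtImInfty_iff_order 1 V).1 hb)
  have h2 : expansion 1 U = HahnSeries.single (-(1 * 1 : ℕ) : ℤ) (1 : ℂ) * expansion 1 V := by
    rw [hV]
    exact expansionFun_eq 1 hU hb
  rw [h1, h2, leadingCoeff_pow', leadingCoeff_mul', HahnSeries.leadingCoeff_of_single,
    HahnSeries.leadingCoeff_eq, hord, hV1, mul_one, one_pow]

theorem isGoodRep_charElt : IsGoodRep n (jF N ℂ) n (charElt hχ) := by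
  have hne : (charElt hχ : fieldC N) ≠ 0 := fun h => by
    have h' := leadingCoeff_charElt hχ
    rw [h] at h'
    simp at h'
  have key : ∀ v : Place ℂ (fieldC N), (n : ℤ) ∣ v.ord (charElt hχ) ∧
      -(n : ℤ) * max 0 (-v.ord (jF N ℂ)) ≤ v.ord (charElt hχ) := by
    intro v
    rcases exists_eq_placeAt_or_cuspPlace N (RingHom.id ℂ) v with ⟨τ, hτ, rfl⟩ | ⟨g, rfl⟩
    · obtain ⟨m, hm⟩ := ellipticIndex_dvd_ordAt_charHol hχ τ
      have h := ordF_eq_mul_ord_placeAt N (RingHom.id ℂ) τ hτ (charElt hχ)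
      have hu : ordF N (RingHom.id ℂ) τ (charElt hχ) = n * ordAt τ (charHol hχ : ℍ → ℂ) := by
        rw [ordF, evMero_charElt, ← map_pow, ← div_one (algebraMap Hol Mero (charHol hχ ^ n)),
          ← map_one (algebraMap Hol Mero),
          meroOrd_div τ (pow_ne_zero n (charHol_ne_zero hχ)) one_ne_zero,
          (ordAt_eq_zero_iff (1 : Hol).2 (fun h => one_ne_zero (Subtype.ext h)) τ).2 one_ne_zero]
        have hpow : ∀ k : ℕ, ordAt τ ((charHol hχ ^ k : Hol) : ℍ → ℂ) =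
            k * ordAt τ (charHol hχ : ℍ → ℂ) := by
          intro k
          induction k with
          | zero =>
            rw [pow_zero, zero_mul]
            exact (ordAt_eq_zero_iff (1 : Hol).2 (fun h => one_ne_zero (Subtype.ext h)) τ).2
              one_ne_zero
          | succ k ih =>
            have hc : ∀ {K : Hol}, K ≠ 0 → (K : ℍ → ℂ) ≠ 0 := fun hK h' => hK (Subtype.ext h')
            rw [pow_succ, MulMemClass.coe_mul,
              ordAt_mul (charHol hχ ^ k).2 (charHol hχ).2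
                (hc (pow_ne_zero k (charHol_ne_zero hχ))) (hc (charHol_ne_zero hχ)), ih,
              Nat.succ_mul]
        rw [hpow]
        simp
      rw [hu, hm] at h
      push_cast at h
      have he : (ellipticIndex N τ : ℤ) ≠ 0 := by exact_mod_cast (ellipticIndex_pos N τ).ne'
      have hv : (placeAt N (RingHom.id ℂ) τ hτ).ord (charElt hχ) = (n : ℤ) * m :=
        mul_left_cancel₀ he (by linear_combination -h)
      refine ⟨⟨m, hv⟩, hv ▸ ?_⟩
      have h1 : (0 : ℤ) ≤ n * m := by positivity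
      have h2 : (0 : ℤ) ≤ n * max 0 (-(placeAt N (RingHom.id ℂ) τ hτ).ord (jF N ℂ)) :=
        mul_nonneg (Int.natCast_nonneg n) (le_max_left _ _)
      rw [neg_mul]
      omega
    · obtain ⟨m, hm, hle⟩ := exists_ord_charElt_cuspPlace hχ g
      refine ⟨⟨m, hm⟩, ?_⟩
      rw [hm, ord_jF_cuspPlace, neg_neg, max_eq_right (Int.natCast_nonneg _), neg_mul,
        ← mul_neg]
      exact Int.mul_le_mul_of_nonneg_left hle (Int.natCast_nonneg n)
  exact ⟨⟨hne, fun v => (key v).1⟩, fun v => (key v).2, leadingCoeff_charElt hχ⟩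

/-- Every parabolic character is realised by a good representative over `ℂ`. -/
theorem exists_isGoodRep_meroSmul :
    ∃ (f : fieldC N) (F : Mero), IsGoodRep n (jF N ℂ) n f ∧ F ≠ 0 ∧
      F ^ n = evMero N (RingHom.id ℂ) f ∧
      ∀ γ : Gamma0 N, meroSmul (Matrix.SpecialLinearGroup.toGLPos
          (Matrix.SpecialLinearGroup.map (Int.castRingHom ℝ) (γ : SL(2, ℤ)))) F =
        algebraMap ℂ Mero (ZMod.stdAddChar (χ (Additive.ofMul γ))) * F :=
  ⟨charElt hχ, algebraMap Hol Mero (charHol hχ), isGoodRep_charElt hχ,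
    by simpa using charHol_ne_zero hχ, (evMero_charElt hχ).symm, meroSmul_charHol hχ⟩

omit hχ in
/-- Every parabolic character is the Kummer character of a good representative over `ℂ`. -/
theorem exists_goodRep_kummerChar_eq (N n : ℕ) [NeZero N] [NeZero n]
    {φ : Additive (Gamma0 N) →+ ZMod n} (hφ : φ ∈ FLTA.Gamma0.homPar0 ℤ (Gamma0 N) (ZMod n)) :
    ∃ x : fieldC N, IsGoodRep n (jF N ℂ) n x ∧ kummerChar N n (RingHom.id ℂ) x = φ :=
  ⟨charElt hφ, isGoodRep_charElt hφ,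
    kummerChar_eq N n (RingHom.id ℂ) (isGoodRep_charElt hφ).divisible.1
      ⟨meroSmul_charHol hφ, 1, one_ne_zero, by rw [map_one, one_mul, evMero_charElt]⟩⟩

end FLTA.Kummer
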