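/-
Kernel and image of the Kummer character.
-/
import Fermat.Agent.Kummer.DescentBar
import Fermat.Agent.Kummer.Surjective

set_option autoImplicit false

noncomputable section

open scoped MatrixGroups Topology
open UpperHalfPlane hiding I
open CongruenceSubgroup Filter ModularCurve AlgebraicCurve
open FLTA.Bridge
open FLTA.Gamma0 (homPar0)

namespace FLTA.Kummer

variable (N n : ℕ) [NeZero N] [NeZero n] {L : Type*} [Field L] [Algebra ℚ L] [IsAlgClosed L]
  (ι : L →+* ℂ)

local notation "FN" => laurentBaseChange L (modularFunctionFieldFull N)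

/-- A function with trivial character is a constant times an `n`-th power. -/
theorem exists_eq_const_mul_pow {x : FN} (hx : IsDivFun L n x)
    (h : kummerChar N n ι x = 0) :
    ∃ (a : L) (g : FN), a ≠ 0 ∧ g ≠ 0 ∧ x = algebraMap L FN a * g ^ n := by
  obtain ⟨F, hF, hinv⟩ := exists_invariant_root_of_kummerChar_eq_zero N n ι hx h
  exact exists_eq_const_mul_pow_of_root N n ι hx.1 hF hinv

/-- Every parabolic character is the character of a divisible function. -/
theorem exists_kummerChar_eq {φ : Additive (Gamma0 N) →+ ZMod n}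
    (hφ : φ ∈ homPar0 ℤ (Gamma0 N) (ZMod n)) :
    ∃ x : FN, IsDivFun L n x ∧ kummerChar N n ι x = φ := by
  obtain ⟨f, hf, hfφ⟩ := exists_goodRep_kummerChar_eq N n hφ
  obtain ⟨x, hx, hxf⟩ := exists_kummerChar_eq_of_goodRep N n ι hf
  exact ⟨x, hx, hxf.trans hfφ⟩

end FLTA.Kummer
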