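/-
The Kummer comparison as an additive equivalence.
-/
import Mathlib.Algebra.Group.Subgroup.Map
import Fermat.Prelude.Def_ModularCurve_HeckeModule
import Fermat.Agent.Kummer.KerSurj
import Fermat.Agent.Kummer.Fricke
import Fermat.Agent.Curves.BasicModular

set_option autoImplicit false

noncomputable section

open scoped MatrixGroups
open CongruenceSubgroup ModularCurve AlgebraicCurve
open FLTA.Bridge
open FLTA.Gamma0 (homPar0)

namespace FLTA.Kummer

variable (N n : ℕ) [NeZero N] [NeZero n]

local notation "ιbar" => AlgHom.toRingHom complexEmbedding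

theorem frickePull_mem_homPar0 {A : Type*} [AddCommGroup A] {φ : Additive (Gamma0 N) →+ A}
    (hφ : φ ∈ homPar0 ℤ (Gamma0 N) A) : frickePull N A φ ∈ homPar0 ℤ (Gamma0 N) A := by
  intro γ hγ
  rw [frickePull_apply]
  refine hφ _ ?_
  show _ ≤ (4 : ℤ)
  rw [frickeConj_trace]
  exact hγ

/-- Fricke conjugation on parabolic characters. -/
def frickePar (A : Type*) [AddCommGroup A] :
    (homPar0 ℤ (Gamma0 N) A).toAddSubgroup ≃+ homPar0 ℤ (Gamma0 N) A where
  toFun φ := ⟨frickePull N A φ.1, frickePull_mem_homPar0 N φ.2⟩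
  invFun φ := ⟨frickePull N A φ.1, frickePull_mem_homPar0 N φ.2⟩
  left_inv φ := Subtype.ext ((frickePull N A).left_inv φ.1)
  right_inv φ := Subtype.ext ((frickePull N A).left_inv φ.1)
  map_add' φ ψ := Subtype.ext (map_add (frickePull N A) φ.1 ψ.1)

/-- The Kummer map of `X₀(N)` over `ℚ̄`. -/
def kummerMapBar : KummerMap (AlgebraicClosure ℚ) (modularFunctionFieldBar N) n
    (Additive (Gamma0 N) →+ ZMod n) where
  toFun := kummerChar N n ιbar
  map_mul' _ _ hf hg := kummerChar_mul N n ιbar hf hg
  map_const' _ ha := kummerChar_const N n ιbar ha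
  map_pow' _ hg := kummerChar_pow N n ιbar hg
  ker' _ hf h := exists_eq_const_mul_pow N n ιbar hf h

theorem mem_range_of_forall_ord_eq_zero (u : modularFunctionFieldBar N) (_ : u ≠ 0)
    (h : ∀ v : Place (AlgebraicClosure ℚ) (modularFunctionFieldBar N), v.ord u = 0) :
    u ∈ Set.range (algebraMap (AlgebraicClosure ℚ) (modularFunctionFieldBar N)) :=
  FLTA.Curves.mem_range_algebraMap_of_forall_ord_nonneg fun v => (h v).ge

/-- `J₀(N)[n](ℚ̄)` as parabolic characters, before Fricke conjugation. -/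
def kummerRaw : Pic0.torsion (AlgebraicClosure ℚ) (modularFunctionFieldBar N) n ≃+
    (homPar0 ℤ (Gamma0 N) (ZMod n)).toAddSubgroup :=
  (kummerMapBar N n).torsionEquiv (mem_range_of_forall_ord_eq_zero N) (NeZero.ne n) _
    (fun _ hf => kummerChar_mem_homPar0 N n ιbar hf)
    (fun _ ha => exists_kummerChar_eq N n ιbar ha)

/-- The Kummer equivalence. -/
def kummerTorsionEquiv : Pic0.torsion (AlgebraicClosure ℚ) (modularFunctionFieldBar N) n ≃+
    homPar0 ℤ (Gamma0 N) (ZMod n) :=
  (kummerRaw N n).trans (frickePar N (ZMod n))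

variable {N n}

/-- The defining property: the multiplier of an `n`-th root, Fricke conjugated. -/
theorem kummerTorsionEquiv_eq_of_root
    {x : Pic0.torsion (AlgebraicClosure ℚ) (modularFunctionFieldBar N) n}
    {f : modularFunctionFieldBar N}
    (hf : TorsionRep n (x : Pic0 (AlgebraicClosure ℚ) (modularFunctionFieldBar N)) f)
    {χ : Additive (Gamma0 N) →+ ZMod n} {F : Mero} {c : ℂ} (hc : c ≠ 0)
    (hF : F ^ n = algebraMap ℂ Mero c * evMero N ιbar f) (hχ : HasMult χ F) :
    (kummerTorsionEquiv N n x).1 = frickePull N (ZMod n) χ := by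
  have h : (kummerRaw N n x).1 = χ :=
    ((kummerMapBar N n).torsionEquiv_apply (mem_range_of_forall_ord_eq_zero N) (NeZero.ne n) _
      (fun _ hf => kummerChar_mem_homPar0 N n ιbar hf)
      (fun _ ha => exists_kummerChar_eq N n ιbar ha) hf).trans
      (kummerChar_eq N n ιbar hf.1 ⟨hχ, c, hc, hF⟩)
  show frickePull N (ZMod n) (kummerRaw N n x).1 = _
  rw [h]

/-- Every torsion class has a representative with a root and a multiplier. -/
theorem exists_rep_root
    (x : Pic0.torsion (AlgebraicClosure ℚ) (modularFunctionFieldBar N) n) :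
    ∃ (f : modularFunctionFieldBar N) (F : Mero) (χ : Additive (Gamma0 N) →+ ZMod n),
      TorsionRep n (x : Pic0 (AlgebraicClosure ℚ) (modularFunctionFieldBar N)) f ∧
      F ^ n = evMero N ιbar f ∧ HasMult χ F ∧
      (kummerTorsionEquiv N n x).1 = frickePull N (ZMod n) χ := by
  obtain ⟨f, hf⟩ := exists_torsionRep x.2
  obtain ⟨F, hF, hχ, -⟩ := exists_isKummerRoot N n ιbar hf.isDivFun
  exact ⟨f, F, _, hf, hF, hχ,
    kummerTorsionEquiv_eq_of_root hf one_ne_zero (by rw [map_one, one_mul]; exact hF) hχ⟩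

end FLTA.Kummer
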