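/-
Complex conjugation on `J₀(N)[n]` is minus the involution `τ ↦ - conj τ` on characters.
-/
import Fermat.Agent.Kummer.Equiv
import Fermat.Agent.Kummer.ConjHol

set_option autoImplicit false

noncomputable section

open scoped MatrixGroups
open CongruenceSubgroup ModularCurve AlgebraicCurve
open FLTA.Bridge

namespace FLTA.Kummer

variable {N n : ℕ} [NeZero N] [NeZero n]

local notation "ιbar" => AlgHom.toRingHom complexEmbedding
local notation "cconj" => arithmeticGalois (modularFunctionFieldFull N) complexConjugation

/-- Translating a representative of a torsion class. -/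
theorem TorsionRep.smul {K F : Type*} [Field K] [Field F] [Algebra K F] {n : ℕ}
    {x : Pic0 K F} {f : F} (h : TorsionRep n x f) (g : SemilinearAut K F) :
    TorsionRep n (g • x) (g • f) := by
  obtain ⟨hf, D, hD, hDf⟩ := h
  refine ⟨by simpa using hf, SemilinearAut.degZeroSMulHom g D,
    by rw [← hD, SemilinearAut.pic0_smul_mk], fun v => ?_⟩
  rw [SemilinearAut.coe_degZeroSMulHom, SemilinearAut.divisor_smul_apply, hDf]
  have h1 := SemilinearAut.ord_smul g (g⁻¹ • v) f
  rw [smul_inv_smul] at h1
  exact h1.symm

omit [NeZero N] in
/-- The multiplier of a conjugate root. -/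
theorem HasMult.conjMero' {χ : Additive (Gamma0 N) →+ ZMod n} {F : Mero} (h : HasMult χ F) :
    HasMult (-(Period.charInvolution N ℤ (ZMod n) χ)) (conjMero F) := fun γ => by
  rw [slPosHom_apply, meroSmul_conjMero]
  have h1 := h (Period.jConjGamma0 N γ)
  rw [slPosHom_apply, Period.jConjGamma0_coe] at h1
  rw [h1, map_mul, conjMero_const, AddMonoidHom.neg_apply, Period.charInvolution_apply,
    toMul_ofMul, AddChar.map_neg_eq_conj]

theorem frickePull_charInvolution (χ : Additive (Gamma0 N) →+ ZMod n) :
    frickePull N (ZMod n) (Period.charInvolution N ℤ (ZMod n) χ) =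
      Period.charInvolution N ℤ (ZMod n) (frickePull N (ZMod n) χ) := by
  refine AddMonoidHom.ext fun γ => ?_
  simp only [frickePull_apply, Period.charInvolution_apply, toMul_ofMul, frickeConj_jConjGamma0]

/-- Complex conjugation is minus the involution of the character group. -/
theorem kummerTorsionEquiv_complexConjugation
    (x : Pic0.torsion (AlgebraicClosure ℚ) (modularFunctionFieldBar N) n) :
    (kummerTorsionEquiv N n (JZero.torsionGaloisRep N n complexConjugation x)).1 =
      -(Period.charInvolution N ℤ (ZMod n) (kummerTorsionEquiv N n x).1) := by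
  obtain ⟨f, F, χ, hf, hF, hχ, he⟩ := exists_rep_root x
  have hrep : TorsionRep n
      ((JZero.torsionGaloisRep N n complexConjugation x :
          Pic0.torsion (AlgebraicClosure ℚ) (modularFunctionFieldBar N) n) :
        Pic0 (AlgebraicClosure ℚ) (modularFunctionFieldBar N)) (cconj • f) := by
    rw [JZero.torsionGaloisRep_apply, SemilinearAut.coe_torsion_smul]
    exact hf.smul _
  rw [he, kummerTorsionEquiv_eq_of_root hrep one_ne_zero (F := conjMero F)
    (by rw [← map_pow, hF, evMero_complexConjugation, map_one, one_mul]) hχ.conjMero', map_neg,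
    frickePull_charInvolution]

end FLTA.Kummer
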