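/-
Representatives for the correspondence `α_* β^*` at a prime `p` on `Γ₀(N)`: they are the Fricke
conjugates of the Hecke matrices, and have the shape `left i * diag(p, 1) * gam i` with `gam i`
running over `Γ₀(N p) \ Γ₀(N)`.
-/
import Fermat.Agent.Periods.Hecke
import Fermat.Agent.Kummer.Fricke

set_option autoImplicit false

noncomputable section

namespace FLTA.Kummer

open CongruenceSubgroup Matrix.SpecialLinearGroup
open FLTA.Periods (HeckeReps gamma0GL heckeHom gamma0GL_apply repsU repsT)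
open scoped MatrixGroups OnePoint

variable (N : ℕ)

/-- The Fricke matrix `!![0, -1; N, 0]` in `GL₂(ℝ)`. -/
def frickeGL [NeZero N] : GL (Fin 2) ℝ :=
  Matrix.GeneralLinearGroup.mkOfDetNeZero !![0, -1; (N : ℝ), 0] (by
    rw [Matrix.det_fin_two_of]
    simp [NeZero.ne N])

theorem val_frickeGL [NeZero N] :
    ((frickeGL N : GL (Fin 2) ℝ) : Matrix (Fin 2) (Fin 2) ℝ) = !![0, -1; (N : ℝ), 0] := rfl

variable {N}

theorem conj_frickeGL_eq_iff [NeZero N] {g h : GL (Fin 2) ℝ} :
    MulAut.conj (frickeGL N) g = h ↔ frickeGL N * g = h * frickeGL N := by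
  rw [MulAut.conj_apply, mul_inv_eq_iff_eq_mul]

theorem conj_frickeGL_gamma0GL [NeZero N] (γ : Gamma0 N) :
    MulAut.conj (frickeGL N) (gamma0GL N γ) = gamma0GL N (frickeConj N γ) := by
  rw [conj_frickeGL_eq_iff]
  obtain ⟨c, hc⟩ := dvd_lowerLeft N γ
  ext i j
  fin_cases i <;> fin_cases j <;>
    simp [val_frickeGL, frickeConj_coe, frickeMat, Matrix.mul_apply, Fin.sum_univ_two, hc,
      Int.mul_ediv_cancel_left _ (natCast_ne_zero' N)] <;> ring

/-- The lower unitriangular element `(1, 0; N j, 1)` of `Γ₀(N)`. -/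
def lowerUni (N : ℕ) (j : ℤ) : Gamma0 N :=
  ⟨⟨!![1, 0; (N : ℤ) * j, 1], by simp⟩, FLTA.Periods.mem_Gamma0_of_dvd (by simp)⟩

/-- The matrix of an element of `Γ₀(N)`. -/
abbrev gmat (γ : Gamma0 N) : Matrix (Fin 2) (Fin 2) ℤ :=
  ((γ : SL(2, ℤ)) : Matrix (Fin 2) (Fin 2) ℤ)

theorem gmat_mul (γ δ : Gamma0 N) : gmat (γ * δ) = gmat γ * gmat δ := rfl

theorem gmat_inv (γ : Gamma0 N) : gmat γ⁻¹ = (gmat γ).adjugate := rfl

theorem gmat_lowerUni (N : ℕ) (j : ℤ) : gmat (lowerUni N j) = !![1, 0; (N : ℤ) * j, 1] := rfl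

theorem val_gamma0GL (γ : Gamma0 N) :
    ((gamma0GL N γ : GL (Fin 2) ℝ) : Matrix (Fin 2) (Fin 2) ℝ) =
      (gmat γ).map (fun x : ℤ => (x : ℝ)) := by
  ext i j
  exact gamma0GL_apply γ i j

/-- Representatives of `α_* β^*` at `p`, with their decomposition through `diag(p, 1)`. -/
structure NormReps (N p : ℕ) [NeZero N] (ι : Type) [Fintype ι] where
  reps : HeckeReps (gamma0GL N) ι
  gam : ι → Gamma0 N
  left : ι → Gamma0 N
  rep_eq : ∀ i, reps.rep i =
    gamma0GL N (left i) * ModularForm.heckeDiagMatrix p * gamma0GL N (gam i)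
  /-- the `gam i` lie in distinct cosets of `Γ₀(N p)` -/
  coset_inj : ∀ i j, ((N * p : ℕ) : ℤ) ∣ gmat (gam i * (gam j)⁻¹) 1 0 → i = j
  /-- every coset of `Γ₀(N p)` occurs -/
  coset_surj : ∀ γ : Gamma0 N, ∃ i, ((N * p : ℕ) : ℤ) ∣ gmat (γ * (gam i)⁻¹) 1 0
  transfer_eq : ∀ (A : Type) [AddCommGroup A] (φ : Additive (Gamma0 N) →+ A),
    heckeHom ℤ N p (frickePull N A φ) = frickePull N A (reps.transferHom φ)

variable [NeZero N] {p : ℕ}

theorem frickePull_transferHom_map {ι : Type} [Fintype ι] (R : HeckeReps (gamma0GL N) ι)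
    {A : Type} [AddCommGroup A] (φ : Additive (Gamma0 N) →+ A) :
    frickePull N A ((R.map (frickeConj N) (MulAut.conj (frickeGL N))
      conj_frickeGL_gamma0GL).transferHom φ) = R.transferHom (frickePull N A φ) := by
  rw [FLTA.Periods.HeckeReps.transferHom_map]
  refine AddMonoidHom.ext fun γ => ?_
  obtain ⟨γ, rfl⟩ := Additive.ofMul.surjective γ
  show R.transferHom _ (Additive.ofMul ((frickeConj N).symm (frickeConj N γ))) = _
  rw [MulEquiv.symm_apply_apply]
  rfl

theorem gmat_mul_lowerUni_inv (γ : Gamma0 N) (j : ℤ) :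
    gmat (γ * (lowerUni N j)⁻¹) 1 0 = gmat γ 1 0 - (N : ℤ) * j * gmat γ 1 1 := by
  rw [gmat_mul, gmat_inv, gmat_lowerUni, Matrix.adjugate_fin_two, Matrix.mul_apply,
    Fin.sum_univ_two]
  simp
  ring

theorem dvd_of_mul_dvd {k : ℤ} (h : ((N * p : ℕ) : ℤ) ∣ (N : ℤ) * k) : (p : ℤ) ∣ k := by
  push_cast at h
  exact (mul_dvd_mul_iff_left (natCast_ne_zero' N)).1 h

theorem zmod_val_inj [NeZero p] {i j : ZMod p}
    (h : (p : ℤ) ∣ (i.val : ℤ) - (j.val : ℤ)) : i = j := by
  rw [← ZMod.intCast_zmod_eq_zero_iff_dvd] at h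
  push_cast at h
  rw [ZMod.natCast_zmod_val, ZMod.natCast_zmod_val] at h
  exact sub_eq_zero.1 h

theorem exists_lowerUni_dvd [hp : Fact p.Prime] (γ : Gamma0 N)
    (hd : ¬ (p : ℤ) ∣ gmat γ 1 1) :
    ∃ j : ZMod p, ((N * p : ℕ) : ℤ) ∣ gmat (γ * (lowerUni N (-(j.val : ℤ)))⁻¹) 1 0 := by
  haveI : NeZero p := ⟨hp.out.ne_zero⟩
  obtain ⟨c, hc⟩ := dvd_lowerLeft N γ
  have hd0 : ((gmat γ 1 1 : ℤ) : ZMod p) ≠ 0 := fun h =>
    hd ((ZMod.intCast_zmod_eq_zero_iff_dvd _ _).1 h)
  set j : ZMod p := -(c : ZMod p) / ((gmat γ 1 1 : ℤ) : ZMod p) with hj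
  refine ⟨j, ?_⟩
  rw [gmat_mul_lowerUni_inv, gmat, hc, Nat.cast_mul]
  have : (p : ℤ) ∣ c + (j.val : ℤ) * gmat γ 1 1 := by
    rw [← ZMod.intCast_zmod_eq_zero_iff_dvd]
    push_cast
    rw [ZMod.natCast_zmod_val, hj, div_mul_cancel₀ _ hd0]
    ring
  obtain ⟨e, he⟩ := this
  refine ⟨e, ?_⟩
  simp only [gmat] at he ⊢
  linear_combination (N : ℤ) * he

theorem conj_frickeGL_heckeMatrix (hp : p ≠ 0) (j : ℕ) :
    MulAut.conj (frickeGL N) (ModularForm.heckeMatrix p j) =
      gamma0GL N 1 * ModularForm.heckeDiagMatrix p * gamma0GL N (lowerUni N (-(j : ℤ))) := by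
  rw [conj_frickeGL_eq_iff, map_one, one_mul]
  ext a b
  fin_cases a <;> fin_cases b <;>
    simp [val_frickeGL, gmat_lowerUni, hp, Matrix.mul_apply, Matrix.vecMul, dotProduct,
      Matrix.map_apply, Fin.sum_univ_two]

/-- The representatives for `p ∣ N`. -/
def normRepsU [hp : Fact p.Prime] [NeZero p] (hpN : p ∣ N) : NormReps N p (ZMod p) where
  reps := (repsU hpN).map (frickeConj N) (MulAut.conj (frickeGL N)) conj_frickeGL_gamma0GL
  gam j := lowerUni N (-(j.val : ℤ))
  left _ := 1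
  rep_eq j := conj_frickeGL_heckeMatrix hp.out.ne_zero j.val
  coset_inj i j h := by
    rw [gmat_mul_lowerUni_inv] at h
    refine zmod_val_inj ?_
    simp [gmat_lowerUni, -ZMod.natCast_val] at h
    obtain ⟨e, he⟩ := h
    exact ⟨-e, mul_left_cancel₀ (natCast_ne_zero' N) (by linear_combination -he)⟩
  coset_surj γ := exists_lowerUni_dvd γ fun hd => by
    obtain ⟨c, hc⟩ := dvd_lowerLeft N γ
    have hdet := (γ : SL(2, ℤ)).det_coe
    rw [Matrix.det_fin_two, hc] at hdet
    have h1 : (p : ℤ) ∣ 1 := by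
      rw [← hdet]
      exact dvd_sub (hd.mul_left _)
        ((((Int.natCast_dvd_natCast.2 hpN).mul_right c)).mul_left _)
    exact hp.out.one_lt.ne' (Nat.dvd_one.1 (by exact_mod_cast h1))
  transfer_eq A _ φ := by
    rw [FLTA.Periods.heckeHom_of_dvd ℤ hpN, frickePull_transferHom_map]
    rfl

section NotDvd

/-- Bezout coefficients for `p` and `N`. -/
theorem exists_bezout [hp : Fact p.Prime] (hpN : ¬ p ∣ N) :
    ∃ uv : ℤ × ℤ, uv.1 * p + uv.2 * N = 1 := by
  obtain ⟨u, v, h⟩ := Nat.isCoprime_iff_coprime.2 ((hp.out.coprime_iff_not_dvd).2 hpN)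
  exact ⟨(u, v), h⟩

variable [hp : Fact p.Prime] (hpN : ¬ p ∣ N)

/-- The element of `Γ₀(N)` attached to the coset of `∞`. -/
def gamInf : Gamma0 N :=
  ⟨⟨!![1, -(exists_bezout hpN).choose.2; (N : ℤ), (p : ℤ) * (exists_bezout hpN).choose.1], by
      rw [Matrix.det_fin_two_of]
      linear_combination (exists_bezout hpN).choose_spec⟩,
    FLTA.Periods.mem_Gamma0_of_dvd (by simp)⟩

/-- The left factor attached to the coset of `∞`. -/
def leftInf : Gamma0 N :=
  ⟨⟨!![(exists_bezout hpN).choose.1, (exists_bezout hpN).choose.2; -(N : ℤ), (p : ℤ)], by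
      rw [Matrix.det_fin_two_of]
      linear_combination (exists_bezout hpN).choose_spec⟩,
    FLTA.Periods.mem_Gamma0_of_dvd (by simp)⟩

theorem gmat_gamInf : gmat (gamInf hpN) =
    !![1, -(exists_bezout hpN).choose.2; (N : ℤ), (p : ℤ) * (exists_bezout hpN).choose.1] := rfl

theorem conj_frickeGL_diag :
    MulAut.conj (frickeGL N) (ModularForm.heckeDiagMatrix p) =
      gamma0GL N (leftInf hpN) * ModularForm.heckeDiagMatrix p * gamma0GL N (gamInf hpN) := by
  have hp0 : p ≠ 0 := hp.out.ne_zero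
  have hspec := congrArg (Int.cast : ℤ → ℝ) (exists_bezout hpN).choose_spec
  push_cast at hspec
  rw [conj_frickeGL_eq_iff]
  ext a b
  simp only [Units.val_mul, val_gamma0GL]
  fin_cases a <;> fin_cases b <;>
    simp [val_frickeGL, gmat, leftInf, gamInf, hp0, Matrix.mul_apply,
      Matrix.map_apply, Fin.sum_univ_two]
  all_goals
    first
      | linear_combination (0 : ℝ) * hspec
      | (left; linear_combination (0 : ℝ) * hspec)
      | linear_combination hspec
      | linear_combination -hspec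
      | linear_combination (N : ℝ) * hspec
      | linear_combination -(N : ℝ) * hspec
      | linear_combination (p : ℝ) * hspec
      | linear_combination -(p : ℝ) * hspec
      | linear_combination (N : ℝ) * (p : ℝ) * hspec
      | linear_combination -(N : ℝ) * (p : ℝ) * hspec

theorem gamInf_mul_lowerUni (j : ℤ) :
    ¬ ((N * p : ℕ) : ℤ) ∣ gmat (gamInf hpN * (lowerUni N j)⁻¹) 1 0 := by
  intro h
  rw [gmat_mul_lowerUni_inv] at h
  have h' : (p : ℤ) ∣ 1 - j * ((p : ℤ) * (exists_bezout hpN).choose.1) := by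
    refine dvd_of_mul_dvd (N := N) ?_
    convert h using 1
    simp [gmat_gamInf]
    ring
  have h1 : (p : ℤ) ∣ 1 := (dvd_sub_left ((dvd_mul_right _ _).mul_left j)).1 h'
  exact hp.out.one_lt.ne' (Nat.dvd_one.1 (by exact_mod_cast h1))

theorem lowerUni_mul_gamInf (j : ℤ) :
    ¬ ((N * p : ℕ) : ℤ) ∣ gmat (lowerUni N j * (gamInf hpN)⁻¹) 1 0 := by
  intro h
  refine gamInf_mul_lowerUni hpN j ?_
  rw [show gamInf hpN * (lowerUni N j)⁻¹ = (lowerUni N j * (gamInf hpN)⁻¹)⁻¹ by group,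
    gmat_inv, Matrix.adjugate_fin_two]
  simpa using h

/-- The representatives for `p ∤ N`. -/
def normRepsT [NeZero p] : NormReps N p (OnePoint (ZMod p)) where
  reps := (repsT hpN).map (frickeConj N) (MulAut.conj (frickeGL N)) conj_frickeGL_gamma0GL
  gam x := x.elim (gamInf hpN) fun j => lowerUni N (-(j.val : ℤ))
  left x := x.elim (leftInf hpN) fun _ => 1
  rep_eq x := by
    induction x using OnePoint.rec with
    | infty => exact conj_frickeGL_diag hpN
    | coe j => exact conj_frickeGL_heckeMatrix hp.out.ne_zero j.val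
  coset_inj x y h := by
    induction x using OnePoint.rec with
    | infty =>
      induction y using OnePoint.rec with
      | infty => rfl
      | coe j => exact absurd h (gamInf_mul_lowerUni hpN _)
    | coe i =>
      induction y using OnePoint.rec with
      | infty => exact absurd h (lowerUni_mul_gamInf hpN _)
      | coe j =>
        replace h : ((N * p : ℕ) : ℤ) ∣
            gmat (lowerUni N (-(i.val : ℤ)) * (lowerUni N (-(j.val : ℤ)))⁻¹) 1 0 := h
        rw [gmat_mul_lowerUni_inv] at h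
        refine congrArg _ (zmod_val_inj ?_)
        simp [gmat_lowerUni, -ZMod.natCast_val] at h
        obtain ⟨e, he⟩ := h
        exact ⟨-e, mul_left_cancel₀ (natCast_ne_zero' N) (by linear_combination -he)⟩
  coset_surj γ := by
    by_cases hd : (p : ℤ) ∣ gmat γ 1 1
    · refine ⟨∞, ?_⟩
      obtain ⟨c, hc⟩ := dvd_lowerLeft N γ
      obtain ⟨e, he⟩ := hd
      show ((N * p : ℕ) : ℤ) ∣ gmat (γ * (gamInf hpN)⁻¹) 1 0
      refine ⟨c * (exists_bezout hpN).choose.1 - e, ?_⟩
      rw [gmat_mul, gmat_inv, gmat_gamInf, Matrix.adjugate_fin_two, Matrix.mul_apply,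
        Fin.sum_univ_two, he, show gmat γ 1 0 = (N : ℤ) * c from hc]
      simp
      ring
    · obtain ⟨j, hj⟩ := exists_lowerUni_dvd γ hd
      exact ⟨j, hj⟩
  transfer_eq A _ φ := by
    rw [FLTA.Periods.heckeHom_of_not_dvd ℤ hp.out hpN, frickePull_transferHom_map]
    rfl

end NotDvd

/-- Representatives exist for every prime. -/
theorem exists_normReps (N p : ℕ) [NeZero N] (hp : p.Prime) :
    ∃ (ι : Type) (_ : Fintype ι) (_ : Nonempty ι), Nonempty (NormReps N p ι) := by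
  haveI := Fact.mk hp
  haveI : NeZero p := ⟨hp.ne_zero⟩
  by_cases h : p ∣ N
  · exact ⟨ZMod p, inferInstance, inferInstance, ⟨normRepsU h⟩⟩
  · exact ⟨OnePoint (ZMod p), inferInstance, inferInstance, ⟨normRepsT h⟩⟩

end FLTA.Kummer
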