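/-
Norms as products over embeddings into an arbitrary field.
-/
import Mathlib.RingTheory.Norm.Transitivity
import Mathlib.FieldTheory.IsAlgClosed.AlgebraicClosure
import Mathlib.FieldTheory.PrimitiveElement

set_option autoImplicit false

noncomputable section

open scoped Classical

namespace FLTA.Kummer

/-- If a separable extension `F'/F` of degree `d` has `d` distinct maps to a field `M` extending a
given map `g` of `F`, the norm is sent to the product of the images. -/
theorem norm_eq_prod_of_embeddings {F F' M : Type*} [Field F] [Field F'] [Field M] [Algebra F F']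
    [Algebra.IsSeparable F F'] {ι : Type*} [Fintype ι] [Nonempty ι] (g : F →+* M)
    (φ : ι → F' →+* M) (hφ : ∀ i, (φ i).comp (algebraMap F F') = g)
    (hinj : Function.Injective φ) (hcard : Fintype.card ι = Module.finrank F F') (x : F') :
    g (Algebra.norm F x) = ∏ i, φ i x := by
  haveI : Module.Finite F F' := by
    refine Module.finite_of_finrank_pos ?_
    rw [← hcard]
    exact Fintype.card_pos
  let E := AlgebraicClosure M
  let k : M →+* E := algebraMap M E
  letI : Algebra F E := (k.comp g).toAlgebra
  let ψ : ι → (F' →ₐ[F] E) := fun i =>
    { k.comp (φ i) with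
      commutes' := fun a => congrArg k (RingHom.congr_fun (hφ i) a) }
  have hψ : Function.Injective ψ := by
    intro i j hij
    refine hinj (RingHom.ext fun y => k.injective ?_)
    exact DFunLike.congr_fun hij y
  have hbij : Function.Bijective ψ :=
    (Fintype.bijective_iff_injective_and_card ψ).2 ⟨hψ, by rw [hcard, AlgHom.card F F' E]⟩
  apply k.injective
  show algebraMap F E (Algebra.norm F x) = _
  rw [Algebra.norm_eq_prod_embeddings F E x, ← Fintype.prod_equiv (Equiv.ofBijective ψ hbij)
    (fun i => ψ i x) (fun σ => σ x) (fun i => rfl), map_prod]
  rfl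

end FLTA.Kummer
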