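/-
The norm along `α` of a pullback along `β`, as a product of translates on the upper half plane.
-/
import Fermat.Agent.Bridge.Degree
import Fermat.Agent.Kummer.HeckeReps
import Fermat.Agent.Kummer.NormEmb
import Mathlib.Analysis.SpecialFunctions.Complex.CircleAddChar
import Fermat.Prelude.Def_ModularCurve_HeckeOperator

set_option autoImplicit false
set_option linter.style.haveILetI false
set_option linter.unusedSectionVars false

noncomputable section

open UpperHalfPlane hiding I
open CongruenceSubgroup ModularCurve IntermediateField AlgebraicCurve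
open scoped MatrixGroups
open FLTA.Bridge

namespace FLTA.Kummer

/-- An element of `SL(2, ℤ)` in `GL(2, ℝ)⁺`. -/
abbrev slPos (γ : SL(2, ℤ)) : GL(2, ℝ)⁺ :=
  Matrix.SpecialLinearGroup.toGLPos (Matrix.SpecialLinearGroup.map (Int.castRingHom ℝ) γ)

theorem coe_slPos (γ : SL(2, ℤ)) :
    ((slPos γ : GL(2, ℝ)⁺) : GL (Fin 2) ℝ) = Matrix.SpecialLinearGroup.mapGL ℝ γ := rfl

theorem coe_slPos_smul (γ : SL(2, ℤ)) (τ : ℍ) :
    ((slPos γ : GL(2, ℝ)⁺) : GL (Fin 2) ℝ) • τ = γ • τ := rfl

/-- `diag(p, 1)` in `GL(2, ℝ)⁺`. -/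
def diagPos (p : ℕ) : GL(2, ℝ)⁺ :=
  ⟨ModularForm.heckeDiagMatrix p, ModularForm.det_heckeDiagMatrix_pos p⟩

theorem coe_diagPos_smul (p : ℕ) [NeZero p] (τ : ℍ) :
    ((diagPos p : GL(2, ℝ)⁺) : GL (Fin 2) ℝ) • τ = scaleTau p τ :=
  UpperHalfPlane.ext
    ((ModularForm.coe_heckeDiagMatrix_smul (NeZero.ne p) τ).trans (coe_scaleTau p τ).symm)

/-- Coefficientwise maps commute with `q ↦ q ^ n`. -/
theorem coeffMap_qExpand_comm {R S : Type*} [CommRing R] [CommRing S] (f : R →+* S) (n : ℕ)
    [NeZero n] (x : LaurentSeries R) : coeffMap f (qExpand R n x) = qExpand S n (coeffMap f x) := by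
  ext k
  by_cases hk : (n : ℤ) ∣ k
  · obtain ⟨m, rfl⟩ := hk
    rw [coeffMap_coeff, qExpand_coeff_mul, qExpand_coeff_mul, coeffMap_coeff]
  · rw [coeffMap_coeff, qExpand_coeff_of_not_dvd n _ hk, qExpand_coeff_of_not_dvd n _ hk, map_zero]

theorem addChar_sum {A M κ : Type*} [AddCommMonoid A] [CommMonoid M] (ψ : AddChar A M)
    (s : Finset κ) (f : κ → A) : ψ (∑ i ∈ s, f i) = ∏ i ∈ s, ψ (f i) := by
  classical
  induction s using Finset.induction_on with
  | empty => simp
  | insert a t ha ih => rw [Finset.sum_insert ha, Finset.prod_insert ha, AddChar.map_add_eq_mul, ih]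

/-- Degrees in a tower `K(x) ⊆ F ⊆ F'`. -/
theorem finrank_adjoin_mul_finrankAlong {K F F' : Type*} [Field K] [Field F] [Field F']
    [Algebra K F] [Algebra K F'] (φ : F →ₐ[K] F') (x : F) :
    Module.finrank K⟮x⟯ F * finrankAlong K φ = Module.finrank K⟮φ x⟯ F' := by
  letI := algebraAlong φ
  haveI : IsScalarTower K F F' := isScalarTower_along φ
  show Module.finrank K⟮x⟯ F * Module.finrank F F' = _
  rw [Module.finrank_mul_finrank]
  have hmap : K⟮x⟯.map φ = K⟮φ x⟯ := by rw [IntermediateField.adjoin_map, Set.image_singleton]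
  refine Algebra.finrank_eq_of_equiv_equiv
    ((IntermediateField.equivMap K⟮x⟯ φ).trans (IntermediateField.equivOfEq hmap)).toRingEquiv
    (RingEquiv.refl F') (RingHom.ext fun a => ?_)
  rfl

variable {N p : ℕ} [NeZero N] [NeZero p]

section Reps

variable {ι : Type} [Fintype ι] (R : NormReps N p ι)

/-- A representative in `GL(2, ℝ)⁺`. -/
def repPos (i : ι) : GL(2, ℝ)⁺ :=
  slPos (R.left i : SL(2, ℤ)) * diagPos p * slPos (R.gam i : SL(2, ℤ))

theorem coe_repPos (i : ι) : ((repPos R i : GL(2, ℝ)⁺) : GL (Fin 2) ℝ) = R.reps.rep i := by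
  rw [R.rep_eq]
  rfl

theorem repPos_mul (γ : Gamma0 N) (i : ι) :
    repPos R i * slPos (γ : SL(2, ℤ)) =
      slPos (R.reps.cocyc γ i : SL(2, ℤ)) * repPos R (R.reps.perm γ i) := by
  apply Subtype.ext
  rw [Subgroup.coe_mul, Subgroup.coe_mul, coe_repPos, coe_repPos]
  exact R.reps.rep_mul γ i

/-- The index of `Γ₀(N p)` is `card ι` times that of `Γ₀(N)`. -/
theorem index_Gamma0_mul (R : NormReps N p ι) :
    (Gamma0 (N * p)).index = Fintype.card ι * (Gamma0 N).index := by
  classical
  have hle : Gamma0 (N * p) ≤ Gamma0 N := by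
    intro g hg
    rw [Gamma0_mem, ZMod.intCast_zmod_eq_zero_iff_dvd] at hg ⊢
    exact (Int.natCast_dvd_natCast.2 (dvd_mul_right N p)).trans hg
  rw [← Subgroup.relIndex_mul_index hle]
  congr 1
  have hiff : ∀ x y : Gamma0 N,
      (QuotientGroup.mk x : Gamma0 N ⧸ (Gamma0 (N * p)).subgroupOf (Gamma0 N)) =
        QuotientGroup.mk y ↔ ((N * p : ℕ) : ℤ) ∣ gmat (x⁻¹ * y) 1 0 := by
    intro x y
    rw [QuotientGroup.eq, Subgroup.mem_subgroupOf, Gamma0_mem,
      ZMod.intCast_zmod_eq_zero_iff_dvd]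
  have hbij : Function.Bijective fun i =>
      (QuotientGroup.mk (R.gam i)⁻¹ : Gamma0 N ⧸ (Gamma0 (N * p)).subgroupOf (Gamma0 N)) := by
    constructor
    · intro i j h
      have h' := (hiff _ _).1 h
      rw [inv_inv] at h'
      exact R.coset_inj i j h'
    · intro q
      induction q using QuotientGroup.induction_on with
      | H γ =>
        obtain ⟨i, hi⟩ := R.coset_surj γ⁻¹
        exact ⟨i, ((hiff γ _).2 hi).symm⟩
  rw [Subgroup.relIndex, Subgroup.index, ← Nat.card_eq_of_bijective _ hbij, Nat.card_eq_fintype_card]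

end Reps

variable {L : Type*} [Field L] [Algebra ℚ L] (ι₀ : L →+* ℂ)

local notation "FN" => laurentBaseChange L (modularFunctionFieldFull N)
local notation "FNp" => laurentBaseChange L (modularFunctionFieldFull (N * p))

theorem evMero_heckeAlphaBar (x : FN) :
    evMero (N * p) ι₀ (heckeAlphaBar L N p x) = evMero N ι₀ x := by
  obtain ⟨A, B, hB, h⟩ := exists_rep N ι₀ x
  set A' : ModHol (N * p) := Subalgebra.inclusion (modHol_mono (dvd_mul_right N p)) A with hA'
  set B' : ModHol (N * p) := Subalgebra.inclusion (modHol_mono (dvd_mul_right N p)) B with hB'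
  have hB'0 : B' ≠ 0 := fun h0 => hB (Subalgebra.inclusion_injective _ (by
    rw [← hB', h0, map_zero]))
  rw [evMero_eq_of_rep N ι₀ hB h,
    evMero_eq_of_rep (N * p) ι₀ (A := A') hB'0 (by rw [coe_heckeAlphaBar]; exact h)]
  rfl

theorem evMero_heckeBetaBar (x : FN) :
    evMero (N * p) ι₀ (heckeBetaBar L N p x) = meroSmul (diagPos p) (evMero N ι₀ x) := by
  obtain ⟨A, B, hB, h⟩ := exists_rep N ι₀ x
  set A' : ModHol (N * p) := ⟨_, comp_scaleTau_mem_modHol p A.2⟩ with hA'
  set B' : ModHol (N * p) := ⟨_, comp_scaleTau_mem_modHol p B.2⟩ with hB'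
  have hq : qexp (N * p) B' = qExpand ℂ p (qexp N B) := qexp_scale N B
  have hB'0 : B' ≠ 0 := fun h0 => hB (qexp_injective N (qExpand_injective p (by
    rw [← hq, h0, map_zero, map_zero, map_zero])))
  have hrep : coeffMap ι₀ (heckeBetaBar L N p x : LaurentSeries L) * qexp (N * p) B' =
      qexp (N * p) A' := by
    rw [coe_heckeBetaBar, coeffMap_qExpand_comm, hq, qexp_scale N A, ← map_mul, h]
  rw [evMero_eq_of_rep N ι₀ hB h, evMero_eq_of_rep (N * p) ι₀ hB'0 hrep, map_div₀,
    meroSmul_algebraMap, meroSmul_algebraMap]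
  congr 2 <;>
    exact Subtype.ext (funext fun τ => by rw [coe_holSmulEquiv, coe_diagPos_smul]; rfl)

variable {ι : Type} [Fintype ι] (R : NormReps N p ι)

/-- The embeddings of the function field of level `N p` over that of level `N`. -/
def embOf (i : ι) : FNp →+* Mero :=
  (meroSmul (slPos (R.gam i : SL(2, ℤ)))).toRingEquiv.toRingHom.comp (evMero (N * p) ι₀)

theorem embOf_comp (i : ι) :
    (embOf ι₀ R i).comp (heckeAlphaBar L N p).toRingHom = evMero N ι₀ :=
  RingHom.ext fun x =>
    (congrArg (meroSmul (slPos (R.gam i : SL(2, ℤ)))) (evMero_heckeAlphaBar ι₀ x)).trans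
      (meroSmul_evMero N ι₀ (R.gam i).2 x)

theorem embOf_injective : Function.Injective (embOf (L := L) ι₀ R) := by
  intro i j hij
  refine R.coset_inj i j ?_
  have h := RingHom.congr_fun hij (jElt (N * p) L (dvd_refl (N * p)))
  have h' : meroSmul (slPos (R.gam i : SL(2, ℤ)))
      (evMero (N * p) ι₀ (jElt (N * p) L (dvd_refl (N * p)))) =
      meroSmul (slPos (R.gam j : SL(2, ℤ)))
        (evMero (N * p) ι₀ (jElt (N * p) L (dvd_refl (N * p)))) := h
  rw [evMero_jElt, meroSmul_algebraMap, meroSmul_algebraMap] at h'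
  have h'' := IsFractionRing.injective Hol Mero h'
  have hmem := eq_of_jInv_scaleTau_smul_eq (N * p) fun τ =>
    congrArg (fun F : Hol => (F : ℍ → ℂ) τ) h''
  exact (ZMod.intCast_zmod_eq_zero_iff_dvd _ _).1 (Gamma0_mem.1 hmem)

include ι₀ R in
theorem finrankAlong_heckeAlphaBar :
    finrankAlong L (heckeAlphaBar L N p) = Fintype.card ι := by
  have hj : heckeAlphaBar L N p (jF N L) = jF (N * p) L := Subtype.ext (coe_heckeAlphaBar N p _)
  have htower := finrank_adjoin_mul_finrankAlong (heckeAlphaBar L N p) (jF N L)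
  rw [hj, finrank_adjoin_jF N L ι₀, finrank_adjoin_jF (N * p) L ι₀,
    ← index_Gamma0_eq_dedekindPsi, ← index_Gamma0_eq_dedekindPsi, index_Gamma0_mul R,
    mul_comm (Fintype.card ι)] at htower
  exact mul_left_cancel₀ Subgroup.index_ne_zero_of_finite htower

/-- The norm along `α` of a pullback along `β` is the product of translates by the
representatives. -/
theorem evMero_norm_heckeBetaBar [CharZero L] [Nonempty ι] (x : FN) :
    evMero N ι₀ (letI := algebraAlong (heckeAlphaBar L N p)
      Algebra.norm FN (heckeBetaBar L N p x)) =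
      ∏ i, meroSmul (repPos R i) (evMero N ι₀ x) := by
  letI := algebraAlong (heckeAlphaBar L N p)
  have hcard : Fintype.card ι = Module.finrank FN FNp := (finrankAlong_heckeAlphaBar ι₀ R).symm
  haveI : Module.Finite FN FNp :=
    Module.finite_of_finrank_pos (hcard ▸ Fintype.card_pos)
  haveI : CharZero FN := charZero_of_injective_algebraMap (algebraMap L FN).injective
  rw [norm_eq_prod_of_embeddings (evMero N ι₀) (embOf ι₀ R) (embOf_comp ι₀ R)
    (embOf_injective ι₀ R) hcard]
  refine Finset.prod_congr rfl fun i _ => ?_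
  rw [repPos, meroSmul_mul, meroSmul_mul, meroSmul_evMero N ι₀ (R.left i).2]
  exact congrArg (meroSmul (slPos (R.gam i : SL(2, ℤ)))) (evMero_heckeBetaBar ι₀ x)

/-- The translates of an element with a multiplier multiply to one whose multiplier is the
transfer. -/
theorem meroSmul_prod_rep {n : ℕ} [NeZero n] (χ : Additive (Gamma0 N) →+ ZMod n) {F : Mero}
    (hF : ∀ γ : Gamma0 N, meroSmul (slPos (γ : SL(2, ℤ))) F =
      algebraMap ℂ Mero (ZMod.stdAddChar (χ (Additive.ofMul γ))) * F) (γ : Gamma0 N) :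
    meroSmul (slPos (γ : SL(2, ℤ))) (∏ i, meroSmul (repPos R i) F) =
      algebraMap ℂ Mero (ZMod.stdAddChar (R.reps.transferHom χ (Additive.ofMul γ))) *
        ∏ i, meroSmul (repPos R i) F := by
  rw [map_prod]
  have h1 : ∀ i, meroSmul (slPos (γ : SL(2, ℤ))) (meroSmul (repPos R i) F) =
      algebraMap ℂ Mero (ZMod.stdAddChar (χ (Additive.ofMul (R.reps.cocyc γ i)))) *
        meroSmul (repPos R (R.reps.perm γ i)) F := fun i => by
    rw [← meroSmul_mul, repPos_mul, meroSmul_mul, hF, map_mul, AlgEquiv.commutes]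
  simp_rw [h1]
  rw [Finset.prod_mul_distrib, ← map_prod, FLTA.Periods.HeckeReps.transferHom_apply]
  congr 1
  · congr 1
    exact (addChar_sum ZMod.stdAddChar _ _).symm
  · exact Equiv.prod_comp (R.reps.permEquiv γ) fun i => meroSmul (repPos R i) F

end FLTA.Kummer
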