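/-
The Hecke correspondence on divisors `D` with `n • D = div f`, and on their Kummer characters.
-/
import Fermat.Agent.Kummer.HeckeNorm
import Fermat.Agent.Curves.BasicModular
import Fermat.Prelude.Def_ModularCurve_HeckeModule

set_option autoImplicit false
set_option linter.style.haveILetI false

noncomputable section

open CongruenceSubgroup ModularCurve AlgebraicCurve
open scoped MatrixGroups
open FLTA.Bridge

namespace FLTA.Kummer

section Generic

variable {K F F' : Type*} [Field K] [Field F] [Field F'] [Algebra K F] [Algebra K F']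
variable [HasPrincipalDivisors K F']

/-- The correspondence sends a divisor whose `n`-th multiple is `div f` to one whose `n`-th
multiple is the divisor of the norm of the pullback of `f`. -/
theorem correspondence_eq_ord (φ ψ : F →ₐ[K] F') (hφ : φ.toRingHom.IsIntegral)
    (hψ : ψ.toRingHom.IsIntegral) (hfin : FiniteAlong K ψ) (hN : NormFormulaAlong K ψ hfin)
    {n : ℕ} {D : Divisor K F} {f : F} (hf : f ≠ 0) (hD : ∀ v, (n : ℤ) * D v = v.ord f)
    (v : Place K F) :
    (n : ℤ) * Divisor.correspondence φ ψ hφ hψ D v =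
      v.ord (letI := algebraAlong ψ; Algebra.norm F (φ f)) := by
  have hpull : ∀ w, Divisor.pullbackAlong φ hφ ((n : ℤ) • D) w = w.ord (φ f) := fun w => by
    rw [Divisor.pullbackAlong_apply, Finsupp.smul_apply, smul_eq_mul, hD,
      ← Place.ord_restrictAlong]
  have h := hN (φ f) (by simpa using hf) _ hpull v
  rw [← h, Divisor.correspondence_apply]
  show _ = Divisor.pushforwardAlong ψ hψ (Divisor.pullbackAlong φ hφ ((n : ℤ) • D)) v
  rw [map_zsmul, map_zsmul, Finsupp.smul_apply, smul_eq_mul]

omit [HasPrincipalDivisors K F'] in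
theorem norm_along_ne_zero (ψ : F →ₐ[K] F') (hfin : FiniteAlong K ψ) {g : F'} (hg : g ≠ 0) :
    (letI := algebraAlong ψ; Algebra.norm F g) ≠ 0 := by
  letI := algebraAlong ψ
  haveI : Module.Finite F F' := hfin
  exact Algebra.norm_ne_zero_iff.2 hg

end Generic

variable {L : Type*} [Field L] [Algebra ℚ L] (N n : ℕ) [NeZero N] [NeZero n] (ι₀ : L →+* ℂ)

local notation "FN" => laurentBaseChange L (modularFunctionFieldFull N)

/-- `x = [D]` with `n • D = div f`, and some `n`-th root of `f` on the upper half plane transforms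
by the character `χ`. -/
def IsKummerChar (x : Pic0 L FN) (χ : Additive (Gamma0 N) →+ ZMod n) : Prop :=
  ∃ (D : Divisor.degZero (K := L) (F := FN)) (f : FN), Pic0.mk D = x ∧ f ≠ 0 ∧
    (∀ v : Place L FN, (n : ℤ) * (D : Divisor L FN) v = v.ord f) ∧
    ∃ F : Mero, F ^ n = evMero N ι₀ f ∧ ∀ γ : Gamma0 N, meroSmul (slPos (γ : SL(2, ℤ))) F =
      algebraMap ℂ Mero (ZMod.stdAddChar (χ (Additive.ofMul γ))) * F

variable {N n}

/-- The Hecke correspondence at a prime `p` acts on Kummer characters by the transfer through the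
representatives of `α_* β^*`. -/
theorem IsKummerChar.heckeOperatorAlong {p : ℕ} [NeZero p] {ι : Type} [Fintype ι] [Nonempty ι]
    (R : NormReps N p ι) {x : Pic0 L FN} {χ : Additive (Gamma0 N) →+ ZMod n}
    (h : IsKummerChar N n ι₀ x χ) :
    IsKummerChar N n ι₀ (ModularCurve.heckeOperatorAlong L N p x) (R.reps.transferHom χ) := by
  haveI : CharZero L := algebraRat.charZero L
  obtain ⟨hα, hβ, hP, hfin, hFI, hNF⟩ := FLTA.Curves.heckeInputsAlong N L p
  haveI := hP
  obtain ⟨D, f, rfl, hf, hD, F, hF, hFχ⟩ := h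
  rw [heckeOperatorAlong_eq hα hβ hFI hfin hNF]
  refine ⟨Pic0.degZeroCorrespondence (heckeBetaBar L N p) (heckeAlphaBar L N p) hβ hα hFI D,
    (letI := algebraAlong (heckeAlphaBar L N p)
    Algebra.norm FN (heckeBetaBar L N p f)), rfl, ?_,
    fun v => correspondence_eq_ord _ _ hβ hα hfin hNF hf hD v,
    ∏ i, meroSmul (repPos R i) F, ?_, meroSmul_prod_rep R χ hFχ⟩
  · exact norm_along_ne_zero (heckeAlphaBar L N p) hfin (by simpa using hf)
  · rw [evMero_norm_heckeBetaBar ι₀ R f, ← Finset.prod_pow]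
    exact Finset.prod_congr rfl fun i _ => by rw [← map_pow, hF]

/-- Equivariance of the Kummer character, composed with Fricke conjugation, for every prime. -/
theorem IsKummerChar.heckeOperatorBar {ℓ : Nat.Primes} {x : JZero N}
    {χ : Additive (Gamma0 N) →+ ZMod n}
    (h : IsKummerChar N n complexEmbedding.toRingHom x χ) :
    ∃ χ', IsKummerChar N n complexEmbedding.toRingHom (ModularCurve.heckeOperatorBar N ℓ x) χ' ∧
      frickePull N (ZMod n) χ' =
        FLTA.Periods.heckeHom ℤ N ℓ (frickePull N (ZMod n) χ) := by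
  haveI : NeZero (ℓ : ℕ) := ⟨ℓ.2.ne_zero⟩
  obtain ⟨ι, hι, hne, ⟨R⟩⟩ := exists_normReps N (ℓ : ℕ) ℓ.2
  exact ⟨_, h.heckeOperatorAlong complexEmbedding.toRingHom R, (R.transfer_eq _ χ).symm⟩

end FLTA.Kummer
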