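/-
Kummer comparison `J₀(N)[n](ℚ̄) ≃ homPar0 (Γ₀(N), ZMod n)`.

A torsion class `x = [D]`, `n • D = div f`, goes to the character `χ` of an `n`-th root `F` of the
meromorphic function `f` on `ℍ`, read in `ZMod n` through `ZMod.stdAddChar`, and composed with
Fricke conjugation so that `heckeOperatorBar` corresponds to the group Hecke operator for every
prime.
-/
import Mathlib.Data.ZMod.Basic
import Fermat.Prelude.Def_ModularCurve_HeckeModule
import Fermat.Prelude.Def_ModularCurve_PeriodHomPair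
import Fermat.Prelude.Def_GaloisRep_ComplexConjugation
import Fermat.Agent.Gamma0.Complex.Main
import Fermat.Agent.Kummer.Fricke
import Fermat.Agent.Periods.Hecke
import Fermat.Agent.Kummer.Equiv
import Fermat.Agent.Kummer.HeckeDivisor
import Fermat.Agent.Kummer.Conjugation

set_option autoImplicit false

noncomputable section

open AlgebraicCurve ModularCurve CongruenceSubgroup
open FLTA.Bridge (Mero evMero)
open FLTA.Gamma0 (homPar0 homPar0Map homRank)

namespace FLTA.Kummer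

/-- The torsion subgroup `J₀(N)[n](ℚ̄)`. -/
abbrev JTors (N n : ℕ) : Type _ :=
  ↥(Pic0.torsion (AlgebraicClosure ℚ) (modularFunctionFieldBar N) n)

theorem mem_torsion_of_dvd {N n m : ℕ} (h : n ∣ m) {x : JZero N}
    (hx : x ∈ Pic0.torsion (AlgebraicClosure ℚ) (modularFunctionFieldBar N) n) :
    x ∈ Pic0.torsion (AlgebraicClosure ℚ) (modularFunctionFieldBar N) m := by
  obtain ⟨d, rfl⟩ := h
  rw [Pic0.mem_torsion] at hx ⊢
  rw [Nat.cast_mul, mul_comm, mul_smul, hx, smul_zero]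

theorem nsmul_mem_torsion {N n m d : ℕ} (h : n * d = m) {x : JZero N}
    (hx : x ∈ Pic0.torsion (AlgebraicClosure ℚ) (modularFunctionFieldBar N) m) :
    d • x ∈ Pic0.torsion (AlgebraicClosure ℚ) (modularFunctionFieldBar N) n := by
  subst h
  rw [Pic0.mem_torsion] at hx ⊢
  rw [← Nat.cast_smul_eq_nsmul ℤ d x, smul_smul, ← Nat.cast_mul, hx]

/-- `ZMod n →+ ZMod (n * d)`, multiplication by `d`. -/
def mulEmb {n m : ℕ} (d : ℕ) (h : n * d = m) : ZMod n →+ ZMod m :=
  ZMod.lift n ⟨zmultiplesHom (ZMod m) (d : ZMod m), by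
    subst h
    simp only [zmultiplesHom_apply, natCast_zsmul, nsmul_eq_mul]
    rw [← Nat.cast_mul, ZMod.natCast_self]⟩

theorem mulEmb_intCast {n m : ℕ} (d : ℕ) (h : n * d = m) (j : ℤ) :
    mulEmb d h (j : ZMod n) = (j : ZMod m) * (d : ZMod m) := by
  simp [mulEmb]

/-- Reduction `ZMod (n * d) →+ ZMod n`. -/
def redHom {n m d : ℕ} (h : n * d = m) : ZMod m →+ ZMod n :=
  (ZMod.castHom (Dvd.intro d h) (ZMod n)).toAddMonoidHom

theorem stdAddChar_mulEmb {n m : ℕ} [NeZero n] [NeZero m] (d : ℕ) (h : n * d = m) (a : ZMod n) :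
    ZMod.stdAddChar (mulEmb d h a) = ZMod.stdAddChar a := by
  obtain ⟨j, rfl⟩ := ZMod.intCast_surjective a
  rw [mulEmb_intCast, show (j : ZMod m) * (d : ZMod m) = ((j * (d : ℤ) : ℤ) : ZMod m) by push_cast; rfl,
    ZMod.stdAddChar_coe, ZMod.stdAddChar_coe]
  subst h
  have hn : (n : ℂ) ≠ 0 := Nat.cast_ne_zero.2 (NeZero.ne n)
  have hd : (d : ℂ) ≠ 0 := Nat.cast_ne_zero.2 fun h0 => NeZero.ne (n * d) (by rw [h0, mul_zero])
  congr 1
  push_cast
  field_simp

theorem stdAddChar_redHom {n m d : ℕ} [NeZero n] [NeZero m] (h : n * d = m) (a : ZMod m) :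
    ZMod.stdAddChar (redHom h a) = ZMod.stdAddChar a ^ d := by
  obtain ⟨j, rfl⟩ := ZMod.intCast_surjective a
  rw [show redHom h ((j : ℤ) : ZMod m) = (j : ZMod n) from map_intCast (ZMod.castHom (Dvd.intro d h) (ZMod n)) j,
    ZMod.stdAddChar_coe, ZMod.stdAddChar_coe, ← Complex.exp_nat_mul]
  subst h
  have hn : (n : ℂ) ≠ 0 := Nat.cast_ne_zero.2 (NeZero.ne n)
  have hd : (d : ℂ) ≠ 0 := Nat.cast_ne_zero.2 fun h0 => NeZero.ne (n * d) (by rw [h0, mul_zero])
  congr 1
  push_cast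
  field_simp

variable (N n : ℕ) [NeZero N] [NeZero n]

/-- The Kummer comparison. -/
def kummerEquiv : JTors N n ≃+ homPar0 ℤ (Gamma0 N) (ZMod n) := kummerTorsionEquiv N n

instance finite_jTors : Finite (JTors N n) :=
  Finite.of_equiv _ ((kummerEquiv N n).trans
    (FLTA.Gamma0.homPar0Equiv N ℤ (ZMod n)).toAddEquiv).toEquiv.symm

theorem natCard_jTors : Nat.card (JTors N n) = n ^ homRank N := by
  rw [Nat.card_congr ((kummerEquiv N n).trans
    (FLTA.Gamma0.homPar0Equiv N ℤ (ZMod n)).toAddEquiv).toEquiv]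
  simp

/-- Compatibility with the inclusion `J[n] → J[m]`, `m = n * d`. -/
theorem kummerEquiv_incl (m d : ℕ) [NeZero m] (h : n * d = m) (x : JTors N n) :
    kummerEquiv N m ⟨x.1, mem_torsion_of_dvd (Dvd.intro d h) x.2⟩
      = homPar0Map (Gamma0 N) (mulEmb d h) (kummerEquiv N n x) := by
  obtain ⟨f, F, χ, ⟨hf0, D, hD, hDf⟩, hF, hχ, hx⟩ := exists_rep_root x
  have hrep : TorsionRep m (x : JZero N) (f ^ d) := ⟨pow_ne_zero d hf0, D, hD, fun v => by
    rw [FLTA.Curves.ord_pow, ← hDf, ← h]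
    push_cast
    ring⟩
  have h1 := kummerTorsionEquiv_eq_of_root
    (x := ⟨x.1, mem_torsion_of_dvd (Dvd.intro d h) x.2⟩) hrep (c := 1) one_ne_zero (F := F)
    (χ := (mulEmb d h).comp χ)
    (by rw [map_one, one_mul, map_pow, ← hF, ← pow_mul, h])
    (fun γ => by rw [AddMonoidHom.comp_apply, stdAddChar_mulEmb]; exact hχ γ)
  refine Subtype.ext (h1.trans (AddMonoidHom.ext fun γ => ?_))
  show _ = mulEmb d h ((kummerTorsionEquiv N n x).1 γ)
  rw [hx]
  rfl

/-- Compatibility with multiplication by `d`, `J[m] → J[n]`, `m = n * d`. -/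
theorem kummerEquiv_nsmul (m d : ℕ) [NeZero m] (h : n * d = m) (x : JTors N m) :
    kummerEquiv N n ⟨d • x.1, nsmul_mem_torsion h x.2⟩
      = homPar0Map (Gamma0 N) (redHom h) (kummerEquiv N m x) := by
  obtain ⟨f, F, χ, ⟨hf0, D, hD, hDf⟩, hF, hχ, hx⟩ := exists_rep_root x
  have hrep : TorsionRep n (d • (x : JZero N)) f := ⟨hf0, d • D, by
    rw [← hD]; exact map_nsmul (QuotientAddGroup.mk' _) d D, fun v => by
    rw [AddSubgroup.coe_nsmul, Finsupp.smul_apply, ← hDf, nsmul_eq_mul, ← mul_assoc, ← h]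
    push_cast
    ring⟩
  have h1 := kummerTorsionEquiv_eq_of_root
    (x := ⟨d • x.1, nsmul_mem_torsion h x.2⟩) hrep (c := 1) one_ne_zero (F := F ^ d)
    (χ := (redHom h).comp χ)
    (by rw [map_one, one_mul, ← hF, ← pow_mul, mul_comm, h])
    (fun γ => by rw [AddMonoidHom.comp_apply, stdAddChar_redHom, map_pow, map_pow, ← mul_pow, hχ γ])
  refine Subtype.ext (h1.trans (AddMonoidHom.ext fun γ => ?_))
  show _ = redHom h ((kummerTorsionEquiv N m x).1 γ)
  rw [hx]
  rfl

/-- Complex conjugation is minus the involution of the period module. -/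
theorem kummerEquiv_complexConjugation (x : JTors N n) :
    (kummerEquiv N n (JZero.torsionGaloisRep N n complexConjugation x)).1
      = -(ModularCurve.Period.charInvolution N ℤ (ZMod n) (kummerEquiv N n x).1) :=
  kummerTorsionEquiv_complexConjugation x

/-- Equivariance for every prime: `heckeOperatorBar` is the group Hecke operator. -/
theorem kummerEquiv_heckeOperatorBar (ℓ : Nat.Primes) (x y : JTors N n)
    (h : (y : JZero N) = heckeOperatorBar N ℓ (x : JZero N)) :
    (kummerEquiv N n y).1 = FLTA.Periods.heckeHom ℤ N ℓ (kummerEquiv N n x).1 := by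
  obtain ⟨f, F, χ, ⟨hf0, D, hD, hDf⟩, hF, hχ, hx⟩ := exists_rep_root x
  have hK : IsKummerChar N n complexEmbedding.toRingHom (x : JZero N) χ :=
    ⟨D, f, hD, hf0, hDf, F, hF, hχ⟩
  obtain ⟨χ', ⟨D', f', hD', hf', hDf', F', hF', hχ'⟩, hcomm⟩ := hK.heckeOperatorBar (ℓ := ℓ)
  have hy := kummerTorsionEquiv_eq_of_root (x := y) (f := f')
    ⟨hf', D', hD'.trans h.symm, hDf'⟩ (c := 1) one_ne_zero (F := F') (χ := χ')
    (by rw [map_one, one_mul]; exact hF') hχ'
  show (kummerTorsionEquiv N n y).1 = FLTA.Periods.heckeHom ℤ N ℓ (kummerTorsionEquiv N n x).1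
  rw [hy, hx]
  exact hcomm

end FLTA.Kummer
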