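import Fermat.Agent.Igusa.Degree
import Fermat.Agent.Curves.BasicModular
import Fermat.Agent.Kummer.HeckeNorm

/-!
# The Fricke symmetry of the function field of `X₀(M)` and the degree along `β`

The Fricke symmetry conjugates the two degeneracy maps into each other, so they have the same
degree.
-/

set_option autoImplicit false

noncomputable section

open AlgebraicCurve ModularCurve IntermediateField

namespace FLTA.Kummer

local notation "Qb" => AlgebraicClosure ℚ

variable (M : ℕ) [NeZero M]

theorem jExp_mem_bar {d : ℕ} [NeZero d] (hd : d ∣ M) :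
    qExpand Qb d (jqModC Qb) ∈ modularFunctionFieldBar M := by
  show _ ∈ laurentBaseChange Qb (modularFunctionFieldFull M)
  rw [FLTA.Curves.laurentBaseChange_full_eq]
  exact jqModCd_mem_full Qb M hd

/-- The element `j (q ^ d)` of the level `M` field. -/
def jGen {d : ℕ} [NeZero d] (hd : d ∣ M) : modularFunctionFieldBar M :=
  ⟨qExpand Qb d (jqModC Qb), jExp_mem_bar M hd⟩

@[simp] theorem coe_jGen {d : ℕ} [NeZero d] (hd : d ∣ M) :
    (jGen M hd : LaurentSeries Qb) = qExpand Qb d (jqModC Qb) := rfl

/-- Algebra maps out of the level `M` field are determined on the `j (q ^ d)`. -/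
theorem bar_hom_ext {E : Type*} [Field E] [Algebra Qb E]
    {f g : modularFunctionFieldBar M →ₐ[Qb] E}
    (h : ∀ (d : ℕ) [NeZero d] (hd : d ∣ M), f (jGen M hd) = g (jGen M hd)) : f = g := by
  refine AlgHom.ext fun ⟨x, hx⟩ => ?_
  have hx' : x ∈ modularFunctionFieldFullC Qb M := by
    rwa [← FLTA.Curves.laurentBaseChange_full_eq]
  induction hx' using IntermediateField.adjoin_induction with
  | mem z hz =>
    obtain ⟨d, hd, hdM, rfl⟩ := hz
    exact h d hdM
  | algebraMap c => exact (f.commutes c).trans (g.commutes c).symm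
  | add y z hy hz ihy ihz =>
    have hy' : y ∈ modularFunctionFieldBar M := by
      show y ∈ laurentBaseChange Qb (modularFunctionFieldFull M)
      rwa [FLTA.Curves.laurentBaseChange_full_eq]
    have hz' : z ∈ modularFunctionFieldBar M := by
      show z ∈ laurentBaseChange Qb (modularFunctionFieldFull M)
      rwa [FLTA.Curves.laurentBaseChange_full_eq]
    have he : (⟨y + z, hx⟩ : modularFunctionFieldBar M) = ⟨y, hy'⟩ + ⟨z, hz'⟩ := rfl
    rw [he, map_add, map_add, ihy hy', ihz hz']
  | inv y hy ihy =>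
    have hy' : y ∈ modularFunctionFieldBar M := by
      show y ∈ laurentBaseChange Qb (modularFunctionFieldFull M)
      rwa [FLTA.Curves.laurentBaseChange_full_eq]
    have he : (⟨y⁻¹, hx⟩ : modularFunctionFieldBar M) = (⟨y, hy'⟩ : modularFunctionFieldBar M)⁻¹ :=
      rfl
    rw [he, map_inv₀, map_inv₀, ihy hy']
  | mul y z hy hz ihy ihz =>
    have hy' : y ∈ modularFunctionFieldBar M := by
      show y ∈ laurentBaseChange Qb (modularFunctionFieldFull M)
      rwa [FLTA.Curves.laurentBaseChange_full_eq]
    have hz' : z ∈ modularFunctionFieldBar M := by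
      show z ∈ laurentBaseChange Qb (modularFunctionFieldFull M)
      rwa [FLTA.Curves.laurentBaseChange_full_eq]
    have he : (⟨y * z, hx⟩ : modularFunctionFieldBar M) = ⟨y, hy'⟩ * ⟨z, hz'⟩ := rfl
    rw [he, map_mul, map_mul, ihy hy', ihz hz']

theorem exists_frickeBar :
    ∃ W : modularFunctionFieldBar M →ₐ[Qb] modularFunctionFieldBar M,
      ∀ (a b : ℕ) [NeZero a] [NeZero b] (h : a * b = M),
        W (jGen M (Dvd.intro b h)) = jGen M (Dvd.intro_left a h) := by
  obtain ⟨W, hW⟩ :=
    FLTA.Igusa.exists_fricke Qb M (Nat.cast_ne_zero.mpr (NeZero.ne M))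
  let e : modularFunctionFieldBar M ≃ₐ[Qb] modularFunctionFieldFullC Qb M :=
    IntermediateField.equivOfEq (FLTA.Curves.laurentBaseChange_full_eq M Qb)
  refine ⟨(e.symm.toAlgHom.comp W).comp e.toAlgHom, fun a b _ _ h => Subtype.ext ?_⟩
  exact hW a b h

/-- The Fricke symmetry of the level `M` field. -/
def frickeBar : modularFunctionFieldBar M →ₐ[Qb] modularFunctionFieldBar M :=
  (exists_frickeBar M).choose

theorem frickeBar_jGen {a b : ℕ} [NeZero a] [NeZero b] (h : a * b = M) :
    frickeBar M (jGen M (Dvd.intro b h)) = jGen M (Dvd.intro_left a h) :=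
  (exists_frickeBar M).choose_spec a b h

theorem frickeBar_comp_frickeBar :
    (frickeBar M).comp (frickeBar M) = AlgHom.id Qb _ := by
  refine bar_hom_ext M fun d _ hd => ?_
  obtain ⟨e, he⟩ := hd
  haveI : NeZero e := ⟨fun h0 => NeZero.ne M (by rw [he, h0, mul_zero])⟩
  show frickeBar M (frickeBar M (jGen M (Dvd.intro e he.symm))) = _
  rw [frickeBar_jGen M he.symm]
  exact frickeBar_jGen M (show e * d = M by rw [mul_comm, he])

/-- The Fricke symmetry as an automorphism. -/
def frickeBarEquiv : modularFunctionFieldBar M ≃ₐ[Qb] modularFunctionFieldBar M :=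
  AlgEquiv.ofAlgHom (frickeBar M) (frickeBar M) (frickeBar_comp_frickeBar M)
    (frickeBar_comp_frickeBar M)

variable (N p : ℕ) [NeZero N] [NeZero p]

theorem frickeBar_comp_alpha :
    (frickeBar (N * p)).comp (heckeAlphaBar Qb N p) =
      (heckeBetaBar Qb N p).comp (frickeBar N) := by
  refine bar_hom_ext N fun d _ hd => ?_
  obtain ⟨e, he⟩ := hd
  haveI : NeZero e := ⟨fun h0 => NeZero.ne N (by rw [he, h0, mul_zero])⟩
  show frickeBar (N * p) (heckeAlphaBar Qb N p (jGen N (Dvd.intro e he.symm))) =
    heckeBetaBar Qb N p (frickeBar N (jGen N (Dvd.intro e he.symm)))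
  have hd' : d * (e * p) = N * p := by rw [← mul_assoc, he]
  have hα : heckeAlphaBar Qb N p (jGen N (Dvd.intro e he.symm)) =
      jGen (N * p) (Dvd.intro (e * p) hd') := Subtype.ext (coe_heckeAlphaBar N p _)
  rw [hα, frickeBar_jGen (N * p) hd', frickeBar_jGen N he.symm]
  refine Subtype.ext ?_
  rw [coe_jGen, coe_heckeBetaBar, coe_jGen, qExpand_qExpand]
  exact qExpand_congr (mul_comm e p) _

/-- The two degeneracy maps have the same degree. -/
theorem finrankAlong_heckeBetaBar_eq :
    finrankAlong Qb (heckeBetaBar Qb N p) = finrankAlong Qb (heckeAlphaBar Qb N p) := by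
  letI : Algebra (modularFunctionFieldBar N) (modularFunctionFieldBar (N * p)) :=
    algebraAlong (heckeBetaBar Qb N p)
  refine (@Algebra.finrank_eq_of_equiv_equiv _ _ _ _ (algebraAlong (heckeAlphaBar Qb N p))
    _ _ _ _ (algebraAlong (heckeBetaBar Qb N p)) (frickeBarEquiv N).toRingEquiv
    (frickeBarEquiv (N * p)).toRingEquiv (RingHom.ext fun x => ?_)).symm
  exact (DFunLike.congr_fun (frickeBar_comp_alpha N p) x).symm

end FLTA.Kummer
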