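import Fermat.Agent.Kummer.HeckeNorm
import Fermat.Agent.Kummer.Equiv
import Fermat.Agent.Kummer.FrickeField
import Fermat.Agent.Carayol.Pushforward

/-!
# The two degeneracy pushforwards `J₀(N p) → J₀(N)` on Kummer characters

For `p ∣ N` the pushforwards `pushAlpha` and `pushBeta` kill a torsion class as soon as the corresponding traces of its
Kummer character vanish: the trace through `[1, j; 0, p]` for `α`, through `[1, 0; N j, 1]` for `β`.
-/

set_option autoImplicit false
set_option linter.style.haveILetI false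

noncomputable section

open CongruenceSubgroup ModularCurve AlgebraicCurve
open scoped MatrixGroups
open FLTA.Bridge
open FLTA.Periods (gamma0GL gamma0GL_apply gamma0GL_injective)

namespace FLTA.Kummer

section Pic

variable {K F F' : Type*} [Field K] [CharZero K] [Field F] [Field F'] [Algebra K F] [Algebra K F']
variable [Curves.IsSepFunctionField K F] [Curves.IsSepFunctionField K F']

theorem TorsionRep.push (φ : F →ₐ[K] F') {n : ℕ} {x : Pic0 K F'} {f : F'}
    (h : TorsionRep n x f) :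
    TorsionRep n (Carayol.pushPic φ x) (letI := algebraAlong φ; Algebra.norm F f) := by
  have hfin := Curves.finiteAlong φ
  have hN := Curves.normFormulaAlong φ hfin (Curves.separableAlong_of_charZero φ)
  obtain ⟨hf, D, rfl, hD⟩ := h
  refine ⟨?_, _, (Carayol.pushPic_mk φ D).symm, fun v => ?_⟩
  · letI := algebraAlong φ
    haveI : Module.Finite F F' := hfin
    exact Algebra.norm_ne_zero_iff.2 hf
  · have h := hN f hf ((n : ℤ) • (D : Divisor K F')) (fun w => by
      rw [Finsupp.smul_apply, smul_eq_mul, hD]) v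
    rw [← h]
    show _ = Divisor.pushforwardAlong φ (Curves.isIntegral_of_algHom φ) ((n : ℤ) • (D : Divisor K F')) v
    rw [map_zsmul, Finsupp.smul_apply, smul_eq_mul]

end Pic

local notation "Qb" => AlgebraicClosure ℚ
local notation "ιbar" => AlgHom.toRingHom complexEmbedding

variable {N p : ℕ} [NeZero N] [NeZero p]

section Abstract

variable {n : ℕ} [NeZero n]

/-- A pushforward kills a torsion class whose traces of the Kummer character vanish. -/
theorem pushPic_eq_zero_of_transfer {ι : Type} [Fintype ι] [Nonempty ι]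
    (φ : modularFunctionFieldBar N →ₐ[Qb] modularFunctionFieldBar (N * p))
    (T : ι → GL(2, ℝ)⁺)
    (hT : ∀ i y, meroSmul (T i) (evMero (N * p) ιbar (φ y)) = evMero N ιbar y)
    (hinj : Function.Injective fun i =>
      (meroSmul (T i)).toRingEquiv.toRingHom.comp (evMero (N * p) ιbar))
    (hcard : Fintype.card ι = finrankAlong Qb φ)
    (x : Pic0.torsion Qb (modularFunctionFieldBar (N * p)) n)
    (hrel : ∀ γ : Gamma0 N, ∃ (π : ι ≃ ι) (h : ι → Gamma0 (N * p)),
      (∀ i, T i * slPosHom (γ : SL(2, ℤ)) = slPosHom (h i : SL(2, ℤ)) * T (π i)) ∧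
      ∑ i, (kummerTorsionEquiv (N * p) n x).1
        (Additive.ofMul (frickeConj (N * p) (h i))) = 0) :
    Carayol.pushPic φ x = 0 := by
  obtain ⟨f, F, χ, hf, hF, hχ, hu⟩ := exists_rep_root x
  have hpush := hf.push φ
  set g := (letI := algebraAlong φ; Algebra.norm (modularFunctionFieldBar N) f) with hg
  have hev : evMero N ιbar g = ∏ i, meroSmul (T i) (evMero (N * p) ιbar f) := by
    letI := algebraAlong φ
    haveI : Module.Finite (modularFunctionFieldBar N) (modularFunctionFieldBar (N * p)) :=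
      Curves.finiteAlong φ
    haveI : CharZero (modularFunctionFieldBar N) :=
      charZero_of_injective_algebraMap (algebraMap Qb (modularFunctionFieldBar N)).injective
    exact norm_eq_prod_of_embeddings (evMero N ιbar)
      (fun i => (meroSmul (T i)).toRingEquiv.toRingHom.comp (evMero (N * p) ιbar))
      (fun i => RingHom.ext fun y => hT i y) hinj hcard f
  set G := ∏ i, meroSmul (T i) F with hG
  have hGn : G ^ n = algebraMap ℂ Mero 1 * evMero N ιbar g := by
    rw [map_one, one_mul, hev, hG, ← Finset.prod_pow]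
    exact Finset.prod_congr rfl fun i _ => by rw [← map_pow, hF]
  have hGχ : HasMult (0 : Additive (Gamma0 N) →+ ZMod n) G := by
    intro γ
    obtain ⟨π, h, hh, hsum⟩ := hrel γ
    have hsum' : ∑ i, χ (Additive.ofMul (h i)) = 0 := by
      refine Eq.trans (Finset.sum_congr rfl fun i _ => ?_) hsum
      rw [hu, frickePull_apply, toMul_ofMul, frickeConj_frickeConj]
    have h1 : ∀ i, meroSmul (slPosHom (γ : SL(2, ℤ))) (meroSmul (T i) F) =
        algebraMap ℂ Mero (ZMod.stdAddChar (χ (Additive.ofMul (h i)))) *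
          meroSmul (T (π i)) F := fun i => by
      rw [← meroSmul_mul, hh, meroSmul_mul, hχ, map_mul, AlgEquiv.commutes]
    rw [hG, map_prod]
    simp_rw [h1]
    rw [Finset.prod_mul_distrib, ← map_prod, ← addChar_sum, hsum', AddMonoidHom.zero_apply,
      Equiv.prod_comp π fun i => meroSmul (T i) F]
  let y : Pic0.torsion Qb (modularFunctionFieldBar N) n :=
    ⟨Carayol.pushPic φ x, by
      rw [Pic0.mem_torsion, ← map_zsmul, Pic0.mem_torsion.mp x.2, map_zero]⟩
  have hy : kummerTorsionEquiv N n y = 0 := by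
    refine Subtype.ext ?_
    rw [kummerTorsionEquiv_eq_of_root (x := y) hpush one_ne_zero hGn hGχ, map_zero]
    rfl
  rw [EmbeddingLike.map_eq_zero_iff] at hy
  exact congrArg Subtype.val hy

end Abstract

omit [NeZero p] in
theorem lowerUni_coset (a b : ℤ) :
    ((N * p : ℕ) : ℤ) ∣ gmat (lowerUni N a * (lowerUni N b)⁻¹) 1 0 ↔ (p : ℤ) ∣ a - b := by
  rw [gmat_mul_lowerUni_inv, gmat_lowerUni]
  simp only [Matrix.of_apply, Matrix.cons_val', Matrix.cons_val_zero, Matrix.cons_val_one,
    Matrix.empty_val', Matrix.cons_val_fin_one, mul_one]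
  rw [← mul_sub]
  push_cast
  exact mul_dvd_mul_iff_left (natCast_ne_zero' N)

/-- Translation by `Γ₀(N)` permutes the lower unitriangular coset representatives. -/
theorem exists_perm_lowerUni [hp : Fact p.Prime] (hpN : p ∣ N) (c : ZMod p → ℤ)
    (hc : Function.Bijective fun j => ((c j : ℤ) : ZMod p)) (γ : Gamma0 N) :
    ∃ (π : ZMod p ≃ ZMod p) (h : ZMod p → Gamma0 (N * p)), ∀ j,
      gamma0GL N (lowerUni N (c j)) * gamma0GL N γ =
        gamma0GL (N * p) (h j) * gamma0GL N (lowerUni N (c (π j))) := by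
  have hex : ∀ j, ∃ k, ((N * p : ℕ) : ℤ) ∣
      gmat (lowerUni N (c j) * γ * (lowerUni N (c k))⁻¹) 1 0 := by
    intro j
    set δ := lowerUni N (c j) * γ
    obtain ⟨i, hi⟩ := exists_lowerUni_dvd (p := p) δ fun hd => by
      obtain ⟨e, he⟩ := dvd_lowerLeft N δ
      have hdet := (δ : SL(2, ℤ)).det_coe
      rw [Matrix.det_fin_two, he] at hdet
      have h1 : (p : ℤ) ∣ 1 := by
        rw [← hdet]
        exact dvd_sub (hd.mul_left _)
          ((((Int.natCast_dvd_natCast.2 hpN).mul_right e)).mul_left _)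
      exact hp.out.one_lt.ne' (Nat.dvd_one.1 (by exact_mod_cast h1))
    obtain ⟨k, hk⟩ := hc.2 ((-(i.val : ℤ) : ℤ) : ZMod p)
    refine ⟨k, ?_⟩
    obtain ⟨m, hm⟩ : (p : ℤ) ∣ -(i.val : ℤ) - c k := by
      rw [← ZMod.intCast_zmod_eq_zero_iff_dvd, Int.cast_sub, sub_eq_zero]
      exact hk.symm
    rw [gmat_mul_lowerUni_inv] at hi ⊢
    obtain ⟨e, he⟩ := hi
    refine ⟨e + m * gmat δ 1 1, ?_⟩
    push_cast at he ⊢
    linear_combination he + ((N : ℤ) * gmat δ 1 1) * hm
  choose k hk using hex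
  have hinj : Function.Injective k := by
    intro i j hij
    have hmem : ∀ j, ((lowerUni N (c j) * γ * (lowerUni N (c (k j)))⁻¹ : Gamma0 N) : SL(2, ℤ)) ∈
        Gamma0 (N * p) := fun j => FLTA.Periods.mem_Gamma0_of_dvd (hk j)
    have h := (Gamma0 (N * p)).mul_mem (hmem i) ((Gamma0 (N * p)).inv_mem (hmem j))
    rw [← Subgroup.coe_inv, ← Subgroup.coe_mul, hij,
      show lowerUni N (c i) * γ * (lowerUni N (c (k j)))⁻¹ *
        (lowerUni N (c j) * γ * (lowerUni N (c (k j)))⁻¹)⁻¹ =
          lowerUni N (c i) * (lowerUni N (c j))⁻¹ by group] at h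
    refine hc.1 (sub_eq_zero.1 ?_)
    rw [← Int.cast_sub, ZMod.intCast_zmod_eq_zero_iff_dvd]
    exact (lowerUni_coset _ _).1 (FLTA.Periods.dvd_of_mem_Gamma0 h)
  refine ⟨Equiv.ofBijective k ⟨hinj, Finite.surjective_of_injective hinj⟩,
    fun j => ⟨((lowerUni N (c j) * γ * (lowerUni N (c (k j)))⁻¹ : Gamma0 N) : SL(2, ℤ)),
      FLTA.Periods.mem_Gamma0_of_dvd (hk j)⟩, fun j => ?_⟩
  show gamma0GL N (lowerUni N (c j)) * gamma0GL N γ =
    gamma0GL N (lowerUni N (c j) * γ * (lowerUni N (c (k j)))⁻¹) * gamma0GL N (lowerUni N (c (k j)))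
  rw [← map_mul, ← map_mul, inv_mul_cancel_right]

theorem frickeGL_mul_lowerUni (j : ℤ) (m : ℕ) (hj : j = -(m : ℤ)) :
    frickeGL (N * p) * gamma0GL N (lowerUni N j) =
      ModularForm.heckeMatrix p m * frickeGL N := by
  subst hj
  have hp := NeZero.ne p
  ext a b
  fin_cases a <;> fin_cases b <;>
    simp [val_frickeGL, gmat_lowerUni, hp, Matrix.mul_apply, Fin.sum_univ_two] <;>
    ring

/-- The upper unitriangular element `[1, t; 0, 1]`. -/
def upperUni (N : ℕ) (t : ℤ) : Gamma0 N :=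
  ⟨⟨!![1, t; 0, 1], by simp [Matrix.det_fin_two_of]⟩,
    FLTA.Periods.mem_Gamma0_of_dvd (by simp)⟩

/-- The representatives for the trace along `β`. -/
def betaRep (N p : ℕ) (j : ZMod p) : GL(2, ℝ)⁺ :=
  (diagPos p)⁻¹ * slPosHom (upperUni N (-(j.val : ℤ)) : SL(2, ℤ))

theorem frickeGL_mul_betaRep (j : ZMod p) :
    frickeGL (N * p) * ((betaRep N p j : GL(2, ℝ)⁺) : GL (Fin 2) ℝ) =
      gamma0GL N (lowerUni N (j.val : ℤ)) * frickeGL N := by
  have hp : (p : ℝ) ≠ 0 := Nat.cast_ne_zero.mpr (NeZero.ne p)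
  have hD : ((ModularForm.heckeDiagMatrix p)⁻¹ : GL (Fin 2) ℝ) =
      Matrix.GeneralLinearGroup.mkOfDetNeZero !![(p : ℝ)⁻¹, 0; 0, 1] (by simp [hp]) := by
    refine inv_eq_of_mul_eq_one_right ?_
    ext r s
    fin_cases r <;> fin_cases s <;>
      simp [Matrix.mul_apply, Fin.sum_univ_two, ModularForm.val_heckeDiagMatrix (NeZero.ne p),
        Matrix.GeneralLinearGroup.mkOfDetNeZero, hp]
  rw [show ((betaRep N p j : GL(2, ℝ)⁺) : GL (Fin 2) ℝ) =
    (ModularForm.heckeDiagMatrix p)⁻¹ * gamma0GL N (upperUni N (-(j.val : ℤ))) from rfl, hD]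
  ext a b
  simp only [Units.val_mul, val_gamma0GL]
  fin_cases a <;> fin_cases b <;>
    simp [val_frickeGL, gmat_lowerUni, gmat, upperUni, Matrix.mul_apply, Matrix.vecMul,
      dotProduct, Matrix.map_apply, Fin.sum_univ_two, Matrix.GeneralLinearGroup.mkOfDetNeZero, -ZMod.natCast_val]
  all_goals field_simp

theorem betaRep_injective [Fact p.Prime] {L : Type*} [Field L] [Algebra ℚ L] (ι₀ : L →+* ℂ) :
    Function.Injective fun j : ZMod p => (meroSmul (betaRep N p j)).toRingEquiv.toRingHom.comp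
      (evMero (N * p) ι₀) := by
  intro i j hij
  have h := RingHom.congr_fun hij (jElt (N * p) L (one_dvd (N * p)))
  have h' : meroSmul (betaRep N p i) (evMero (N * p) ι₀ (jElt (N * p) L (one_dvd (N * p)))) =
      meroSmul (betaRep N p j) (evMero (N * p) ι₀ (jElt (N * p) L (one_dvd (N * p)))) := h
  rw [evMero_jElt, meroSmul_algebraMap, meroSmul_algebraMap] at h'
  have h'' := IsFractionRing.injective Hol Mero h'
  let W : SL(2, ℤ) := ⟨!![0, -1; 1, 0], by simp [Matrix.det_fin_two_of]⟩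
  have key : ∀ (k : ZMod p) (τ : UpperHalfPlane),
      jInv (scaleTau 1 (((betaRep N p k : GL(2, ℝ)⁺) : GL (Fin 2) ℝ) • τ)) =
        jInv (scaleTau p ((W * (upperUni N (-(k.val : ℤ)) : SL(2, ℤ))) • τ)) := by
    intro k τ
    set z := (upperUni N (-(k.val : ℤ)) : SL(2, ℤ)) • τ
    set w := ((diagPos p)⁻¹ : GL(2, ℝ)⁺) • z with hw
    have hw' : ((betaRep N p k : GL(2, ℝ)⁺) : GL (Fin 2) ℝ) • τ = w := by
      rw [hw, betaRep, Subgroup.coe_mul, mul_smul]
      rfl
    have hz : scaleTau p w = z := by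
      rw [← coe_diagPos_smul, hw]
      show ((diagPos p : GL(2, ℝ)⁺) : GL (Fin 2) ℝ) •
        (((diagPos p)⁻¹ : GL(2, ℝ)⁺) : GL (Fin 2) ℝ) • z = z
      rw [Subgroup.coe_inv, smul_inv_smul]
    have h1 : scaleTau 1 w = w := UpperHalfPlane.ext (by simp [coe_scaleTau])
    have h2 : W • w = scaleTau p (W • z) := by
      refine UpperHalfPlane.ext ?_
      have hzC : (z : ℂ) = p * (w : ℂ) := by rw [← hz, coe_scaleTau]
      have hp0 : (p : ℂ) ≠ 0 := Nat.cast_ne_zero.mpr (NeZero.ne p)
      have hw0 : (w : ℂ) ≠ 0 := UpperHalfPlane.ne_zero w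
      rw [coe_scaleTau, UpperHalfPlane.coe_specialLinearGroup_apply,
        UpperHalfPlane.coe_specialLinearGroup_apply, hzC]
      simp [W]
      field_simp
    rw [hw', h1, mul_smul, ← h2, jInv_smul]
  have hmem := eq_of_jInv_scaleTau_smul_eq p (g := W * (upperUni N (-(i.val : ℤ)) : SL(2, ℤ)))
    (g' := W * (upperUni N (-(j.val : ℤ)) : SL(2, ℤ))) fun τ => by
      rw [← key, ← key]
      exact congrArg (fun F : Hol => (F : UpperHalfPlane → ℂ) τ) h''
  have hd := FLTA.Periods.dvd_of_mem_Gamma0 hmem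
  refine zmod_val_inj ?_
  have e : ∀ t : ℤ, ((W * (upperUni N t : SL(2, ℤ)) : SL(2, ℤ)) : Matrix (Fin 2) (Fin 2) ℤ) =
      !![0, -1; 1, t] := fun t => by
    rw [Matrix.SpecialLinearGroup.coe_mul]
    show !![(0 : ℤ), -1; 1, 0] * !![1, t; 0, 1] = _
    simp
  rw [Matrix.SpecialLinearGroup.coe_mul, Matrix.SpecialLinearGroup.coe_inv, e, e,
    Matrix.adjugate_fin_two_of, Matrix.mul_apply, Fin.sum_univ_two] at hd
  obtain ⟨m, hm⟩ := hd
  simp [-ZMod.natCast_val] at hm
  exact ⟨m, by linear_combination hm⟩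

section Vanishing

variable {n : ℕ} [NeZero n] [hp : Fact p.Prime]

/-- The pushforward along `α` kills a class whose traces through `[1, j; 0, p]` vanish. -/
theorem pushAlpha_eq_zero (hpN : p ∣ N)
    (x : Pic0.torsion Qb (modularFunctionFieldBar (N * p)) n)
    (hu : ∀ (g : Gamma0 N) (π : ZMod p ≃ ZMod p) (h : ZMod p → Gamma0 (N * p)),
      (∀ j, ModularForm.heckeMatrix p j.val * gamma0GL N g =
        gamma0GL (N * p) (h j) * ModularForm.heckeMatrix p (π j).val) →
      ∑ j, (kummerTorsionEquiv (N * p) n x).1 (Additive.ofMul (h j)) = 0) :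
    Carayol.pushAlpha N p x = 0 := by
  have hinj : Function.Injective fun j : ZMod p =>
      (meroSmul (slPosHom (lowerUni N (-(j.val : ℤ)) : SL(2, ℤ)))).toRingEquiv.toRingHom.comp
        (evMero (N * p) ιbar) := embOf_injective (L := Qb) ιbar (normRepsU (N := N) hpN)
  have hc : Fintype.card (ZMod p) = finrankAlong Qb (heckeAlphaBar Qb N p) :=
    (finrankAlong_heckeAlphaBar ιbar (normRepsU (N := N) hpN)).symm
  show Carayol.pushPic (heckeAlphaBar Qb N p) (x : JZero (N * p)) = 0
  refine @pushPic_eq_zero_of_transfer N p _ _ n _ (ZMod p) _ _ (heckeAlphaBar Qb N p)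
    (fun j => slPosHom (lowerUni N (-(j.val : ℤ)) : SL(2, ℤ))) (fun j y => ?_) hinj hc x
    (fun γ => ?_)
  · exact (congrArg (meroSmul _) (evMero_heckeAlphaBar ιbar y)).trans
      (meroSmul_evMero N ιbar (lowerUni N (-(j.val : ℤ))).2 y)
  · obtain ⟨π, h, hh⟩ := exists_perm_lowerUni hpN (fun j : ZMod p => -(j.val : ℤ))
      (by
        have he : (fun j : ZMod p => ((-(j.val : ℤ) : ℤ) : ZMod p)) = Neg.neg := by
          funext j
          simp
        rw [he]
        exact neg_involutive.bijective) γ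
    refine ⟨π, h, fun i => Subtype.ext (hh i), ?_⟩
    refine hu (frickeConj N γ) π (fun i => frickeConj (N * p) (h i)) fun j => ?_
    refine mul_right_cancel (b := frickeGL N) ?_
    rw [mul_assoc, ← conj_frickeGL_eq_iff.1 (conj_frickeGL_gamma0GL γ), ← mul_assoc,
      ← frickeGL_mul_lowerUni _ j.val rfl, mul_assoc, hh, ← mul_assoc,
      conj_frickeGL_eq_iff.1 (conj_frickeGL_gamma0GL (h j)), mul_assoc,
      frickeGL_mul_lowerUni _ (π j).val rfl, ← mul_assoc]

/-- The pushforward along `β` kills a class whose traces through `[1, 0; N j, 1]` vanish. -/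
theorem pushBeta_eq_zero (hpN : p ∣ N)
    (x : Pic0.torsion Qb (modularFunctionFieldBar (N * p)) n)
    (hu : ∀ (g : Gamma0 N) (π : ZMod p ≃ ZMod p) (h : ZMod p → Gamma0 (N * p)),
      (∀ j : ZMod p, gamma0GL N (lowerUni N (j.val : ℤ)) * gamma0GL N g =
        gamma0GL (N * p) (h j) * gamma0GL N (lowerUni N ((π j).val : ℤ))) →
      ∑ j, (kummerTorsionEquiv (N * p) n x).1 (Additive.ofMul (h j)) = 0) :
    Carayol.pushBeta N p x = 0 := by
  show Carayol.pushPic (heckeBetaBar Qb N p) (x : JZero (N * p)) = 0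
  refine pushPic_eq_zero_of_transfer (heckeBetaBar Qb N p) (betaRep N p) (fun j y => ?_)
    (betaRep_injective ιbar) ?_ x (fun γ => ?_)
  · rw [evMero_heckeBetaBar, ← meroSmul_mul, betaRep, mul_inv_cancel_left]
    exact meroSmul_evMero N ιbar (upperUni N (-(j.val : ℤ))).2 y
  · exact (finrankAlong_heckeAlphaBar ιbar (normRepsU (N := N) hpN)).symm.trans
      (finrankAlong_heckeBetaBar_eq N p).symm
  · obtain ⟨π, h, hh⟩ := exists_perm_lowerUni hpN (fun j : ZMod p => (j.val : ℤ))
      (by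
        have he : (fun j : ZMod p => (((j.val : ℤ) : ℤ) : ZMod p)) = id := by
          funext j
          simp
        rw [he]
        exact Function.bijective_id) (frickeConj N γ)
    refine ⟨π, fun i => frickeConj (N * p) (h i), fun j => Subtype.ext ?_, ?_⟩
    · refine mul_left_cancel (a := frickeGL (N * p)) ?_
      show frickeGL (N * p) * (((betaRep N p j : GL(2, ℝ)⁺) : GL (Fin 2) ℝ) * gamma0GL N γ) =
        frickeGL (N * p) * (gamma0GL (N * p) (frickeConj (N * p) (h j)) *
          ((betaRep N p (π j) : GL(2, ℝ)⁺) : GL (Fin 2) ℝ))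
      rw [← mul_assoc, frickeGL_mul_betaRep, mul_assoc,
        conj_frickeGL_eq_iff.1 (conj_frickeGL_gamma0GL γ), ← mul_assoc, hh, mul_assoc,
        ← frickeGL_mul_betaRep, ← mul_assoc, ← mul_assoc (frickeGL (N * p)),
        conj_frickeGL_eq_iff.1 (conj_frickeGL_gamma0GL (frickeConj (N * p) (h j))),
        frickeConj_frickeConj]
    · rw [← hu (frickeConj N γ) π h hh]
      exact Finset.sum_congr rfl fun i _ => by rw [frickeConj_frickeConj]

end Vanishing

end FLTA.Kummer
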